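import Fermat.Agent.CarayolSquare.Geometry.Embeddings
import Mathlib.RingTheory.Polynomial.Cyclotomic.Eval

/-!
# Automorphisms of the series permuting the lines affinely

`twistSer` combines a substitution with an automorphism `sigma` of the coefficients; its action on
lines is `affLine`, and `twistSer_emb` is its compatibility with the embeddings.
-/

set_option autoImplicit false

noncomputable section

open ModularCurve

namespace FLTAgent.CarayolSquare

local notation "Qbar" => AlgebraicClosure ℚ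

variable {q : ℕ} [NeZero q]

namespace Ctx

variable (X : Ctx q)

theorem valuation_one_sub_eq {μ ν : Qbar} (hμ : IsPrimitiveRoot μ q) (hν : IsPrimitiveRoot ν q) :
    X.A.valuation (1 - μ) ≤ X.A.valuation (1 - ν) := by
  obtain ⟨i, -, rfl⟩ := hν.eq_pow_of_pow_eq_one hμ.pow_eq_one
  rw [← geom_sum_mul_neg ν i, map_mul]
  refine mul_le_of_le_one_left' ?_
  rw [X.A.valuation_le_one_iff]
  have hνA : ν ∈ X.A := by
    rw [← X.A.valuation_le_one_iff]
    refine le_of_eq ((pow_eq_one_iff_left X.prime.ne_zero).mp ?_)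
    rw [← map_pow, hν.pow_eq_one, map_one]
  exact sum_mem fun j _ => pow_mem hνA j

theorem valuation_q_eq {S : Finset Qbar} (hS : S = primitiveRoots q Qbar) {μ : Qbar}
    (hμ : IsPrimitiveRoot μ q) :
    X.A.valuation (q : Qbar) = X.A.valuation (1 - μ) ^ S.card := by
  have : Fact q.Prime := ⟨X.prime⟩
  have h := congrArg (Polynomial.eval (1 : Qbar))
      (Polynomial.cyclotomic_eq_prod_X_sub_primitiveRoots hμ)
  rw [Polynomial.eval_one_cyclotomic_prime, Polynomial.eval_prod] at h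
  simp only [Polynomial.eval_sub, Polynomial.eval_X, Polynomial.eval_C] at h
  rw [h, map_prod, ← hS, Finset.prod_congr rfl fun ν hν => ?_, Finset.prod_const]
  rw [hS] at hν
  have hν' := (mem_primitiveRoots (Nat.pos_of_ne_zero (NeZero.ne q))).mp hν
  exact le_antisymm (X.valuation_one_sub_eq hν' hμ) (X.valuation_one_sub_eq hμ hν')

/-- Inertia moves `ζ` to every primitive root. -/
theorem exists_sigma {μ : Qbar} (hμ : IsPrimitiveRoot μ q) :
    ∃ σ ∈ X.fixedData.G, σ X.ζ = μ := by
  classical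
  have : Fact q.Prime := ⟨X.prime⟩
  have hpos : 0 < q := X.prime.pos
  set S := primitiveRoots q Qbar with hS
  set T := S.filter fun ν => ∃ σ ∈ X.fixedData.G, σ X.ζ = ν with hT
  have hζS : X.ζ ∈ S := (mem_primitiveRoots hpos).mpr X.hζ
  have hζT : X.ζ ∈ T := Finset.mem_filter.mpr ⟨hζS, 1, one_mem _, rfl⟩
  let Q : Polynomial Qbar := ∏ z ∈ T, (Polynomial.X - Polynomial.C z)
  have hfix : ∀ σ ∈ X.fixedData.G, Q.map (σ : Qbar →+* Qbar) = Q := by
    intro σ hσ
    simp only [Q, Polynomial.map_prod, Polynomial.map_sub, Polynomial.map_X, Polynomial.map_C]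
    refine Finset.prod_bij (fun z _ => σ z) (fun z hz => ?_) (fun _ _ _ _ h => σ.injective h)
      (fun z hz => ⟨σ⁻¹ z, ?_, by rw [← AlgEquiv.mul_apply, mul_inv_cancel]; rfl⟩) fun z _ => rfl
    · rw [hT, Finset.mem_filter, hS, mem_primitiveRoots hpos] at hz ⊢
      obtain ⟨h1, τ, hτ, rfl⟩ := hz
      exact ⟨h1.map_of_injective σ.injective, σ * τ, mul_mem hσ hτ, rfl⟩
    · rw [hT, Finset.mem_filter, hS, mem_primitiveRoots hpos] at hz ⊢
      obtain ⟨h1, τ, hτ, rfl⟩ := hz
      exact ⟨h1.map_of_injective σ⁻¹.injective, σ⁻¹ * τ, mul_mem (inv_mem hσ) hτ, rfl⟩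
  obtain ⟨N, hN⟩ : Q.eval 1 ∈ Set.range (algebraMap X.K Qbar) := X.fixedData.fixed _ fun σ hσ => by
    conv_rhs => rw [← hfix σ hσ]
    rw [Polynomial.eval_map, ← map_one (σ : Qbar →+* Qbar), Polynomial.eval₂_hom]
    simp
  have hval : X.A.valuation (algebraMap X.K Qbar N) = X.A.valuation (1 - X.ζ) ^ T.card := by
    rw [hN]
    simp only [Q, Polynomial.eval_prod, Polynomial.eval_sub, Polynomial.eval_X, Polynomial.eval_C,
      map_prod]
    rw [Finset.prod_congr rfl fun ν hν => ?_, Finset.prod_const]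
    have hν' := (mem_primitiveRoots hpos).mp (Finset.mem_filter.mp hν).1
    exact le_antisymm (X.valuation_one_sub_eq hν' X.hζ) (X.valuation_one_sub_eq X.hζ hν')
  have hone : (1 : Qbar) - X.ζ ≠ 0 := sub_ne_zero.mpr (X.hζ.ne_one X.prime.one_lt).symm
  have hN0 : N ≠ 0 := fun h => by
    rw [h, map_zero, map_zero, eq_comm] at hval
    exact pow_ne_zero _ ((_root_.map_ne_zero _).mpr hone) hval
  obtain ⟨i, j, hij⟩ := X.exists_valuation_eq_pow N hN0
  rw [hval, X.valuation_q_eq rfl X.hζ, ← pow_mul, ← pow_mul, ← pow_add] at hij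
  have hlt : X.A.valuation (1 - X.ζ) < 1 := by
    refine lt_of_le_of_ne ((X.A.valuation_le_one_iff _).mpr
      (X.A.toSubring.sub_mem X.A.one_mem X.ζ_mem_A)) fun h => ?_
    have := X.valuation_q_eq rfl X.hζ
    rw [h, one_pow] at this
    exact X.q_lt_one.ne this
  have hexp : T.card + S.card * i = S.card * j :=
    pow_right_injective₀ (X.A.valuation.pos_iff.mpr hone) hlt.ne hij
  have hTpos : 0 < T.card := Finset.card_pos.mpr ⟨_, hζT⟩
  have hle : T.card ≤ S.card := Finset.card_filter_le _ _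
  have heq : T = S := by
    refine Finset.eq_of_subset_of_card_le (Finset.filter_subset _ _) ?_
    have hdvd : S.card ∣ T.card :=
        (Nat.dvd_add_left (dvd_mul_right _ i)).mp (hexp ▸ dvd_mul_right _ j)
    exact Nat.le_of_dvd hTpos hdvd
  have hμT : μ ∈ T := heq ▸ (mem_primitiveRoots hpos).mpr hμ
  exact (Finset.mem_filter.mp hμT).2

theorem zetaU_add (a b : ZMod q) : X.zetaU (a + b) = X.zetaU a * X.zetaU b := by
  refine Units.ext ?_
  show X.ζ ^ (a + b).val = X.ζ ^ a.val * X.ζ ^ b.val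
  rw [← pow_add]
  conv_rhs => rw [pow_eq_pow_mod _ X.hζ.pow_eq_one]
  rw [ZMod.val_add]

omit [NeZero q] in
theorem zeta_pow_val (n : ℕ) : X.ζ ^ ((n : ZMod q)).val = X.ζ ^ n := by
  rw [ZMod.val_natCast]
  exact (pow_eq_pow_mod _ X.hζ.pow_eq_one).symm

/-- The automorphism of inertia moving `ζ` to `ζ ^ a`. -/
def sigma (a : (ZMod q)ˣ) : Qbar ≃ₐ[X.K] Qbar :=
  (X.exists_sigma (X.hζ.pow_of_coprime _ (ZMod.val_coe_unit_coprime a))).choose

theorem sigma_mem (a : (ZMod q)ˣ) : X.sigma a ∈ X.fixedData.G :=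
  (X.exists_sigma (X.hζ.pow_of_coprime _ (ZMod.val_coe_unit_coprime a))).choose_spec.1

theorem sigma_zeta (a : (ZMod q)ˣ) : X.sigma a X.ζ = X.ζ ^ (a : ZMod q).val :=
  (X.exists_sigma (X.hζ.pow_of_coprime _ (ZMod.val_coe_unit_coprime a))).choose_spec.2

/-- The automorphism of the series inducing `x ↦ a x + b` on lines. -/
def twistSer (a : (ZMod q)ˣ) (b : ZMod q) : Ser →+* Ser :=
  (Igusa.scale (X.zetaU b)).comp (coeffMap ((X.sigma a : Qbar ≃ₐ[X.K] Qbar) : Qbar →+* Qbar))

theorem coeffMap_sigma_of_coeffInO (a : (ZMod q)ˣ) {s : Ser} (hs : X.CoeffInO s) :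
    coeffMap ((X.sigma a : Qbar ≃ₐ[X.K] Qbar) : Qbar →+* Qbar) s = s := by
  ext n
  obtain ⟨c, hc⟩ := hs n
  rw [coeffMap_coeff, ← hc]
  exact (X.sigma a).commutes _

theorem scale_up (b : ZMod q) (s : Ser) : Igusa.scale (X.zetaU b) (X.up s) = X.up s := by
  have h : X.zetaU b ^ q = 1 := Units.ext (by
    show (X.ζ ^ b.val) ^ q = 1
    rw [← pow_mul, mul_comm, pow_mul, X.hζ.pow_eq_one, one_pow])
  have := Igusa.scale_qx (X.zetaU b) X.prime.ne_zero s
  rw [Igusa.qx_eq, h, Igusa.scale_one] at this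
  exact this

omit [NeZero q] in
theorem coeffInO_qExpand (N : ℕ) [NeZero N] {s : Ser} (hs : X.CoeffInO s) :
    X.CoeffInO (qExpand Qbar N s) := by
  intro n
  by_cases hn : (N : ℤ) ∣ n
  · obtain ⟨k, rfl⟩ := hn
    rw [qExpand_coeff_mul]
    exact hs k
  · exact ⟨0, by rw [qExpand_coeff_of_not_dvd N s hn]; simp⟩

theorem twistSer_up (a : (ZMod q)ˣ) (b : ZMod q) {s : Ser} (hs : X.CoeffInO s) :
    X.twistSer a b (X.up s) = X.up s := by
  show Igusa.scale (X.zetaU b) (coeffMap _ _) = _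
  have h : X.CoeffInO (X.up s) := X.coeffInO_qExpand q hs
  rw [X.coeffMap_sigma_of_coeffInO a h, X.scale_up]

theorem twistSer_algebraMap (a : (ZMod q)ˣ) (b : ZMod q) (c : X.O) :
    X.twistSer a b (algebraMap X.O Ser c) = algebraMap X.O Ser c := by
  show Igusa.scale (X.zetaU b) (coeffMap _ _) = _
  rw [X.algebraMap_eq_C, HahnSeries.C_apply, coeffMap_single, Igusa.scale_single, zpow_zero,
    Units.val_one, one_mul]
  exact congrArg _ ((X.sigma a).commutes _)

/-- The affine permutation of the lines. -/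
def affLine (a : (ZMod q)ˣ) (b : ZMod q) : Line q → Line q :=
  Option.map fun x => (a : ZMod q) * x + b

theorem twistSer_sub (a : (ZMod q)ˣ) (b : ZMod q) (L : Line q) {s : Ser} (hs : X.CoeffInO s) :
    X.twistSer a b (X.sub L s) = X.sub (affLine a b L) s := by
  cases L with
  | none => exact X.twistSer_up a b (X.coeffInO_qExpand q hs : X.CoeffInO (X.up s))
  | some x =>
    show Igusa.scale (X.zetaU b) (coeffMap _ (Igusa.scale (X.zetaU x) s)) =
      Igusa.scale (X.zetaU ((a : ZMod q) * x + b)) s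
    rw [Igusa.coeffMap_scale, X.coeffMap_sigma_of_coeffInO a hs, Igusa.scale_scale, X.zetaU_add,
      mul_comm]
    congr 3
    refine Units.ext ?_
    show X.sigma a (X.ζ ^ x.val) = X.ζ ^ ((a : ZMod q) * x).val
    rw [map_pow, X.sigma_zeta, ← pow_mul, ← X.zeta_pow_val (_ * _), Nat.cast_mul,
      ZMod.natCast_zmod_val, ZMod.natCast_zmod_val]

omit [NeZero q] in
theorem coeffInO_disc : X.CoeffInO (Igusa.discSeries Qbar) ∧
    X.CoeffInO (Igusa.discInvSeries Qbar) := by
  constructor <;> intro n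
  · rw [← (Igusa.coeffMap_discSeries (Int.castRingHom Qbar)).1, coeffMap_coeff]
    exact ⟨((Igusa.discSeries ℤ).coeff n : X.O), by simp⟩
  · rw [← (Igusa.coeffMap_discSeries (Int.castRingHom Qbar)).2, coeffMap_coeff]
    exact ⟨((Igusa.discInvSeries ℤ).coeff n : X.O), by simp⟩

theorem twistSer_discFam (M₁ : ℕ) [NeZero M₁] (a : (ZMod q)ˣ) (b : ZMod q) (L : Line q) :
    X.twistSer a b (discFam X M₁ L) = discFam X M₁ (affLine a b L) := by
  have h1 := X.coeffInO_qExpand M₁ X.coeffInO_disc.1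
  have h2 := X.coeffInO_qExpand M₁ X.coeffInO_disc.2
  cases L with
  | none =>
    simp only [discFam, map_mul, map_pow, map_natCast, X.twistSer_sub a b none h1,
      X.twistSer_up a b h2]
    rfl
  | some x =>
    simp only [discFam, map_mul, X.twistSer_sub a b (some x) h1, X.twistSer_up a b h2]
    rfl

end Ctx

omit [NeZero q] in
theorem affLine_injective (a : (ZMod q)ˣ) (b : ZMod q) : Function.Injective (Ctx.affLine a b) := by
  refine Option.map_injective fun x y h => ?_
  exact (Units.mul_right_inj a).mp (add_right_cancel h)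

/-- The affine permutation of the pairs. -/
def affPair (a : (ZMod q)ˣ) (b : ZMod q) (P : Pair q) : Pair q :=
  ⟨(Ctx.affLine a b P.1.1, Ctx.affLine a b P.1.2), (affLine_injective a b).ne P.2⟩

omit [NeZero q] in
theorem line_affPair (a : (ZMod q)ˣ) (b : ZMod q) (P : Pair q) (i : Bool) :
    (affPair a b P).line i = Ctx.affLine a b (P.line i) := by
  cases i <;> rfl

namespace Model

variable {X : Ctx q} {M₁ : ℕ} [NeZero M₁] (G : Model X M₁)

theorem twistSer_gs (a : (ZMod q)ˣ) (b : ZMod q) (δ : G.Cusp) (L : Line q) (v : Gen G.C) :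
    X.twistSer a b (G.gs δ L v) = G.gs δ (Ctx.affLine a b L) v := by
  cases v with
  | base c => exact X.twistSer_up a b (G.cs_coeff δ c)
  | pull c =>
    show X.twistSer a b (X.sub L (G.cs (lineCusp G.twP G.twB δ L) c)) =
      X.sub (Ctx.affLine a b L) (G.cs (lineCusp G.twP G.twB δ (Ctx.affLine a b L)) c)
    rw [X.twistSer_sub a b L (G.cs_coeff _ c)]
    cases L <;> rfl
  | disc => exact X.twistSer_discFam M₁ a b L

theorem twistSer_evP (a : (ZMod q)ˣ) (b : ZMod q) (δ : G.Cusp) (P : Pair q) (p : G.PairPoly) :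
    X.twistSer a b (G.evP δ P p) = G.evP δ (affPair a b P) p := by
  induction p using MvPolynomial.induction_on with
  | C c =>
    rw [← MvPolynomial.algebraMap_eq, AlgHom.commutes, AlgHom.commutes, X.twistSer_algebraMap]
  | add x y hx hy => rw [map_add, map_add, map_add, hx, hy]
  | mul_X x v hx =>
    rw [map_mul, map_mul, map_mul, hx, evP, evP, MvPolynomial.aeval_X, MvPolynomial.aeval_X,
      twistSer_gs, line_affPair]

theorem twistSer_emb (a : (ZMod q)ˣ) (b : ZMod q) (δ : G.Cusp) (P : Pair q) (z : G.splitField) :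
    X.twistSer a b (G.emb δ P z) = G.emb δ (affPair a b P) z := by
  obtain ⟨u, v, hv, h⟩ := G.exists_rep z.2
  refine mul_right_cancel₀ (G.evP_ne_zero δ (affPair a b P) hv) ?_
  rw [G.emb_spec δ (affPair a b P) z hv h]
  conv_lhs => rw [← G.twistSer_evP a b δ P v, ← map_mul, G.emb_spec δ P z hv h, G.twistSer_evP]

end Model

end FLTAgent.CarayolSquare
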