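import Fermat.Agent.CarayolSquare.Geometry.Points
import Fermat.Agent.CarayolSquare.Cover
import Mathlib.FieldTheory.IsAlgClosed.Basic

/-!
# The local theorem from gluing at the three kinds of points

`exists_root_balanced` applies the triviality of cyclic covers to a balanced function, and
`rootDescends_of_glue` deduces `RootDescends` from gluing at ordinary points, supersingular points
and cusps.
-/

set_option autoImplicit false
set_option linter.unusedSectionVars false

noncomputable section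

open Polynomial

namespace FLTAgent.CarayolSquare

theorem bijective_of_isIntegral_adjoin {k R : Type*} [Field k] [IsAlgClosed k] [Field R]
    [Algebra k R] (u : R) (h : ∀ r : R, IsIntegral (Algebra.adjoin k ({u} : Set R)) r) :
    Function.Bijective (algebraMap k R) := by
  let S := Algebra.adjoin k ({u} : Set R)
  have : Algebra.IsIntegral S R := ⟨h⟩
  have hu : IsIntegral k u := by
    rcases eq_or_ne u 0 with rfl | hu0
    · exact isIntegral_zero
    have hF : IsField S :=
      isField_of_isIntegral_of_isField Subtype.val_injective (Field.toIsField R)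
    obtain ⟨⟨v, hv⟩, huv⟩ := hF.mul_inv_cancel (a := ⟨u, Algebra.self_mem_adjoin_singleton k u⟩)
      fun h0 => hu0 (congrArg Subtype.val h0)
    obtain ⟨p, rfl⟩ := (Algebra.adjoin_singleton_eq_range_aeval k u).le hv
    refine IsAlgebraic.isIntegral ⟨Polynomial.X * p - 1, fun h0 => ?_, ?_⟩
    · have := congrArg (fun P => Polynomial.coeff P 0) h0
      simp at this
    · have := congrArg Subtype.val huv
      rw [map_sub, map_mul, aeval_X, map_one]
      exact sub_eq_zero.mpr this
  have : Algebra.IsIntegral k S := Algebra.IsIntegral.adjoin (fun x hx => by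
    rw [Set.mem_singleton_iff.mp hx]; exact hu)
  have : Algebra.IsIntegral k R := Algebra.IsIntegral.trans S
  exact IsAlgClosed.algebraMap_bijective_of_isIntegral

/-- `intSet` is integrally closed. -/
theorem mem_intSet_of_isIntegral {O A : Type*} [CommRing O] [Field A] [Algebra O A] {s : Set A}
    {z : A} (hz : IsIntegral (intSet O s) z) : z ∈ intSet O s :=
  isIntegral_trans (R := Algebra.adjoin O s) (A := integralClosure (Algebra.adjoin O s) A) z hz

theorem inclusion_val {R : Type*} [CommRing R] {S T : Subring R} (h : S ≤ T) (z : S) :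
    ((Subring.inclusion h z : T) : R) = (z : R) := rfl

variable {q : ℕ}

theorem Ctx.ker_resK (X : Ctx q) : RingHom.ker X.resK = Ideal.span {(q : X.O)} := by
  have := X.dvr
  rw [← (X.irreducible_q).maximalIdeal_eq]
  exact IsLocalRing.ker_eq_maximalIdeal _ X.resK_surjective

theorem Ctx.isUnit_natCast (X : Ctx q) {m : ℕ} (hm : ¬ q ∣ m) : IsUnit (m : X.O) := by
  have := X.dvr
  by_contra h
  have h1 : (m : X.O) ∈ RingHom.ker X.resK := by
    rw [IsLocalRing.ker_eq_maximalIdeal _ X.resK_surjective]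
    exact (IsLocalRing.mem_maximalIdeal _).mpr h
  rw [RingHom.mem_ker, map_natCast] at h1
  have : CharP X.k q := (CharP.charP_iff_prime_eq_zero X.prime).mpr X.natCast_k
  exact hm ((CharP.cast_eq_zero_iff X.k q m).mp h1)

variable [NeZero q] [Fact q.Prime]

namespace Model

variable {X : Ctx q} {M₁ : ℕ} [NeZero M₁] (G : Model X M₁)

local notation "F" => G.splitField
local notation "Ω" => AlgebraicClosure G.splitField

theorem mem_adjoin_base {a : G.C} (ha : (a : Ser) ∈ G.hRing) :
    G.baseHom a ∈ Algebra.adjoin X.O ({G.baseHom G.h, G.baseHom G.Dinv} : Set F) := by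
  have h1 : a ∈ Algebra.adjoin X.O ({G.h, G.Dinv} : Set G.C) := by
    have h2 : (a : Ser) ∈ (Algebra.adjoin X.O ({G.h, G.Dinv} : Set G.C)).map G.C.val := by
      rw [AlgHom.map_adjoin, Set.image_pair]
      exact ha
    obtain ⟨a', ha', e⟩ := h2
    exact (Subtype.ext e : a' = a) ▸ ha'
  have h3 := (Subalgebra.mem_map (f := G.baseHom)).mpr ⟨a, h1, rfl⟩
  rwa [AlgHom.map_adjoin, Set.image_pair] at h3

/-- Denominators `E` of the open chart over a chart. -/
theorem clear_openChart {u : Ser} (hu : G.Coord u) (U : G.C) (hU : (U : Ser) = u)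
    {z : F} (hz : z ∈ G.openChart) :
    ∃ N : ℕ, aeval (G.baseHom U) hu.E ^ N * z ∈ G.uChart (G.baseHom U) := by
  have hval : ∀ p : X.O[X], G.valO (aeval (G.baseHom U) p) = X.upA (aeval u p) := fun p => by
    rw [← aeval_algHom_apply, ← aeval_algHom_apply, G.valO_baseHom, hU]
  refine isIntegral_clear (aeval_mem_adjoin_singleton _ _) (fun a ha => ?_) hz
  obtain ⟨c, hc, hca⟩ : ∃ c : G.C, (c : Ser) ∈ G.hRing ∧ G.baseHom c = a := by
    have h1 : a ∈ (Algebra.adjoin X.O ({G.h, G.Dinv} : Set G.C)).map G.baseHom := by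
      rw [AlgHom.map_adjoin, Set.image_pair]
      exact ha
    obtain ⟨c, hc, rfl⟩ := h1
    refine ⟨c, ?_, rfl⟩
    have h2 := (Subalgebra.mem_map (f := G.C.val)).mpr ⟨c, hc, rfl⟩
    rwa [AlgHom.map_adjoin, Set.image_pair] at h2
  obtain ⟨N, hN⟩ := hu.clear _ hc
  refine ⟨N, ?_⟩
  rw [Algebra.adjoin_singleton_eq_range_aeval] at hN
  obtain ⟨p, hp⟩ := hN
  rw [Algebra.adjoin_singleton_eq_range_aeval]
  refine ⟨p, Subtype.ext ?_⟩
  show G.valO (aeval (G.baseHom U) p) = G.valO (aeval (G.baseHom U) hu.E ^ N * a)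
  rw [map_mul, map_pow, hval, hval, ← hca, G.valO_baseHom, ← map_pow, ← map_mul]
  exact congrArg X.upA hp

variable {G}

/-- A point extends to a ring all of whose elements are multiplied into its ring by powers of an
element not vanishing at it. -/
theorem Point.exists_extend {B B' : Subring F} (P : G.Point B) (e : B) (he : P.φ e ≠ 0)
    (hclear : ∀ z ∈ B', ∃ N : ℕ, (e : F) ^ N * z ∈ B) (hO : ∀ c, algebraMap X.O F c ∈ B) :
    ∃ P' : G.Point B', ∀ (z : B') (N : ℕ) (h : (e : F) ^ N * z ∈ B),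
      P.φ e ^ N * P'.φ z = P.φ ⟨_, h⟩ := by
  choose N hN using fun z : B' => hclear z z.2
  have key : ∀ (z : B') (i : ℕ) (hi : (e : F) ^ i * z ∈ B),
      P.φ e ^ i * (P.φ ⟨_, hN z⟩ / P.φ e ^ N z) = P.φ ⟨_, hi⟩ := by
    intro z i hi
    rw [← mul_div_assoc, div_eq_iff (pow_ne_zero _ he), ← map_pow, ← map_pow, ← map_mul, ← map_mul]
    refine congrArg P.φ (Subtype.ext ?_)
    push_cast
    ring
  refine ⟨⟨{ toFun := fun z => P.φ ⟨_, hN z⟩ / P.φ e ^ N z
             map_one' := ?_, map_mul' := ?_, map_zero' := ?_, map_add' := ?_ }, ?_⟩, key⟩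
  · have := key 1 0 (by simp [one_mem])
    simp only [pow_zero, one_mul] at this
    rw [this, ← map_one P.φ]
    exact congrArg P.φ (Subtype.ext (by push_cast; simp))
  · intro a b
    have h := key (a * b) (N a + N b) (by
      push_cast
      rw [show (e : F) ^ (N a + N b) * ((a : F) * b) = ((e : F) ^ N a * a) *
          ((e : F) ^ N b * b) by ring]
      exact mul_mem (hN a) (hN b))
    refine mul_left_cancel₀ (pow_ne_zero (N a + N b) he) (h.trans ?_)
    have e2 : P.φ e ^ (N a + N b) *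
        (P.φ ⟨_, hN a⟩ / P.φ e ^ N a * (P.φ ⟨_, hN b⟩ / P.φ e ^ N b)) =
        P.φ (⟨_, hN a⟩ * ⟨_, hN b⟩) := by
      rw [map_mul, pow_add, div_mul_div_comm,
        mul_div_cancel₀ _ (mul_ne_zero (pow_ne_zero _ he) (pow_ne_zero _ he))]
    refine Eq.trans ?_ e2.symm
    exact congrArg P.φ (Subtype.ext (by push_cast; ring))
  · have := key 0 0 (by simp [zero_mem])
    simp only [pow_zero, one_mul] at this
    rw [this, ← map_zero P.φ]
    exact congrArg P.φ (Subtype.ext (by push_cast; simp))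
  · intro a b
    have ha : (e : F) ^ (N a + N b) * a ∈ B := by
      rw [add_comm, pow_add, mul_assoc]; exact mul_mem (pow_mem e.2 _) (hN a)
    have hb : (e : F) ^ (N a + N b) * b ∈ B := by
      rw [pow_add, mul_assoc]; exact mul_mem (pow_mem e.2 _) (hN b)
    have hab : (e : F) ^ (N a + N b) * (a + b : B') ∈ B := by
      push_cast; rw [mul_add]; exact add_mem ha hb
    refine mul_left_cancel₀ (pow_ne_zero (N a + N b) he) ?_
    rw [mul_add, key _ _ ha, key _ _ hb, key _ _ hab, ← map_add]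
    exact congrArg P.φ (Subtype.ext (by push_cast; ring))
  · intro c z hz
    have := key z 0 (by rw [pow_zero, one_mul, hz]; exact hO c)
    simp only [pow_zero, one_mul] at this
    show P.φ ⟨_, hN z⟩ / P.φ e ^ N z = _
    rw [this]
    exact P.const c _ hz

variable (G)

theorem intSet_le_V {s : Set F} (hs : ∀ κ, ∀ x ∈ s, x ∈ G.V κ) (κ : Option Bool) {z : F}
    (hz : z ∈ intSet X.O s) : z ∈ G.V κ := by
  have hle : ∀ a ∈ Algebra.adjoin X.O s, a ∈ G.V κ := by
    intro a ha
    induction ha using Algebra.adjoin_induction with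
    | mem x hx => exact hs κ x hx
    | algebraMap r => exact G.algebraMap_mem_V κ r
    | add a b _ _ ha hb => exact add_mem ha hb
    | mul a b _ _ ha hb => exact mul_mem ha hb
  obtain ⟨P, hP, hPz⟩ := hz
  let ψ : Algebra.adjoin X.O s →+* G.V κ :=
    (Algebra.adjoin X.O s).val.toRingHom.codRestrict (G.V κ).toSubring fun a => hle a a.2
  obtain ⟨y, hy⟩ := IsIntegrallyClosed.isIntegral_iff.mp
    (⟨P.map ψ, hP.map _, by rw [eval₂_map]; exact hPz⟩ : IsIntegral (G.V κ) z)
  rw [← hy]
  exact y.2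

theorem uChart_le_V {u : F} (hu : ∀ κ, u ∈ G.V κ) (κ : Option Bool) {z : F}
    (hz : z ∈ G.uChart u) : z ∈ G.V κ :=
  G.intSet_le_V (fun κ x hx => by rw [Set.mem_singleton_iff.mp hx]; exact hu κ) κ hz

theorem openChart_le_V (κ : Option Bool) {z : F} (hz : z ∈ G.openChart) : z ∈ G.V κ :=
  G.intSet_le_V (fun κ x hx => by
    rcases hx with rfl | hx
    · exact G.baseHom_mem_V κ _
    · rw [Set.mem_singleton_iff.mp hx]; exact G.baseHom_mem_V κ _) κ hz

theorem algebraMap_mem_openChart (c : X.O) : algebraMap X.O F c ∈ G.openChart :=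
  algebraMap_mem_intSet _ c

theorem mem_openChart_of_isIntegral {z : G.splitField} (h : IsIntegral G.openChart z) :
    z ∈ G.openChart :=
  mem_intSet_of_isIntegral h

/-- The open chart contains the base ring. -/
theorem baseHom_mem_openChart (c : G.C) : G.baseHom c ∈ G.openChart := by
  let inc : G.hRing →+* G.C := (Subalgebra.inclusion G.hRing_le_C).toRingHom
  let θ : G.hRing →+* G.openChart := (G.baseHom.toRingHom.comp inc).codRestrict G.openChart fun a =>
    mem_intSet_of_mem_adjoin (G.mem_adjoin_base (a := inc a) a.2)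
  obtain ⟨P, hP, hPc⟩ := G.isIntegral_hRing c
  have h1 : eval₂ inc c P = 0 := Subtype.ext (by
    show G.C.val.toRingHom (eval₂ inc c P) = 0
    rw [hom_eval₂]
    exact hPc)
  refine G.mem_openChart_of_isIntegral ⟨P.map θ, hP.map θ, ?_⟩
  rw [eval₂_map]
  show eval₂ (G.baseHom.toRingHom.comp inc) (G.baseHom.toRingHom c) P = 0
  rw [← hom_eval₂, h1, map_zero]

theorem algebraMap_mem_uChart (u : F) (c : X.O) : algebraMap X.O F c ∈ G.uChart u :=
  algebraMap_mem_intSet _ c

theorem point_apply_const {u : F} (P : G.Point (G.uChart u)) (c : X.O) :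
    P.φ ⟨algebraMap X.O F c, G.algebraMap_mem_uChart u c⟩ = X.resK c :=
  P.const c _ rfl

theorem self_mem_uChart (u : F) : u ∈ G.uChart u := subset_intSet _ rfl

theorem uChart_sub (u : F) (a : X.O) : G.uChart (u - algebraMap X.O F a) = G.uChart u := by
  have h : Algebra.adjoin X.O ({u - algebraMap X.O F a} : Set F) = Algebra.adjoin X.O {u} := by
    refine le_antisymm (Algebra.adjoin_le (Set.singleton_subset_iff.mpr ?_))
      (Algebra.adjoin_le (Set.singleton_subset_iff.mpr ?_))
    · exact sub_mem (Algebra.self_mem_adjoin_singleton _ _) (Subalgebra.algebraMap_mem _ a)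
    · have := add_mem (Algebra.self_mem_adjoin_singleton X.O (u - algebraMap X.O F a))
        (Subalgebra.algebraMap_mem (Algebra.adjoin X.O ({u - algebraMap X.O F a} : Set F)) a)
      rwa [sub_add_cancel] at this
  ext z
  show IsIntegral _ z ↔ IsIntegral _ z
  rw [h]

theorem exists_point (u : F) (n : Ideal (G.uChart u)) (hn : n.IsMaximal)
    (hq : ⟨algebraMap X.O F (q : X.O), G.algebraMap_mem_uChart u _⟩ ∈ n) :
    ∃ P : G.Point (G.uChart u), RingHom.ker P.φ = n := by
  have := hn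
  let : Field (G.uChart u ⧸ n) := Ideal.Quotient.field n
  let i : X.O →+* G.uChart u ⧸ n := (Ideal.Quotient.mk n).comp
    ((algebraMap X.O F).codRestrict (G.uChart u) (G.algebraMap_mem_uChart u))
  have hi : RingHom.ker X.resK ≤ RingHom.ker i := by
    rw [X.ker_resK, Ideal.span_singleton_le_iff_mem]
    exact Ideal.Quotient.eq_zero_iff_mem.mpr hq
  let ι : X.k →+* G.uChart u ⧸ n := X.resK.liftOfSurjective X.resK_surjective ⟨i, hi⟩
  let : Algebra X.k (G.uChart u ⧸ n) := ι.toAlgebra
  have hι : ∀ c, ι (X.resK c) = i c := fun c =>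
    RingHom.liftOfRightInverse_comp_apply _ _ _ _ c
  set ū := Ideal.Quotient.mk n ⟨u, G.self_mem_uChart u⟩
  have hint : ∀ r : G.uChart u ⧸ n,
      IsIntegral (Algebra.adjoin X.k ({ū} : Set (G.uChart u ⧸ n))) r := by
    intro r
    obtain ⟨z, rfl⟩ := Ideal.Quotient.mk_surjective r
    obtain ⟨Q, hQ, hQz⟩ := (isIntegral_adjoin_iff u (z : F)).mp z.2
    let ψ : X.O[X] →+* G.uChart u :=
      (aeval u : X.O[X] →ₐ[X.O] F).toRingHom.codRestrict (G.uChart u) fun p =>
        mem_intSet_of_mem_adjoin (aeval_mem_adjoin_singleton _ _)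
    have hmem : ∀ p : X.O[X], Ideal.Quotient.mk n (ψ p) ∈
        Algebra.adjoin X.k ({ū} : Set (G.uChart u ⧸ n)) := by
      intro p
      induction p using Polynomial.induction_on' with
      | add a b ha hb => rw [map_add, map_add]; exact add_mem ha hb
      | monomial k c =>
        have e : ψ (monomial k c) = ⟨algebraMap X.O F c, G.algebraMap_mem_uChart u c⟩ *
            ⟨u, G.self_mem_uChart u⟩ ^ k := Subtype.ext (by
          show aeval u (monomial k c) = _
          rw [aeval_monomial]; push_cast; rfl)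
        rw [e, map_mul, map_pow]
        refine mul_mem ?_ (pow_mem (Algebra.self_mem_adjoin_singleton _ _) k)
        rw [show Ideal.Quotient.mk n ⟨algebraMap X.O F c, _⟩ = ι (X.resK c) from (hι c).symm]
        exact Subalgebra.algebraMap_mem _ (X.resK c)
    let χ : X.O[X] →+* Algebra.adjoin X.k ({ū} : Set (G.uChart u ⧸ n)) :=
      ((Ideal.Quotient.mk n).comp ψ).codRestrict _ hmem
    refine ⟨Q.map χ, hQ.map χ, ?_⟩
    rw [eval₂_map]
    show eval₂ ((Ideal.Quotient.mk n).comp ψ) (Ideal.Quotient.mk n z) Q = 0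
    rw [← hom_eval₂]
    have : eval₂ ψ z Q = 0 := Subtype.ext (by
      show (G.uChart u).subtype (eval₂ ψ z Q) = 0
      rw [hom_eval₂]
      exact hQz)
    rw [this, map_zero]
  let e := RingEquiv.ofBijective ι (bijective_of_isIntegral_adjoin ū hint)
  refine ⟨⟨(e.symm : _ →+* X.k).comp (Ideal.Quotient.mk n), fun c z hz => ?_⟩, ?_⟩
  · show e.symm (Ideal.Quotient.mk n z) = _
    rw [show z = ⟨algebraMap X.O F c, G.algebraMap_mem_uChart u c⟩ from Subtype.ext hz,
      show Ideal.Quotient.mk n (⟨algebraMap X.O F c, _⟩ : G.uChart u) = ι (X.resK c) from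
          (hι c).symm]
    exact e.symm_apply_apply _
  · ext z
    show e.symm (Ideal.Quotient.mk n z) = 0 ↔ _
    rw [map_eq_zero_iff _ e.symm.injective, Ideal.Quotient.eq_zero_iff_mem]

variable {G}

/-- Gluing passes to a point of a larger chart. -/
theorem GlueAt.of_extend {m j : ℕ} {Φ : F} {r : Option Bool → LaurentSeries X.k} (hm : 0 < m)
    (hΦ : ∀ (κ : Option Bool) (y : F), y ^ m * Φ ^ j ∈ G.V κ → y ∈ G.V κ) {B B' : Subring F}
    {P : G.Point B} {P' : G.Point B'} (e : B) (he : P.φ e ≠ 0)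
    (hclear : ∀ z ∈ B', ∃ N : ℕ, (e : F) ^ N * z ∈ B)
    (hP : ∀ (z : B') (N : ℕ) (h : (e : F) ^ N * z ∈ B), P.φ e ^ N * P'.φ z = P.φ ⟨_, h⟩)
    (hB : ∀ κ, ∀ b ∈ B, b ∈ G.V κ) (hB' : ∀ κ, ∀ b ∈ B', b ∈ G.V κ)
    (h : GlueAt m Φ r j P'.φ) : GlueAt m Φ r j P.φ := by
  obtain ⟨s₀, hs₀, y, hy, hres⟩ := h
  obtain ⟨N₁, hN₁⟩ := hclear s₀ s₀.2
  obtain ⟨N₂, hN₂⟩ := hclear _ hy
  set N := N₁ + N₂
  have h1 : (e : F) ^ N * s₀ ∈ B := by
    rw [show N = N₂ + N₁ from add_comm _ _, pow_add, mul_assoc]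
    exact mul_mem (pow_mem e.2 _) hN₁
  refine ⟨⟨_, h1⟩, ?_, (e : F) ^ N * y, ?_, fun κ => ?_⟩
  · rw [← hP]; exact mul_ne_zero (pow_ne_zero _ he) hs₀
  · obtain ⟨i, hi⟩ : ∃ i, N * m = i + N₂ := ⟨N * m - N₂, by
      have : N₂ ≤ N * m := le_trans (Nat.le_add_left N₂ N₁) (Nat.le_mul_of_pos_right _ hm)
      omega⟩
    rw [mul_pow, ← pow_mul, hi, pow_add, mul_assoc, mul_assoc]
    exact mul_mem (pow_mem e.2 _) hN₂
  · have hf : ∀ κ, y ∈ G.V κ := fun κ => hΦ κ y (hB' κ _ hy)
    show G.red κ ((e : F) ^ N * y) * _ = G.red κ ((e : F) ^ N * s₀)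
    rw [G.red_mul (pow_mem (hB κ _ e.2) N) (hf κ),
        G.red_mul (pow_mem (hB κ _ e.2) N) (hB' κ _ s₀.2),
      mul_assoc, hres κ]

variable (G) in
/-- Gluing at the three kinds of points. -/
structure GlueCases (m : ℕ) (Φ : F) (r : Option Bool → LaurentSeries X.k) (j : ℕ) : Prop where
  /-- ordinary points -/
  ordinary : ∀ P : G.Point G.openChart, ¬ G.Supersingular P → GlueAt m Φ r j P.φ
  /-- supersingular points -/
  supersingular : ∀ P : G.Point G.openChart, G.Supersingular P → GlueAt m Φ r j P.φ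
  /-- cusps -/
  cusp : ∀ u : F, G.IsCuspCoord u → ∀ P : G.Point (G.uChart u),
    (∀ z : G.uChart u, (z : F) = u → P.φ z = 0) → GlueAt m Φ r j P.φ

/-- The open points of the two charts. -/
theorem glueAt_of_openPoint {m j : ℕ} {Φ : F} {r : Option Bool → LaurentSeries X.k}
    (hg : G.GlueCases m Φ r j)
    (hm : 0 < m) (hΦ : ∀ (κ : Option Bool) (y : F), y ^ m * Φ ^ j ∈ G.V κ → y ∈ G.V κ) {u : F}
    (huV : ∀ κ, u ∈ G.V κ) (P : G.Point (G.uChart u))
    {w : Ser} (hw : G.Coord w) (U : G.C) (hU : (U : Ser) = w) (hUu : G.baseHom U = u)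
    (e : G.uChart u) (he : (e : F) = aeval u hw.E) (hne : P.φ e ≠ 0) : GlueAt m Φ r j P.φ := by
  have hclear : ∀ z ∈ G.openChart, ∃ N : ℕ, (e : F) ^ N * z ∈ G.uChart u := fun z hz => by
    rw [he, ← hUu]; exact G.clear_openChart hw U hU hz
  obtain ⟨P', hP'⟩ := P.exists_extend e hne hclear (G.algebraMap_mem_uChart u)
  refine GlueAt.of_extend hm hΦ e hne hclear hP' (fun κ b hb => G.uChart_le_V huV κ hb)
    (fun κ b hb => G.openChart_le_V κ hb) ?_
  by_cases h : G.Supersingular P'
  · exact hg.supersingular P' h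
  · exact hg.ordinary P' h

/-- A point where `u - a` vanishes, as a point of the chart over `O[u - a]`. -/
theorem glueAt_shift {m j : ℕ} {Φ : F} {r : Option Bool → LaurentSeries X.k}
    (hg : G.GlueCases m Φ r j) (u : F) (a : X.O) (hu : G.IsCuspCoord (u - algebraMap X.O F a))
    (P : G.Point (G.uChart u)) (hPa : P.φ ⟨u, G.self_mem_uChart u⟩ = X.resK a) :
    GlueAt m Φ r j P.φ := by
  have e := G.uChart_sub u a
  let inc : G.uChart (u - algebraMap X.O F a) →+* G.uChart u := Subring.inclusion e.le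
  obtain ⟨s₀, hs₀, y, hy, hres⟩ := hg.cusp _ hu
    ⟨P.φ.comp inc, fun c z hz => (RingHom.comp_apply P.φ inc z).trans
      (P.const c (inc z) ((inclusion_val e.le z).trans hz))⟩ (fun z hz => by
      show P.φ (inc z) = 0
      have e1 : inc z = ⟨u, G.self_mem_uChart u⟩ -
          ⟨algebraMap X.O F a, G.algebraMap_mem_uChart u a⟩ :=
        Subtype.ext ((inclusion_val e.le z).trans (hz.trans
          (map_sub (G.uChart u).subtype ⟨u, G.self_mem_uChart u⟩
            ⟨algebraMap X.O F a, G.algebraMap_mem_uChart u a⟩).symm))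
      rw [e1, map_sub, hPa, G.point_apply_const P a, sub_self])
  exact ⟨inc s₀, hs₀, y, e.le hy, fun κ => (hres κ).trans
    (congrArg (G.red κ) (inclusion_val e.le s₀).symm)⟩

/-- Gluing at every point of the chart over `O[h]`. -/
theorem glueAt_hChart {m j : ℕ} {Φ : F} {r : Option Bool → LaurentSeries X.k}
    (hg : G.GlueCases m Φ r j)
    (hm : 0 < m) (hΦ : ∀ (κ : Option Bool) (y : F), y ^ m * Φ ^ j ∈ G.V κ → y ∈ G.V κ)
    (P : G.Point (G.uChart (G.baseHom G.h))) : GlueAt m Φ r j P.φ := by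
  classical
  set U : G.uChart (G.baseHom G.h) := ⟨_, G.self_mem_uChart _⟩ with hU
  by_cases h : ∃ a ∈ G.roots, P.φ U = X.resK a
  · obtain ⟨a, ha, hPa⟩ := h
    exact glueAt_shift hg (G.baseHom G.h) a (Or.inr ⟨a, ha, rfl⟩) P hPa
  · push Not at h
    let e : G.uChart (G.baseHom G.h) :=
      ∏ a ∈ G.roots, (U - ⟨algebraMap X.O F a, G.algebraMap_mem_uChart _ a⟩)
    refine glueAt_of_openPoint hg hm hΦ (fun κ => G.baseHom_mem_V κ _) P G.coordH G.h rfl rfl e
      ?_ ?_
    · show (G.uChart _).subtype e = _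
      simp only [e, map_prod, coordH, map_sub, aeval_X, aeval_C]
      rfl
    · simp only [e, map_prod, map_sub, G.point_apply_const P]
      exact Finset.prod_ne_zero_iff.mpr fun a ha => sub_ne_zero.mpr (h a ha)

/-- Gluing at every point of the chart over `O[1/h]`. -/
theorem glueAt_invChart {m j : ℕ} {Φ : F} {r : Option Bool → LaurentSeries X.k}
    (hg : G.GlueCases m Φ r j)
    (hm : 0 < m) (hΦ : ∀ (κ : Option Bool) (y : F), y ^ m * Φ ^ j ∈ G.V κ → y ∈ G.V κ)
    (P : G.Point (G.uChart (G.baseHom G.h)⁻¹)) : GlueAt m Φ r j P.φ := by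
  classical
  set v : G.uChart (G.baseHom G.h)⁻¹ := ⟨_, G.self_mem_uChart _⟩ with hv
  have hh0 : G.baseHom G.h ≠ 0 := G.unit0_h.ne_zero
  by_cases h0 : P.φ v = 0
  · exact hg.cusp _ (Or.inl rfl) P (fun z hz => by
      rw [show z = v from Subtype.ext hz, h0])
  by_cases h : ∃ a ∈ G.roots, X.resK a * P.φ v = 1
  · obtain ⟨a, ha, hPa⟩ := h
    have hclear : ∀ z ∈ G.uChart (G.baseHom G.h - algebraMap X.O F a),
        ∃ N : ℕ, (v : F) ^ N * z ∈ G.uChart (G.baseHom G.h)⁻¹ := fun z hz => by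
      rw [G.uChart_sub] at hz
      refine isIntegral_clear (U := Algebra.adjoin X.O ({(G.baseHom G.h)⁻¹} : Set F))
        (Algebra.self_mem_adjoin_singleton _ _) (fun b hb => ?_) hz
      rw [Algebra.adjoin_singleton_eq_range_aeval] at hb
      obtain ⟨p, rfl⟩ := hb
      refine ⟨p.natDegree, ?_⟩
      rw [Algebra.adjoin_singleton_eq_range_aeval]
      refine ⟨p.reverse, ?_⟩
      show aeval (G.baseHom G.h)⁻¹ p.reverse = (G.baseHom G.h)⁻¹ ^ p.natDegree *
        aeval (G.baseHom G.h) p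
      have : Invertible (G.baseHom G.h) := invertibleOfNonzero hh0
      have h2 := eval₂_reverse_mul_pow (algebraMap X.O F) (G.baseHom G.h) p
      rw [invOf_eq_inv] at h2
      rw [aeval_def, aeval_def, ← h2, mul_left_comm, ← mul_pow, inv_mul_cancel₀ hh0, one_pow,
        mul_one]
    obtain ⟨P', hP'⟩ := P.exists_extend v h0 hclear (G.algebraMap_mem_uChart _)
    refine GlueAt.of_extend hm hΦ v h0 hclear hP'
      (fun κ b hb => G.uChart_le_V G.unit0_h.inv_mem κ hb) (fun κ b hb => G.uChart_le_V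
        (fun κ => sub_mem (G.baseHom_mem_V κ _) (G.algebraMap_mem_V κ a)) κ hb)
      (hg.cusp _ (Or.inr ⟨a, ha, rfl⟩) P' (fun z hz => ?_))
    have hmem : (v : F) ^ 1 * z ∈ G.uChart (G.baseHom G.h)⁻¹ := by
      rw [hz, pow_one, hv, mul_sub, inv_mul_cancel₀ hh0]
      exact sub_mem (one_mem _) (mul_mem (G.self_mem_uChart _) (G.algebraMap_mem_uChart _ a))
    have e1 := hP' z 1 hmem
    rw [show (⟨_, hmem⟩ : G.uChart (G.baseHom G.h)⁻¹) =
      1 - ⟨algebraMap X.O F a, G.algebraMap_mem_uChart _ a⟩ * v from Subtype.ext (by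
        push_cast
        rw [hz, pow_one, hv, mul_sub, inv_mul_cancel₀ hh0]
        ring), map_sub, map_one, map_mul, G.point_apply_const P a, hPa, sub_self, pow_one] at e1
    exact (mul_eq_zero.mp e1).resolve_left h0
  · push Not at h
    let U : G.C := ⟨G.hSer⁻¹, G.hRing_le_C G.coordInv.mem⟩
    let e : G.uChart (G.baseHom G.h)⁻¹ :=
      v * ∏ a ∈ G.roots, (1 - ⟨algebraMap X.O F a, G.algebraMap_mem_uChart _ a⟩ * v)
    refine glueAt_of_openPoint hg hm hΦ G.unit0_h.inv_mem P G.coordInv U rfl ?_ e ?_ ?_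
    · refine Subtype.ext ?_
      rw [G.coe_baseHom]
      show X.up G.hSer⁻¹ = G.valO (G.baseHom G.h)⁻¹
      rw [map_inv₀, map_inv₀, G.valO_apply, G.coe_baseHom]
    · show (G.uChart _).subtype e = _
      simp only [e, map_mul, map_prod, map_sub, map_one, coordInv, aeval_X, aeval_C]
      rfl
    · simp only [e, map_mul, map_prod, map_sub, map_one, G.point_apply_const P]
      exact mul_ne_zero h0 (Finset.prod_ne_zero_iff.mpr fun a ha =>
        sub_ne_zero.mpr fun e' => h a ha e'.symm)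

/-- Gluing at every point of the two charts. -/
theorem glueAt_uChart {m j : ℕ} {Φ : F} {r : Option Bool → LaurentSeries X.k}
    (hg : G.GlueCases m Φ r j)
    (hm : 0 < m) (hΦ : ∀ (κ : Option Bool) (y : F), y ^ m * Φ ^ j ∈ G.V κ → y ∈ G.V κ) {u : F}
    (hu : u = G.baseHom G.h ∨ u = (G.baseHom G.h)⁻¹) (P : G.Point (G.uChart u)) :
    GlueAt m Φ r j P.φ := by
  rcases hu with rfl | rfl
  · exact glueAt_hChart hg hm hΦ P
  · exact glueAt_invChart hg hm hΦ P

variable (G)

theorem chartF_eq_uChart (u : F) : chartF X.O Ω ({u} : Set F) = G.uChart u := by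
  ext z
  rw [mem_chartF_iff]
  rfl

theorem radHyp {m : ℕ} (β : G.Balanced m) {w : Ser} (hw : G.Coord w) (U : G.C) (hU : (U : Ser) = w)
    (hV : ∀ κ, G.baseHom U ∈ G.V κ) : β.compData.RadHyp Ω {G.baseHom U} := by
  intro c hc h0
  have hcV : ∀ κ, c ∈ G.V κ := fun κ => G.uChart_le_V hV κ (G.chartF_eq_uChart _ ▸ hc)
  obtain ⟨N, w', hw', hpow⟩ := G.exists_pow_eq_mul hw U hU (mem_chartF_iff.mp hc)
    fun κ => ⟨hcV κ, by rw [← G.red_eq]; exact h0 κ⟩
  refine ⟨N, w', mem_chartF_iff.mpr hw', ?_⟩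
  rw [hpow, X.fixedData_π, map_natCast]

theorem glueHyp (ho : G.GlueOrdinary) (hs : G.GlueSupersingular) (hc : G.GlueCusps) {m : ℕ}
    (hm : 0 < m) (hq : ¬ q ∣ m) (β : G.Balanced m) {u : F}
    (hu : u = G.baseHom G.h ∨ u = (G.baseHom G.h)⁻¹) : β.compData.GlueHyp Ω {u} := by
  intro n hn hπ j hj
  have e := G.chartF_eq_uChart u
  let inc : G.uChart u →+* chartF X.O Ω ({u} : Set F) := Subring.inclusion e.ge
  have hinc : Function.Surjective inc := fun z => ⟨⟨z, e.le z.2⟩, rfl⟩
  have hn' : (n.comap inc).IsMaximal := Ideal.comap_isMaximal_of_surjective inc hinc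
  obtain ⟨P, hP⟩ := G.exists_point u (n.comap inc) hn' (by
    rw [Ideal.mem_comap]
    have hq' : inc ⟨algebraMap X.O F (q : X.O), G.algebraMap_mem_uChart u _⟩ =
        ⟨algebraMap X.O F X.fixedData.π, algebraMap_mem_chartF _ _⟩ :=
      Subtype.ext (show algebraMap X.O F (q : X.O) = algebraMap X.O F X.fixedData.π by
        rw [X.fixedData_π])
    rw [hq']
    exact hπ)
  obtain ⟨s₀, hs₀, y, hy, hres⟩ := glueAt_uChart (r := β.groot)
    ⟨fun P h => ho m hm hq β P h j hj, fun P h => hs m hm hq β P h j hj,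
      fun u hu P hP => hc m hm hq β u hu P hP j hj⟩ hm
    (fun κ y h => β.compData.mem_of_pow_mul (p := κ) hm (pow_ne_zero _ β.unit.ne_zero) j h) hu P
  refine ⟨inc s₀, fun h => hs₀ ?_, y, e.ge hy, fun κ => hres κ⟩
  rw [← RingHom.mem_ker, hP]
  exact h

/-- The root of a balanced function. -/
theorem exists_root_balanced (ho : G.GlueOrdinary) (hs : G.GlueSupersingular) (hc : G.GlueCusps)
    {m : ℕ} (hm : 0 < m) (hq : ¬ q ∣ m) (β : G.Balanced m) :
    ∃ φ : F, φ ^ m = β.f ^ gluePow q := by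
  have := X.dvr
  have := X.isFractionRing
  have : CharZero F := inferInstance
  obtain ⟨ζ, hζ⟩ := X.roots m hm hq
  have hπ : X.fixedData.π ≠ 0 := by
    rw [X.fixedData_π]; exact X.prime_q.ne_zero
  let U : G.C := ⟨G.hSer⁻¹, G.hRing_le_C G.coordInv.mem⟩
  have hU : G.baseHom U = (G.baseHom G.h)⁻¹ := by
    refine Subtype.ext ?_
    rw [G.coe_baseHom]
    show X.up G.hSer⁻¹ = G.valO (G.baseHom G.h)⁻¹
    rw [map_inv₀, map_inv₀, G.valO_apply, G.coe_baseHom]
  refine exists_pow_eq_of_components (L := AlgebraicClosure ℚ) (Lk := LaurentSeries X.k)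
      X.fixedData hπ
    G.unit0_h.ne_zero (pow_ne_zero _ β.unit.ne_zero) hm (X.isUnit_natCast hq) hζ β.compData
    (G.chartFinite G.coordH G.h rfl Ω) (G.radHyp β G.coordH G.h rfl fun κ => G.baseHom_mem_V κ _)
    ?_ (G.glueHyp ho hs hc hm hq β (Or.inl rfl)) (G.glueHyp ho hs hc hm hq β (Or.inr rfl))
  have h := G.radHyp β G.coordInv U rfl fun κ => by rw [hU]; exact G.unit0_h.inv_mem κ
  rwa [hU] at h

/-- Norms to a line field, inside `splitField` and inside series. -/
theorem exists_norm_LF {m : ℕ} {f : F} :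
    ((∃ (κ : X.K) (g : G.lineField none), G.normNone f = algebraMap X.K _ κ * g ^ m) →
      ∃ (c : X.K) (g : F), g ∈ G.LF true ∧
        (Algebra.norm (G.LF true) f : F) = algebraMap X.K F c * g ^ m) ∧
    ((∃ (κ : X.K) (g : G.lineField (some 0)), G.normZero f = algebraMap X.K _ κ * g ^ m) →
      ∃ (c : X.K) (g : F), g ∈ G.LF false ∧
        (Algebra.norm (G.LF false) f : F) = algebraMap X.K F c * g ^ m) := by
  have key : ∀ (b : Bool) (L : Line q) (hL : (Pair.base q).line b = L)
      (hle : G.lineField L ≤ G.splitField) (N : G.lineField L),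
      N = Algebra.norm (G.lineField L)
        (⟨(f : Ser), f.2⟩ : IntermediateField.extendScalars hle) →
      (∃ (κ : X.K) (g : G.lineField L), N = algebraMap X.K _ κ * g ^ m) →
      ∃ (c : X.K) (g : F), g ∈ G.LF b ∧
        (Algebra.norm (G.LF b) f : F) = algebraMap X.K F c * g ^ m := by
    intro b L hL hle N hN
    have himg : (G.LF b).map G.splitField.val = G.lineField L := by
      rw [LF, IntermediateField.adjoin_map, ← Set.range_comp]
      subst hL
      refine congrArg _ (congrArg Set.range (funext fun v => ?_))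
      cases b <;> rfl
    let e₁ : G.LF b ≃+* G.lineField L :=
      ((G.LF b).equivMap G.splitField.val).toRingEquiv.trans
        (IntermediateField.equivOfEq himg).toRingEquiv
    let e₂ : F ≃+* IntermediateField.extendScalars hle :=
      { toFun := fun z => ⟨(z : Ser), z.2⟩
        invFun := fun z => ⟨(z : Ser), z.2⟩
        left_inv := fun _ => rfl
        right_inv := fun _ => rfl
        map_mul' := fun _ _ => rfl
        map_add' := fun _ _ => rfl }
    have hnorm : Algebra.norm (G.LF b) f = e₁.symm N := by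
      rw [hN]
      exact Algebra.norm_eq_of_equiv_equiv e₁ e₂ (RingHom.ext fun z => rfl) f
    rintro ⟨κ, g, hg⟩
    refine ⟨κ, ⟨(g : Ser), hle g.2⟩, ?_, ?_⟩
    · have : ((e₁.symm g : G.LF b) : F) = ⟨(g : Ser), hle g.2⟩ := Subtype.ext (by
        conv_rhs => rw [show g = e₁ (e₁.symm g) from (e₁.apply_symm_apply g).symm]
        rfl)
      rw [← this]; exact (e₁.symm g).2
    · refine Subtype.ext ?_
      have h1 : ((Algebra.norm (G.LF b) f : F) : Ser) = (N : Ser) := by
        rw [hnorm]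
        conv_rhs => rw [show N = e₁ (e₁.symm N) from (e₁.apply_symm_apply N).symm]
        rfl
      rw [h1, hg]
      rfl
  exact ⟨key true none rfl G.lineField_none_le _ rfl,
      key false (some 0) rfl G.lineField_zero_le _ rfl⟩

/-- **The local theorem from gluing at points.** -/
theorem rootDescends_of_glue (ho : G.GlueOrdinary) (hs : G.GlueSupersingular) (hc : G.GlueCusps) :
    G.RootDescends := by
  refine ⟨balancePow q * gluePow q, ?_, fun m hm hq f hf hW hN hZ => ?_⟩
  · have h := (Fact.out : q.Prime).two_le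
    exact Nat.mul_pos balancePow_pos (Nat.mul_pos (pow_pos (by omega) 2)
      (Nat.mul_pos (by omega) (Nat.succ_pos q)))
  have hN' : ∀ b, ∃ (c : X.K) (g : F), g ∈ G.LF b ∧
      (Algebra.norm (G.LF b) f : F) = algebraMap X.K F c * g ^ m := fun b => by
    cases b
    · exact G.exists_norm_LF.2 hZ
    · exact G.exists_norm_LF.1 hN
  obtain ⟨β, c, g, hg⟩ := G.exists_balanced hm hf hW hN'
  obtain ⟨φ, hφ⟩ := G.exists_root_balanced ho hs hc hm hq β
  refine ⟨c ^ gluePow q, φ * g ^ gluePow q, ?_⟩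
  rw [pow_mul, hg, mul_pow, mul_pow, ← hφ, map_pow, mul_pow, pow_right_comm g, mul_assoc]

end Model

end FLTAgent.CarayolSquare
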