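import Fermat.Agent.CarayolSquare.Geometry.Vertical
import Fermat.Agent.CarayolSquare.PointGlue

/-!
# Gluing at a regular point on a single component

Orders divisible by `m` at a regular point (`divisibleAt_of_unit0`), the predicate `SingleAt`, and
gluing at such points: `glueOn_of_single`, used for ordinary points and cusps.
-/

set_option autoImplicit false

noncomputable section

open Polynomial

namespace FLTAgent.CarayolSquare

variable {q : ℕ} [NeZero q] [Fact q.Prime]

namespace Model

variable {X : Ctx q} {M₁ : ℕ} [NeZero M₁] (G : Model X M₁)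

variable {G} in
omit [NeZero q] [Fact (Nat.Prime q)] in
/-- A prime of a ring integral over `O[s]` containing `q` at which the elements of `s` are congruent
to constants is maximal. -/
theorem exists_mul_sub_one_mem {S : Subring G.splitField}
    (hO : ∀ c, algebraMap X.O G.splitField c ∈ S)
    {s : Set G.splitField} (hint : ∀ z ∈ S, IsIntegral (Algebra.adjoin X.O s) z)
    (hs : s ⊆ S) (p : Ideal S) [p.IsPrime] (hq : ⟨algebraMap X.O G.splitField (q : X.O), hO _⟩ ∈ p)
    (hres : ∀ x (hx : x ∈ s), ∃ c : X.O,
        (⟨x, hs hx⟩ : S) - ⟨algebraMap X.O G.splitField c, hO c⟩ ∈ p)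
    {z : S} (hz : z ∉ p) : ∃ t : S, z * t - 1 ∈ p := by
  let i : X.O →+* S ⧸ p :=
    (Ideal.Quotient.mk p).comp ((algebraMap X.O G.splitField).codRestrict S hO)
  have hker : RingHom.ker X.resK ≤ RingHom.ker i := fun c hc => by
    obtain ⟨d, rfl⟩ := (X.resK_eq_zero_iff c).mp hc
    rw [RingHom.mem_ker, map_mul]
    exact mul_eq_zero_of_left (Ideal.Quotient.eq_zero_iff_mem.mpr hq) _
  let ι : X.k →+* S ⧸ p := X.resK.liftOfSurjective X.resK_surjective ⟨i, hker⟩
  have hι : ∀ c, ι (X.resK c) = i c := fun c => RingHom.liftOfRightInverse_comp_apply _ _ _ _ c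
  let : Algebra X.k (S ⧸ p) := ι.toAlgebra
  have hle : Algebra.adjoin X.O s ≤
      ({ S.toSubsemiring with algebraMap_mem' := hO } : Subalgebra X.O G.splitField) :=
    Algebra.adjoin_le hs
  have hrange : ∀ (x : G.splitField) (hx : x ∈ Algebra.adjoin X.O s),
      Ideal.Quotient.mk p ⟨x, hle hx⟩ ∈ Set.range ι := by
    intro x hx
    induction hx using Algebra.adjoin_induction with
    | mem x hx =>
      obtain ⟨c, hc⟩ := hres x hx
      exact ⟨X.resK c, (hι c).trans (Ideal.Quotient.eq.mpr hc).symm⟩
    | algebraMap r => exact ⟨X.resK r, hι r⟩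
    | add a b ha hb ha' hb' =>
      obtain ⟨u, hu⟩ := ha'
      obtain ⟨v, hv⟩ := hb'
      exact ⟨u + v, by rw [map_add, hu, hv, ← map_add]; rfl⟩
    | mul a b ha hb ha' hb' =>
      obtain ⟨u, hu⟩ := ha'
      obtain ⟨v, hv⟩ := hb'
      exact ⟨u * v, by rw [map_mul, hu, hv, ← map_mul]; rfl⟩
  have : Algebra.IsIntegral X.k (S ⧸ p) := by
    refine ⟨fun w => ?_⟩
    obtain ⟨z', rfl⟩ := Ideal.Quotient.mk_surjective w
    obtain ⟨P, hP, hPz⟩ := hint z' z'.2
    let j : Algebra.adjoin X.O s →+* S :=
        (Algebra.adjoin X.O s).val.toRingHom.codRestrict S fun a => hle a.2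
    have h0 : eval₂ j z' P = 0 := Subtype.ext (by
      show S.subtype (eval₂ j z' P) = 0
      rw [hom_eval₂]
      exact hPz)
    obtain ⟨Q, hQ, -, hQm⟩ := lifts_and_degree_eq_and_monic
      (f := ι) (p := P.map ((Ideal.Quotient.mk p).comp j))
          ((lifts_iff_coeff_lifts _).mpr fun n => by
        rw [coeff_map]; exact hrange _ (P.coeff n).2) (hP.map _)
    refine ⟨Q, hQm, ?_⟩
    rw [RingHom.algebraMap_toAlgebra, ← eval_map, hQ, eval_map, ← hom_eval₂, h0, map_zero]
  have hF : IsField (S ⧸ p) := isField_of_isIntegral_of_isField' (R := X.k) (Field.toIsField _)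
  obtain ⟨t, ht⟩ := hF.mul_inv_cancel
    (show Ideal.Quotient.mk p z ≠ 0 from fun h => hz (Ideal.Quotient.eq_zero_iff_mem.mp h))
  obtain ⟨t, rfl⟩ := Ideal.Quotient.mk_surjective t
  exact ⟨t, by rw [← Ideal.Quotient.eq_zero_iff_mem, map_sub, map_mul, map_one, ht, sub_self]⟩

/-- At every place through the point and vertical over it, `h` is congruent to no constant. -/
def VertGeneric {B : Subring G.splitField} {P : G.Point B} (R : RegPoint B P.φ) : Prop :=
  ∀ W : ValuationSubring G.splitField, (∀ z ∈ R.loc, z ∈ W) →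
    (∃ w : R.loc, w ∈ IsLocalRing.maximalIdeal R.loc ∧ W.valuation w = 1) →
      W.valuation (q : G.splitField) < 1 →
        ∀ c : X.O, W.valuation (G.baseHom G.h - algebraMap X.O G.splitField c) = 1

omit [NeZero q] [Fact (Nat.Prime q)] in
/-- If `S` is integral over `O[s]` and contains it, the elements of `s` are congruent to no
constants simultaneously at a vertical place through the point. -/
theorem not_congr_of_vertical {B : Subring G.splitField} {P : G.Point B} (R : RegPoint B P.φ)
    (hO : ∀ c, algebraMap X.O G.splitField c ∈ R.S) {s : Set G.splitField} (hs : s ⊆ R.S)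
    (hint : ∀ z ∈ R.S, IsIntegral (Algebra.adjoin X.O s) z)
    (W : ValuationSubring G.splitField) (hloc : ∀ z ∈ R.loc, z ∈ W)
    (hw : ∃ w : R.loc, w ∈ IsLocalRing.maximalIdeal R.loc ∧ W.valuation w = 1)
    (hq : W.valuation (q : G.splitField) < 1)
    (hres : ∀ x ∈ s, ∃ c : X.O, W.valuation (x - algebraMap X.O G.splitField c) < 1) : False := by
  obtain ⟨w, hwm, hw1⟩ := hw
  let j : R.S →+* W := R.S.subtype.codRestrict W.toSubring fun a => hloc _ (R.mem_loc_of_mem a.2)
  let p : Ideal R.S := (IsLocalRing.maximalIdeal W).comap j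
  have hp : ∀ a : R.S, a ∈ p ↔ W.valuation (a : G.splitField) < 1 := fun a => by
    show j a ∈ IsLocalRing.maximalIdeal W ↔ _
    exact W.valuation_lt_one_iff (j a)
  have : p.IsPrime := Ideal.IsPrime.comap j
  have hple : p ≤ R.point := fun a ha => by
    by_contra hna
    obtain ⟨b, hb⟩ := (R.isUnit_of_notMem hna).exists_right_inv
    have h1 := congrArg (fun x : R.loc => W.valuation (x : G.splitField)) hb
    simp only [Subring.coe_mul, map_mul, Subring.coe_one, map_one, R.coe_algebraMap] at h1
    have h2 : W.valuation (a : G.splitField) * W.valuation (b : G.splitField) < 1 :=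
      lt_of_le_of_lt (mul_le_of_le_one_right' ((W.valuation_le_one_iff _).mpr (hloc _ b.2)))
        ((hp a).mp ha)
    rw [h1] at h2
    exact lt_irrefl _ h2
  have hpe : R.point ≤ p := fun a ha => by
    by_contra hna
    obtain ⟨t, ht⟩ := exists_mul_sub_one_mem hO hint hs p
      ((hp _).mpr (by
          show W.valuation (algebraMap X.O G.splitField (q : X.O)) < 1; rwa [map_natCast]))
      (fun x hx => by
        obtain ⟨c, hc⟩ := hres x (hx)
        exact ⟨c, (hp _).mpr hc⟩) hna
    have h1 := hple ht
    have h2 : (1 : R.S) ∈ R.point := by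
      have := sub_mem (Ideal.mul_mem_right t _ ha) h1
      rwa [sub_sub_cancel] at this
    exact R.point_isPrime.ne_top ((Ideal.eq_top_iff_one _).mpr h2)
  obtain ⟨⟨a, ⟨s', hs'⟩⟩, h⟩ := IsLocalization.surj R.point.primeCompl w
  have ha : a ∈ R.point := by
    by_contra hna
    refine (IsLocalRing.mem_maximalIdeal _).mp hwm ?_
    have := R.isUnit_of_notMem hna
    rw [← h] at this
    exact (IsUnit.mul_iff.mp this).1
  have h1 := congrArg (fun x : R.loc => W.valuation (x : G.splitField)) h
  simp only [Subring.coe_mul, map_mul, hw1, one_mul, R.coe_algebraMap] at h1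
  have h2 : W.valuation (s' : G.splitField) = 1 :=
    le_antisymm ((W.valuation_le_one_iff _).mpr (hloc _ (R.mem_loc_of_mem s'.2)))
      (not_lt.mp fun hlt => hs' (hple ((hp s').mpr hlt)))
  rw [h2] at h1
  exact ((hp a).mp (hpe ha)).ne h1.symm

omit [NeZero q] [Fact (Nat.Prime q)] in
/-- Points of the open chart are vertically generic. -/
theorem vertGeneric_openChart {P : G.Point G.openChart} (R : RegPoint G.openChart P.φ)
    (hO : ∀ c, algebraMap X.O G.splitField c ∈ R.S) (hh : G.baseHom G.h ∈ R.S)
    (hD : G.baseHom G.Dinv ∈ R.S) : G.VertGeneric R := by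
  intro W hloc hw hq c
  have hle := fun z hz => (W.valuation_le_one_iff _).mpr (hloc z (R.mem_loc_of_mem hz))
  refine le_antisymm ?_ (not_lt.mp fun hlt => ?_)
  · exact (W.valuation_le_one_iff _).mpr (sub_mem (hloc _ (R.mem_loc_of_mem hh))
      (hloc _ (R.mem_loc_of_mem (hO c))))
  set D : G.splitField := ∏ a ∈ G.roots, (G.baseHom G.h - algebraMap X.O G.splitField a)
  have hD1 : G.baseHom G.Dinv * D = 1 := by
    have := congrArg G.baseHom G.Dinv_mul
    rw [map_mul, map_prod, map_one] at this
    simpa only [map_sub, AlgHom.commutes] using this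
  set d : X.O := ∏ a ∈ G.roots, (c - a)
  have hDd : W.valuation (D - algebraMap X.O G.splitField d) < 1 := by
    classical
    have key : ∀ S : Finset X.O,
        W.valuation ((∏ a ∈ S, (G.baseHom G.h - algebraMap X.O G.splitField a)) -
          algebraMap X.O G.splitField (∏ a ∈ S, (c - a))) < 1 := by
      intro S
      induction S using Finset.induction_on with
      | empty => simp
      | insert a S ha ih =>
        rw [Finset.prod_insert ha, Finset.prod_insert ha, map_mul (algebraMap X.O G.splitField),
            map_sub (algebraMap X.O G.splitField)]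
        rw [show ∀ x y A B : G.splitField, x * A - y * B = (x - y) * A + y * (A - B) from
          fun _ _ _ _ => by ring]
        refine (W.valuation.map_add _ _).trans_lt (max_lt ?_ ?_) <;> rw [map_mul]
        · rw [sub_sub_sub_cancel_right]
          refine lt_of_le_of_lt (mul_le_of_le_one_right' ((W.valuation_le_one_iff _).mpr ?_)) hlt
          exact prod_mem fun b _ => sub_mem (hloc _ (R.mem_loc_of_mem hh))
            (hloc _ (R.mem_loc_of_mem (hO b)))
        · refine lt_of_le_of_lt (mul_le_of_le_one_left' ((W.valuation_le_one_iff _).mpr ?_)) ih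
          exact sub_mem (hloc _ (R.mem_loc_of_mem (hO c))) (hloc _ (R.mem_loc_of_mem (hO a)))
    exact key _
  have hd : X.resK d ≠ 0 := by
    intro h0
    obtain ⟨d', hd'⟩ := (X.resK_eq_zero_iff d).mp h0
    have h1 : W.valuation D < 1 := by
      rw [show D = (D - algebraMap X.O G.splitField d) + (q : G.splitField) * algebraMap X.O
          G.splitField d' by
        rw [hd', map_mul, map_natCast]; ring]
      refine (W.valuation.map_add _ _).trans_lt (max_lt hDd ?_)
      rw [map_mul]
      exact lt_of_le_of_lt (mul_le_of_le_one_right' (hle _ (hO d'))) hq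
    have h2 := congrArg W.valuation hD1
    rw [map_mul, map_one] at h2
    have h3 : W.valuation (G.baseHom G.Dinv) * W.valuation D < 1 :=
      lt_of_le_of_lt (mul_le_of_le_one_left' (hle _ hD)) h1
    rw [h2] at h3
    exact lt_irrefl _ h3
  obtain ⟨e, he⟩ := (X.isUnit_of_resK hd).exists_right_inv
  refine G.not_congr_of_vertical R hO (s := {G.baseHom G.h, G.baseHom G.Dinv})
    (Set.insert_subset hh (Set.singleton_subset_iff.mpr hD)) (fun z hz => R.le hz) W hloc hw hq ?_
  intro x hx
  rcases hx with rfl | hx
  · exact ⟨c, hlt⟩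
  · rw [Set.mem_singleton_iff.mp hx]
    refine ⟨e, ?_⟩
    have hde : algebraMap X.O G.splitField d * algebraMap X.O G.splitField e = 1 := by
      rw [← map_mul, he, map_one]
    rw [show G.baseHom G.Dinv - algebraMap X.O G.splitField e =
      -((G.baseHom G.Dinv * algebraMap X.O G.splitField e) * (D - algebraMap X.O G.splitField d)) by
      linear_combination algebraMap X.O G.splitField e * hD1 - G.baseHom G.Dinv * hde,
      Valuation.map_neg, map_mul, map_mul]
    exact lt_of_le_of_lt (mul_le_of_le_one_left' (mul_le_one' (hle _ hD) (hle _ (hO e)))) hDd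

/-- Points of a chart at a cusp are vertically generic. -/
theorem vertGeneric_cusp {u : G.splitField} (hu : G.IsCuspCoord u) {P : G.Point (G.uChart u)}
    (R : RegPoint (G.uChart u) P.φ) (hO : ∀ c, algebraMap X.O G.splitField c ∈ R.S)
        (hus : u ∈ R.S) :
    G.VertGeneric R := by
  intro W hloc hw hq c
  have hle := fun z hz => (W.valuation_le_one_iff _).mpr (hloc z (R.mem_loc_of_mem hz))
  have key : ∀ c' : X.O, W.valuation (u - algebraMap X.O G.splitField c') = 1 := fun c' => by
    refine le_antisymm ((W.valuation_le_one_iff _).mpr (sub_mem (hloc _ (R.mem_loc_of_mem hus))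
      (hloc _ (R.mem_loc_of_mem (hO c'))))) (not_lt.mp fun hlt => ?_)
    refine G.not_congr_of_vertical R hO (s := {u}) (Set.singleton_subset_iff.mpr hus)
      (fun z hz => R.le hz) W hloc hw hq fun x hx => ?_
    rw [Set.mem_singleton_iff.mp hx]
    exact ⟨c', hlt⟩
  rcases hu with rfl | ⟨a, -, rfl⟩
  · have h0 := key 0
    rw [map_zero, sub_zero, map_inv₀, inv_eq_one] at h0
    have hh0 : G.baseHom G.h ≠ 0 := G.unit0_h.ne_zero
    by_cases hc : X.resK c = 0
    · obtain ⟨d, rfl⟩ := (X.resK_eq_zero_iff c).mp hc
      rw [W.valuation.map_sub_eq_of_lt_left, h0]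
      rw [h0, map_mul, map_natCast, map_mul]
      exact lt_of_le_of_lt (mul_le_of_le_one_right' (hle _ (hO d))) hq
    · obtain ⟨c', hc'⟩ := (X.isUnit_of_resK hc).exists_right_inv
      have hcc : algebraMap X.O G.splitField c * algebraMap X.O G.splitField c' = 1 := by
        rw [← map_mul, hc', map_one]
      have hcu : W.valuation (algebraMap X.O G.splitField c) = 1 := by
        refine le_antisymm (hle _ (hO c)) ?_
        have h := congrArg W.valuation hcc
        rw [map_mul, map_one] at h
        exact h ▸ mul_le_of_le_one_right' (hle _ (hO c'))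
      rw [show G.baseHom G.h - algebraMap X.O G.splitField c = -(G.baseHom G.h *
        algebraMap X.O G.splitField c * ((G.baseHom G.h)⁻¹ - algebraMap X.O G.splitField c')) by
        field_simp
        linear_combination -G.baseHom G.h * hcc, Valuation.map_neg, map_mul, map_mul, h0, hcu,
        key c', one_mul, one_mul]
  · have h := key (c - a)
    rwa [map_sub (algebraMap X.O G.splitField), sub_sub_sub_cancel_right] at h

/-- Unit functions with divisible horizontal orders have divisible orders at a point. -/
theorem divisibleAt_of_unit0 {B : Subring G.splitField} {P : G.Point B} (R : RegPoint B P.φ)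
    (hO : ∀ c, algebraMap X.O G.splitField c ∈ R.S) (hgen : G.VertGeneric R) {f : G.splitField}
    (hf : G.Unit0 f) {m : ℕ}
    (hor : ∀ W : ValuationSubring G.splitField, (∀ z ∈ R.loc, z ∈ W) →
      (∀ c : X.K, algebraMap X.K G.splitField c ∈ W) →
        ∃ g : G.splitField, g ≠ 0 ∧ W.valuation f = W.valuation (g ^ m)) :
    R.DivisibleAt f m := by
  intro W hloc hw
  have hle := fun c => (W.valuation_le_one_iff _).mpr (hloc _ (R.mem_loc_of_mem (hO c)))
  rcases lt_or_eq_of_le (by simpa only [map_natCast] using hle (q : X.O)) with hq | hq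
  · exact ⟨1, by rw [G.valuation_of_unit0 W hq (hgen W hloc hw hq) hf, map_one, one_pow]⟩
  · have := X.dvr
    have hK : ∀ c : X.K, algebraMap X.K G.splitField c ∈ W := by
      intro c
      obtain ⟨a, b, hb, hab⟩ := X.exists_div_O c
      obtain ⟨i, u, hu⟩ := IsDiscreteValuationRing.eq_unit_mul_pow_irreducible hb X.irreducible_q
      obtain ⟨u', hu'⟩ := u.isUnit.exists_right_inv
      have hb1 : W.valuation (algebraMap X.O G.splitField b) = 1 := by
        have hu1 : W.valuation (algebraMap X.O G.splitField (u : X.O)) = 1 := by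
          refine le_antisymm (hle _) ?_
          have h := congrArg (fun x => W.valuation (algebraMap X.O G.splitField x)) hu'
          simp only [map_mul, map_one] at h
          exact h ▸ mul_le_of_le_one_right' (hle u')
        rw [hu, map_mul, map_pow, map_natCast, map_mul, map_pow, hu1, hq, one_pow, one_mul]
      refine (W.valuation_le_one_iff _).mp ?_
      have h := congrArg (fun x => W.valuation (algebraMap X.K G.splitField x)) hab
      simp only [map_mul] at h
      rw [show algebraMap X.K G.splitField (b : X.K) = algebraMap X.O G.splitField b from rfl, hb1,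
        mul_one] at h
      rw [h]
      exact hle a
    obtain ⟨g, -, hg⟩ := hor W hloc hK
    exact ⟨g, by rw [hg, map_pow]⟩

variable {G}

/-- A regular point on a single component, with functions separating it from the others. -/
def SingleAt {B : Subring G.splitField} (P : G.Point B) : Prop :=
  ∃ (κ₀ : Option Bool) (R : RegPoint B P.φ), (∀ c, algebraMap X.O G.splitField c ∈ R.S) ∧
    G.VertGeneric R ∧ R.Centred ∧ R.V = G.V κ₀ ∧
      ∀ κ, κ ≠ κ₀ → ∃ e : B, P.φ e ≠ 0 ∧ G.red κ (e : G.splitField) = 0

/-- **Gluing at a regular point on a single component.** -/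
theorem glueOn_of_single {B : Subring G.splitField} (hB : ∀ κ, ∀ b ∈ B, b ∈ G.V κ) {P : G.Point B}
    (h : SingleAt P) {m : ℕ} (hm : 0 < m) (β : G.Balanced m) (j : ℕ) : GlueOn β j P.φ := by
  obtain ⟨κ₀, R, hO, hgen, hc, hV, hsep⟩ := h
  have : Fintype β.compData.ι := inferInstanceAs (Fintype (Option Bool))
  have hdiv : R.DivisibleAt (β.f ^ gluePow q) m :=
    G.divisibleAt_of_unit0 R hO hgen (β.unit.pow _) fun W _ hK => by
      obtain ⟨g, hg0, hg⟩ := β.horiz W hK
      refine ⟨g ^ gluePow q, pow_ne_zero _ hg0, ?_⟩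
      rw [map_pow, hg, ← map_pow, pow_right_comm]
  exact R.exists_glue β.compData hB hc κ₀ hV (fun z => G.resV_eq_zero_iff κ₀ z) hm
    (pow_ne_zero _ β.unit.ne_zero) hdiv (β.exists_groot_lift κ₀) hsep j

end Model

end FLTAgent.CarayolSquare
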