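import Fermat.Agent.CarayolSquare.Geometry.Residues
import Fermat.Agent.CarayolSquare.Comp
import Fermat.Agent.Deuring.Archimedean

/-!
# Balanced functions

`Balanced` is a function with vanishing orders at the three components and norms congruent to
`m`-th powers; `groot` gives the resulting roots of its residues.  `exists_balanced` reduces the
local theorem to such functions.
-/

set_option autoImplicit false

noncomputable section

open ModularCurve

namespace FLTAgent.CarayolSquare

local notation "Qbar" => AlgebraicClosure ℚ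

variable {q : ℕ}

theorem Ctx.hasOrd_of_unit (X : Ctx q) {s t : Ser} (hs : s ∈ X.intSer) (ht : t ∈ X.intSer)
    (h : s * t = 1) : X.HasOrd s 0 := by
  refine ⟨1, ⟨s, hs⟩, 1, fun h0 => ?_, by rw [map_one]; exact one_ne_zero, by simp, by simp⟩
  have h1 := congrArg X.redS (show (⟨s, hs⟩ * ⟨t, ht⟩ : X.intSer) = 1 from Subtype.ext h)
  rw [map_mul, map_one, h0, zero_mul] at h1
  exact zero_ne_one h1

instance Ctx.isAlgClosed_k (X : Ctx q) : IsAlgClosed X.k :=
  FLTAgent.Deuring.isAlgClosed_residueField X.A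

variable [NeZero q] [Fact q.Prime]

/-- The orders of the translates of `d` along the first or second line. -/
def discOrd (q : ℕ) (b : Bool) (κ : Option Bool) : ℤ :=
  if κ = some b then 12 * (q.factorial : ℤ) else 0

namespace Model

variable {X : Ctx q} {M₁ : ℕ} [NeZero M₁] (G : Model X M₁)

omit [NeZero q] [Fact (Nat.Prime q)] in
theorem gen_mem_LF (b : Bool) (v : Gen G.C) : G.gen b v ∈ G.LF b :=
  IntermediateField.subset_adjoin _ _ ⟨v, rfl⟩

omit [NeZero q] [Fact (Nat.Prime q)] in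
theorem hasOrd_discFam_some (c : ZMod q) : X.HasOrd (discFam X M₁ (some c)) 0 := by
  have h1 := X.qExpand_mem_goodSer M₁ X.discSeries_mem_goodSer.1
  have h2 := X.qExpand_mem_goodSer M₁ X.discSeries_mem_goodSer.2
  refine X.hasOrd_of_unit (X.discFam_mem_goodSer M₁ (some c)).1 (mul_mem
    (X.sub_mem_goodSer (some c) h2) (X.up_mem_goodSer h1)).1 ?_
  rw [discFam, mul_mul_mul_comm, ← map_mul, ← map_mul (qExpand Qbar M₁), ← map_mul X.up,
    ← map_mul (qExpand Qbar M₁), Igusa.discSeries_mul_inv, mul_comm (Igusa.discInvSeries Qbar),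
    Igusa.discSeries_mul_inv]
  simp

omit [NeZero q] [Fact (Nat.Prime q)] in
theorem hasOrd_discFam_none : X.HasOrd (discFam X M₁ none) (12 * (q.factorial : ℤ)) := by
  have h1 := X.qExpand_mem_goodSer M₁ X.discSeries_mem_goodSer.1
  have h2 := X.qExpand_mem_goodSer M₁ X.discSeries_mem_goodSer.2
  have hq : X.HasOrd ((q : Ser) ^ 12) (12 * (q.factorial : ℤ)) := by
    rw [← map_natCast (HahnSeries.C : Qbar →+* Ser), ← map_pow]
    refine X.hasOrd_C ?_
    rw [map_pow, ← pow_mul, ← zpow_natCast]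
    push_cast
    rfl
  have hu := X.hasOrd_of_unit (mul_mem (X.sub_mem_goodSer none h1) (X.up_mem_goodSer h2)).1
    (mul_mem (X.sub_mem_goodSer none h2) (X.up_mem_goodSer h1)).1 (by
      rw [mul_mul_mul_comm, ← map_mul, ← map_mul (qExpand Qbar M₁), ← map_mul X.up,
        ← map_mul (qExpand Qbar M₁), Igusa.discSeries_mul_inv,
        mul_comm (Igusa.discInvSeries Qbar), Igusa.discSeries_mul_inv]
      simp)
  simpa [discFam] using hq.mul hu

omit [NeZero q] in
theorem disc_ne_zero (b : Bool) : G.gen b .disc ≠ 0 := by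
  intro h
  have h1 := congrArg (G.emb G.one (Pair.base q)) h
  rw [G.emb_gen, map_zero] at h1
  cases b
  · exact (hasOrd_discFam_some (X := X) (M₁ := M₁) 0).ne_zero h1
  · exact (hasOrd_discFam_none (X := X) (M₁ := M₁)).ne_zero h1

theorem ord_disc (b : Bool) (κ : Option Bool) : G.ord κ (G.gen b .disc) = discOrd q b κ := by
  refine G.ord_eq (G.disc_ne_zero b) ?_
  rw [G.emb_gen]
  have h : ∀ L : Line q,
      X.HasOrd (discFam X M₁ L) (if L = none then 12 * (q.factorial : ℤ) else 0) := fun L => by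
    cases L with
    | none => exact hasOrd_discFam_none
    | some c => exact hasOrd_discFam_some c
  show X.HasOrd (discFam X M₁ ((kindPair κ).line b)) _
  convert h ((kindPair κ).line b) using 1
  rcases κ with _ | _ | _ <;> cases b <;>
    simp [discOrd, kindPair, Pair.line, Pair.base]

/-- The residue of a base function. -/
theorem red_baseHom (κ : Option Bool) (c : G.C) :
    ∃ hs : X.up (c : Ser) ∈ X.intSer,
      G.baseHom c ∈ G.V κ ∧ G.red κ (G.baseHom c) = X.redS ⟨_, hs⟩ := by
  have hs := (X.up_mem_goodSer (X.goodSer_of_coeffInO (G.coeff_mem c c.2))).1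
  refine ⟨hs, ?_⟩
  obtain ⟨hV, hr⟩ := G.red_of_emb (κ := κ) (z := G.baseHom c)
    ⟨((⟨_, hs⟩ : X.intSer) : Ser), X.intSer_le_gaussRing hs⟩ (by rw [G.emb_baseHom, G.cs_one])
  exact ⟨hV, by rw [hr, X.gaussRes_of_intSer]⟩

theorem baseHom_mem_V (κ : Option Bool) (c : G.C) : G.baseHom c ∈ G.V κ :=
  (G.red_baseHom κ c).2.1

theorem unit0_baseHom {c : G.C} (hc : ¬ X.RedZero (c : Ser)) : G.Unit0 (G.baseHom c) := by
  refine unit0_of_red fun κ => ?_
  obtain ⟨hs, hV, hr⟩ := G.red_baseHom κ c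
  refine ⟨hV, fun h0 => hc fun n => ?_⟩
  rw [hr, X.redS_eq_zero_iff] at h0
  have := h0 ((q : ℤ) * n)
  rwa [show (X.up (c : Ser)).coeff ((q : ℤ) * n) = (c : Ser).coeff n from
    qExpand_coeff_mul q (c : Ser) n] at this

theorem unit0_h : G.Unit0 (G.baseHom G.h) := by
  refine G.unit0_baseHom fun h => ?_
  obtain ⟨e, -, -, -, hlead⟩ := G.h_order
  exact (h _).ne hlead

theorem unit0_algebraMap {c : X.O} (hc : X.resK c ≠ 0) :
    G.Unit0 (algebraMap X.O G.splitField c) :=
  unit0_of_red fun κ => ⟨G.algebraMap_mem_V κ c, by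
    rw [G.red_algebraMap]; exact fun h => hc (HahnSeries.C_injective (h.trans (map_zero _).symm))⟩

/-- The data on which the components glue. -/
structure Balanced (m : ℕ) where
  f : G.splitField
  unit : G.Unit0 f
  horiz : ∀ W : ValuationSubring G.splitField, (∀ c : X.K, algebraMap X.K G.splitField c ∈ W) →
    ∃ g : G.splitField, g ≠ 0 ∧ W.valuation f = W.valuation (g ^ m)
  root : Bool → G.splitField
  root_mem : ∀ b, root b ∈ G.LF b
  root_unit : ∀ b, G.Unit0 (root b)
  κ : Bool → X.O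
  κ_one : ∀ b, X.resK (κ b) = 1
  norm_eq : ∀ b, (Algebra.norm (G.LF b) f : G.splitField) =
    algebraMap X.O G.splitField (κ b) * root b ^ m

/-- The exponent by which a balanced function is raised. -/
def gluePow (q : ℕ) : ℕ := q ^ 2 * ((q - 1) * (q + 1))

namespace Balanced

variable {G} {m : ℕ} (β : G.Balanced m)

/-- The residue of `root b` at the component with that line infinite. -/
def resA (b : Bool) : LaurentSeries X.k := G.red (some b) (β.root b)

/-- The residue of `root b` at the other components. -/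
def resB (b : Bool) : LaurentSeries X.k := G.red none (β.root b)

/-- The residues of the function. -/
def resF (κ : Option Bool) : LaurentSeries X.k := G.red κ β.f

theorem resA_ne_zero (b : Bool) : β.resA b ≠ 0 := (β.root_unit b).red_ne_zero _

theorem resB_ne_zero (b : Bool) : β.resB b ≠ 0 := (β.root_unit b).red_ne_zero _

theorem resF_ne_zero (κ : Option Bool) : β.resF κ ≠ 0 := β.unit.red_ne_zero _

theorem resA_pow (b : Bool) : β.resA b ^ m = β.resF (some b) ^ q := by
  have h := (G.red_norm_LF b β.unit).2.1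
  rw [β.norm_eq b, G.red_mul (G.algebraMap_mem_V _ _) (((β.root_unit b).pow m).mem _),
    G.red_algebraMap, β.κ_one, map_one, one_mul, G.red_pow ((β.root_unit b).mem _)] at h
  exact h

theorem resB_pow (b : Bool) :
    β.resB b ^ m = β.resF (some !b) * β.resF none ^ (q - 1) := by
  have h := (G.red_norm_LF b β.unit).2.2
  rw [β.norm_eq b, G.red_mul (G.algebraMap_mem_V _ _) (((β.root_unit b).pow m).mem _),
    G.red_algebraMap, β.κ_one, map_one, one_mul, G.red_pow ((β.root_unit b).mem _)] at h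
  exact h

theorem inBase_resA (b : Bool) : G.InBase (β.resA b ^ q) :=
  (G.inBase_LF b (β.root_mem b) (β.root_unit b)).1

theorem inBase_resB (b : Bool) : G.InBase (β.resB b ^ q ^ 2) :=
  (G.inBase_LF b (β.root_mem b) (β.root_unit b)).2

/-- The ratio of the two norms to the base. -/
def zeta : LaurentSeries X.k :=
  (β.resA true ^ q * β.resB true ^ q ^ 2) / (β.resA false ^ q * β.resB false ^ q ^ 2)

theorem zeta_ne_zero : β.zeta ≠ 0 :=
  div_ne_zero (mul_ne_zero (pow_ne_zero _ (β.resA_ne_zero _)) (pow_ne_zero _ (β.resB_ne_zero _)))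
    (mul_ne_zero (pow_ne_zero _ (β.resA_ne_zero _)) (pow_ne_zero _ (β.resB_ne_zero _)))

theorem zeta_pow : β.zeta ^ m = 1 := by
  have e : ∀ b, (β.resA b ^ q * β.resB b ^ q ^ 2) ^ m =
      (β.resF (some b) * β.resF (some !b) * β.resF none ^ (q - 1)) ^ q ^ 2 := by
    intro b
    rw [mul_pow, pow_right_comm, β.resA_pow, pow_right_comm (β.resB b), β.resB_pow, ← pow_mul,
      ← pow_two, ← mul_pow, mul_assoc]
  have h0 := β.resF_ne_zero
  rw [zeta, div_pow, e, e, Bool.not_true, Bool.not_false, mul_comm (β.resF (some true))]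
  exact div_self (pow_ne_zero _ (mul_ne_zero (mul_ne_zero (h0 _) (h0 _)) (pow_ne_zero _ (h0 _))))

theorem exists_zeta (hm : 0 < m) : ∃ z : X.k, β.zeta = HahnSeries.C z ∧ z ≠ 0 := by
  classical
  have hP : (Polynomial.X ^ m - Polynomial.C (1 : X.k)) ≠ 0 := Polynomial.X_pow_sub_C_ne_zero hm 1
  have hs : (Polynomial.X ^ m - Polynomial.C (1 : X.k)).Splits := IsAlgClosed.splits _
  have h1 : Polynomial.eval β.zeta ((Polynomial.X ^ m - Polynomial.C (1 : X.k)).map
      (HahnSeries.C : X.k →+* LaurentSeries X.k)) = 0 := by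
    simp [β.zeta_pow]
  rw [hs.eq_prod_roots, Polynomial.map_mul, Polynomial.eval_mul, Polynomial.map_C,
      Polynomial.eval_C,
    Polynomial.map_multiset_prod, Polynomial.eval_multiset_prod, mul_eq_zero] at h1
  rcases h1 with h1 | h1
  · exact absurd (Polynomial.leadingCoeff_eq_zero.mp (HahnSeries.C_injective
      (h1.trans (map_zero _).symm))) hP
  · obtain ⟨r, hr, hr0⟩ := Multiset.mem_map.mp (Multiset.prod_eq_zero_iff.mp h1)
    obtain ⟨c, hc, rfl⟩ := Multiset.mem_map.mp hr
    obtain ⟨z, -, rfl⟩ := Multiset.mem_map.mp hc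
    simp only [Polynomial.map_sub, Polynomial.map_X, Polynomial.map_C, Polynomial.eval_sub,
      Polynomial.eval_X, Polynomial.eval_C, sub_eq_zero] at hr0
    exact ⟨z, hr0, fun h => β.zeta_ne_zero (by rw [hr0, h, map_zero])⟩

theorem inBase_zeta : G.InBase β.zeta :=
  ((β.inBase_resA true).mul (β.inBase_resB true)).mul
    ((β.inBase_resA false).mul (β.inBase_resB false)).inv

/-- The `m`-th roots of the residues of `f ^ gluePow q`. -/
def groot : Option Bool → LaurentSeries X.k
  | some true => (β.resA true ^ q) ^ ((q - 1) * (q + 1))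
  | some false => β.zeta ^ (q - 1) * (β.resA false ^ q) ^ ((q - 1) * (q + 1))
  | none => β.zeta⁻¹ * (β.resB true ^ q ^ 2 * (β.resA false ^ q)⁻¹) ^ (q + 1)

theorem inBase_groot (κ : Option Bool) : G.InBase (β.groot κ) := by
  rcases κ with _ | _ | _
  · exact β.inBase_zeta.inv.mul (((β.inBase_resB true).mul (β.inBase_resA false).inv).pow _)
  · exact (β.inBase_zeta.pow _).mul ((β.inBase_resA false).pow _)
  · exact (β.inBase_resA true).pow _

theorem groot_pow (κ : Option Bool) : β.groot κ ^ m = G.red κ (β.f ^ gluePow q) := by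
  rw [G.red_pow (β.unit.mem κ)]
  show _ = β.resF κ ^ _
  have hz : β.zeta ^ m = 1 := β.zeta_pow
  rcases κ with _ | _ | _ <;> simp only [groot, gluePow]
  · have h : (β.resB true ^ q ^ 2 * (β.resA false ^ q)⁻¹) ^ m =
        β.resF none ^ ((q - 1) * q ^ 2) := by
      rw [mul_pow, inv_pow, pow_right_comm, β.resB_pow, pow_right_comm (β.resA false), β.resA_pow,
        Bool.not_true, mul_pow, ← pow_mul, ← pow_mul, ← pow_two, mul_comm (β.resF (some false) ^ _),
        mul_assoc, mul_inv_cancel₀ (pow_ne_zero _ (β.resF_ne_zero _)), mul_one]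
    rw [mul_pow, inv_pow, hz, inv_one, one_mul, pow_right_comm, h, ← pow_mul]
    congr 1
    ring
  · rw [mul_pow, pow_right_comm, hz, one_pow, one_mul, pow_right_comm,
        pow_right_comm (β.resA false),
      β.resA_pow, ← pow_mul, ← pow_mul]
    congr 1
    ring
  · rw [pow_right_comm, pow_right_comm (β.resA true), β.resA_pow, ← pow_mul, ← pow_mul]
    congr 1
    ring

/-- The components with the roots of the residues. -/
def compData : CompData X.O G.splitField (LaurentSeries X.k) X.fixedData.π (G.baseHom G.h)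
    (β.f ^ gluePow q) m where
  ι := Option Bool
  nonempty := ⟨none⟩
  V := G.V
  res := G.resV
  algebraMap_mem := G.algebraMap_mem_V
  res_π κ := by
    rw [← G.red_eq, G.red_algebraMap, X.fixedData_π, map_natCast, X.natCast_k, map_zero]
  u_mem κ := G.baseHom_mem_V κ G.h
  u_inv_mem := G.unit0_h.inv_mem
  f_mem := (β.unit.pow _).mem
  f_inv_mem := (β.unit.pow _).inv_mem
  g := β.groot
  g_pow κ := by rw [β.groot_pow κ, G.red_eq ((β.unit.pow _).mem κ)]

theorem exists_groot_lift (κ : Option Bool) :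
    ∃ z : G.V κ, G.resV κ z = β.groot κ := by
  obtain ⟨z, -, hz, h⟩ := (β.inBase_groot κ).exists_lift κ
  exact ⟨⟨z, hz⟩, h⟩

end Balanced

/-- The exponent of the reduction to balanced functions. -/
def balancePow (q : ℕ) : ℕ := 12 * q.factorial * ((q - 1) * (q + 1)) * q.factorial

omit [NeZero q] in
theorem balancePow_pos : 0 < balancePow q := by
  have := Nat.factorial_pos q
  have h2 := (Fact.out : q.Prime).two_le
  have h3 : 0 < (q - 1) * (q + 1) := Nat.mul_pos (by omega) (Nat.succ_pos q)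
  exact Nat.mul_pos (Nat.mul_pos (Nat.mul_pos (by norm_num) this) h3) this

/-- **Reduction to balanced functions.** -/
theorem exists_balanced {m : ℕ} (hm : 0 < m) {f : G.splitField} (hf : f ≠ 0)
    (hW : ∀ W : ValuationSubring G.splitField, (∀ c : X.K, algebraMap X.K G.splitField c ∈ W) →
      ∃ g : G.splitField, g ≠ 0 ∧ W.valuation f = W.valuation (g ^ m))
    (hN : ∀ b, ∃ (c : X.K) (g : G.splitField), g ∈ G.LF b ∧
      (Algebra.norm (G.LF b) f : G.splitField) = algebraMap X.K G.splitField c * g ^ m) :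
    ∃ (β : G.Balanced m) (c : X.K) (g : G.splitField),
      f ^ balancePow q = algebraMap X.K G.splitField c * β.f * g ^ m := by
  classical
  have := X.dvr
  choose c g hg hN using hN
  obtain ⟨l₁, hl₁⟩ := G.exists_ord_congr true hf (hN true)
  obtain ⟨l₂, hl₂⟩ := G.exists_ord_congr false hf (hN false)
  simp only [Bool.not_true, Bool.not_false] at hl₁ hl₂
  -- `(q² - 1) (o_b - o) = m i_b`
  obtain ⟨i, hi⟩ : ∃ i : Bool → ℤ, ∀ b,
      ((q : ℤ) ^ 2 - 1) * (G.ord (some b) f - G.ord none f) = m * i b :=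
    ⟨fun b => if b then (q : ℤ) * l₁ + l₂ else (q : ℤ) * l₂ + l₁, fun b => by
      cases b <;> simp only [Bool.false_eq_true, ↓reduceIte]
      · linear_combination (q : ℤ) * hl₂ + hl₁
      · linear_combination (q : ℤ) * hl₁ + hl₂⟩
  set E := 12 * q.factorial * ((q - 1) * (q + 1)) with hE
  have hE' : (E : ℤ) = 12 * q.factorial * ((q : ℤ) ^ 2 - 1) := by
    rw [hE]; push_cast [Nat.cast_sub (NeZero.one_le : 1 ≤ q)]; ring
  have hq0 : (q : X.K) ≠ 0 := Nat.cast_ne_zero.mpr X.prime.ne_zero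
  set s : ℤ := 12 * ((q : ℤ) ^ 2 - 1) * G.ord none f with hs
  set d : G.splitField := G.gen true .disc ^ (-i true) * G.gen false .disc ^ (-i false) with hd
  have hd0 : d ≠ 0 :=
      mul_ne_zero (zpow_ne_zero _ (G.disc_ne_zero _)) (zpow_ne_zero _ (G.disc_ne_zero _))
  set c₀ : X.K := ((q : X.K) ^ s)⁻¹ with hc₀
  have hc₀0 : c₀ ≠ 0 := inv_ne_zero (zpow_ne_zero _ hq0)
  set f₁ : G.splitField := f ^ E * algebraMap X.K G.splitField c₀ * d ^ m with hf₁
  have hf₁0 : f₁ ≠ 0 := mul_ne_zero (mul_ne_zero (pow_ne_zero _ hf)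
    ((_root_.map_ne_zero _).mpr hc₀0)) (pow_ne_zero _ hd0)
  have hord : ∀ κ, G.ord κ f₁ = 0 := by
    intro κ
    have hqF : (q : G.splitField) ≠ 0 := Nat.cast_ne_zero.mpr X.prime.ne_zero
    have e1 : algebraMap X.K G.splitField c₀ = (q : G.splitField) ^ (-s) := by
      rw [hc₀, map_inv₀, map_zpow₀, map_natCast, zpow_neg]
    rw [hf₁, G.ord_mul κ (mul_ne_zero (pow_ne_zero _ hf) ((_root_.map_ne_zero _).mpr hc₀0))
      (pow_ne_zero _ hd0), G.ord_mul κ (pow_ne_zero _ hf) ((_root_.map_ne_zero _).mpr hc₀0),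
      G.ord_pow κ hf, G.ord_pow κ hd0, hd, G.ord_mul κ (zpow_ne_zero _ (G.disc_ne_zero _))
      (zpow_ne_zero _ (G.disc_ne_zero _)), G.ord_zpow κ (G.disc_ne_zero _),
      G.ord_zpow κ (G.disc_ne_zero _), G.ord_disc, G.ord_disc, e1, G.ord_zpow κ hqF,
      G.ord_natCast, hE', hs]
    rcases κ with _ | _ | _ <;> simp only [discOrd, reduceCtorEq, ↓reduceIte, Option.some.injEq,
      Bool.false_eq_true, Bool.true_eq_false]
    · ring
    · linear_combination (12 * (q.factorial : ℤ)) * hi false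
    · linear_combination (12 * (q.factorial : ℤ)) * hi true
  set f₂ := f₁ ^ q.factorial with hf₂
  have hu₂ : G.Unit0 f₂ := Unit0.pow ⟨hf₁0, hord⟩ _
  have hnorm₁ : ∀ b, ∃ (c' : X.K) (g' : G.splitField), c' ≠ 0 ∧ g' ≠ 0 ∧ g' ∈ G.LF b ∧
      (Algebra.norm (G.LF b) f₁ : G.splitField) = algebraMap X.K G.splitField c' * g' ^ m := by
    intro b
    have hn : (Algebra.norm (G.LF b) f : G.splitField) ≠ 0 := fun h0 =>
      (Algebra.norm_ne_zero_iff (R := G.LF b)).mpr hf (Subtype.ext h0)
    rw [hN b] at hn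
    refine ⟨c b ^ E * c₀ ^ Module.finrank (G.LF b) G.splitField,
      g b ^ E * (Algebra.norm (G.LF b) d : G.splitField), mul_ne_zero (pow_ne_zero _ fun h0 => hn
        (by rw [h0, map_zero, zero_mul])) (pow_ne_zero _ hc₀0), mul_ne_zero (pow_ne_zero _ fun h0 =>
          hn (by rw [h0, zero_pow hm.ne', mul_zero])) (fun h0 =>
          (Algebra.norm_ne_zero_iff (R := G.LF b)).mpr hd0 (Subtype.ext h0)),
      mul_mem (pow_mem (hg b) _) (Subtype.coe_prop _), ?_⟩
    have hc : Algebra.norm (G.LF b) (algebraMap X.K G.splitField c₀) =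
        algebraMap X.K (G.LF b) c₀ ^ Module.finrank (G.LF b) G.splitField := by
      rw [IsScalarTower.algebraMap_apply X.K (G.LF b) G.splitField, Algebra.norm_algebraMap]
    rw [hf₁, map_mul, map_mul, map_pow, map_pow, hc]
    simp only [MulMemClass.coe_mul, SubmonoidClass.coe_pow]
    rw [hN b, show ((algebraMap X.K (G.LF b) c₀ : G.LF b) : G.splitField) =
      algebraMap X.K G.splitField c₀ from rfl]
    simp only [map_mul, map_pow]
    ring
  have hnorm₂ : ∀ b, ∃ (κ' : X.O) (g' : G.splitField), X.resK κ' = 1 ∧ g' ∈ G.LF b ∧ G.Unit0 g' ∧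
      (Algebra.norm (G.LF b) f₂ : G.splitField) = algebraMap X.O G.splitField κ' * g' ^ m := by
    intro b
    obtain ⟨c', g', hc', hg'0, hg', hN'⟩ := hnorm₁ b
    obtain ⟨j, hjv, hj⟩ := G.exists_ord_algebraMap hc'
    set l : ℤ := G.ord none g'
    have hNu : G.Unit0 (Algebra.norm (G.LF b) f₁ : G.splitField) :=
      (G.red_norm_LF b ⟨hf₁0, hord⟩).1
    have hg : ∀ κ, j * (q.factorial : ℤ) + m * G.ord κ g' = 0 := fun κ => by
      have := hNu.ord_eq κ
      rwa [hN', G.ord_mul κ ((_root_.map_ne_zero _).mpr hc') (pow_ne_zero _ hg'0),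
        G.ord_pow κ hg'0, hj] at this
    have hl : ∀ κ, G.ord κ g' = l := fun κ => by
      have h1 := hg κ
      have h2 := hg none
      exact mul_left_cancel₀ (show (m : ℤ) ≠ 0 by exact_mod_cast hm.ne') (by linarith)
    set g₂ : G.splitField := g' ^ q.factorial * algebraMap X.K G.splitField ((q : X.K) ^ (-l))
      with hg₂
    have hqF : (q : G.splitField) ≠ 0 := Nat.cast_ne_zero.mpr X.prime.ne_zero
    have hg₂u : G.Unit0 g₂ := by
      refine ⟨mul_ne_zero (pow_ne_zero _ hg'0) ((_root_.map_ne_zero _).mpr (zpow_ne_zero _ hq0)),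
        fun κ => ?_⟩
      rw [hg₂, G.ord_mul κ (pow_ne_zero _ hg'0) ((_root_.map_ne_zero _).mpr (zpow_ne_zero _ hq0)),
        G.ord_pow κ hg'0, hl, map_zpow₀, map_natCast, G.ord_zpow κ hqF, G.ord_natCast]
      ring
    set c₂ : X.K := c' ^ q.factorial * ((q : X.K) ^ l) ^ m with hc₂
    have hv : X.A.valuation (algebraMap X.K Qbar c₂) = 1 := by
      rw [hc₂, map_mul, map_mul, map_pow, map_pow, map_pow, map_zpow₀, map_natCast, map_pow,
        map_zpow₀, hjv, ← zpow_natCast, ← zpow_mul, ← zpow_natCast (_ ^ l), ← zpow_mul,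
        ← zpow_add₀ X.v_q_pos.ne', mul_comm l, show j * (q.factorial : ℤ) + (m : ℤ) * l = 0 from
          hg none, zpow_zero]
    obtain ⟨e, he⟩ : ∃ e : X.O, (e : X.K) = c₂ :=
      ⟨⟨c₂, (X.A.valuation_le_one_iff _).mp hv.le⟩, rfl⟩
    have he0 : X.resK e ≠ 0 := fun h => by
      have h' : IsLocalRing.residue X.A ⟨algebraMap X.K Qbar (e : X.K), e.2⟩ = 0 := h
      rw [IsLocalRing.residue_eq_zero_iff, X.A.valuation_lt_one_iff] at h'
      exact h'.ne (by show X.A.valuation (algebraMap X.K Qbar (e : X.K)) = 1; rw [he, hv])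
    obtain ⟨r, hr⟩ := IsAlgClosed.exists_pow_nat_eq (X.resK e) hm
    obtain ⟨μ, hμ⟩ := X.resK_surjective r
    obtain ⟨ν, hν⟩ := X.resK_surjective r⁻¹
    have hr0 : r ≠ 0 := fun h => he0 (by rw [← hr, h, zero_pow hm.ne'])
    have hμν : (μ * ν) ∉ IsLocalRing.maximalIdeal X.O := by
      intro h
      have h1 : X.resK (μ * ν) = 1 := by rw [map_mul, hμ, hν, mul_inv_cancel₀ hr0]
      rw [IsLocalRing.mem_maximalIdeal, mem_nonunits_iff] at h
      refine h ((X.isUnit_iff_valuation _).mpr ?_)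
      refine le_antisymm ((X.A.valuation_le_one_iff _).mpr (μ * ν).2) (not_lt.mp fun hlt => ?_)
      have h2 : X.resK (μ * ν) = 0 := by
        refine (IsLocalRing.residue_eq_zero_iff _).mpr ((X.A.valuation_lt_one_iff _).mpr ?_)
        exact hlt
      exact zero_ne_one (h2.symm.trans h1)
    have hμu : IsUnit μ := isUnit_of_mul_isUnit_left
      (IsLocalRing.notMem_maximalIdeal.mp hμν)
    obtain ⟨μ', hμ'⟩ := hμu.exists_right_inv
    refine ⟨e * μ' ^ m, algebraMap X.O G.splitField μ * g₂, ?_, mul_mem (G.B₀_le_LF b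
        (G.B₀.algebraMap_mem (μ : X.K))) ?_, (G.unit0_algebraMap (by rw [hμ]; exact hr0)).mul hg₂u,
        ?_⟩
    · rw [map_mul, map_pow, ← hr, ← mul_pow, ← hμ, ← map_mul, hμ', map_one, one_pow]
    · exact mul_mem (pow_mem hg' _) ((G.LF b).algebraMap_mem _)
    · have hμ'' : algebraMap X.O G.splitField μ' * algebraMap X.O G.splitField μ = 1 := by
        rw [← map_mul, mul_comm, hμ', map_one]
      have e1 : algebraMap X.O G.splitField (e * μ' ^ m) *
          (algebraMap X.O G.splitField μ * g₂) ^ m = algebraMap X.K G.splitField c₂ * g₂ ^ m := by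
        rw [map_mul, map_pow, mul_pow]
        calc algebraMap X.O G.splitField e * algebraMap X.O G.splitField μ' ^ m *
              (algebraMap X.O G.splitField μ ^ m * g₂ ^ m)
            = algebraMap X.O G.splitField e *
              (algebraMap X.O G.splitField μ' * algebraMap X.O G.splitField μ) ^ m * g₂ ^ m := by
              ring
          _ = _ := by rw [hμ'', one_pow, mul_one, ← he]; rfl
      rw [e1, hf₂, map_pow, SubmonoidClass.coe_pow, hN', hc₂, hg₂, map_mul, map_pow, map_pow,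
        map_zpow₀, map_zpow₀, map_natCast, mul_pow, mul_pow, zpow_neg, inv_pow, ← pow_mul,
            ← pow_mul,
        mul_comm q.factorial m]
      have : ((q : G.splitField) ^ l) ^ m ≠ 0 := pow_ne_zero _ (zpow_ne_zero _ hqF)
      field_simp
  choose κ' g₂ hκ' hg₂ hg₂u hN₂ using hnorm₂
  refine ⟨⟨f₂, hu₂, fun W hK => ?_, g₂, hg₂, hg₂u, κ', hκ', hN₂⟩, (c₀ ^ q.factorial)⁻¹,
    d⁻¹ ^ q.factorial, ?_⟩
  · obtain ⟨w, hw0, hw⟩ := hW W hK
    refine ⟨(w ^ E * d) ^ q.factorial, pow_ne_zero _ (mul_ne_zero (pow_ne_zero _ hw0) hd0), ?_⟩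
    have hc1 : W.valuation (algebraMap X.K G.splitField c₀) = 1 := by
      refine le_antisymm ((W.valuation_le_one_iff _).mpr (hK _)) ?_
      have h2 := (W.valuation_le_one_iff _).mpr (hK c₀⁻¹)
      rw [map_inv₀, map_inv₀] at h2
      exact (inv_le_one₀ (W.valuation.pos_iff.mpr ((_root_.map_ne_zero _).mpr hc₀0))).mp h2
    rw [hf₂, hf₁]
    simp only [map_mul, map_pow, hc1, hw, mul_one]
    simp only [mul_pow, ← pow_mul, Nat.mul_comm, Nat.mul_left_comm]
  · show f ^ (E * q.factorial) = _ * f₂ * _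
    have h1 : algebraMap X.K G.splitField c₀ ^ q.factorial ≠ 0 :=
      pow_ne_zero _ ((_root_.map_ne_zero _).mpr hc₀0)
    have h2 : d ^ m ≠ 0 := pow_ne_zero _ hd0
    have e : f ^ (E * q.factorial) = f₂ * (algebraMap X.K G.splitField c₀ ^ q.factorial)⁻¹ *
        ((d ^ m) ^ q.factorial)⁻¹ := by
      rw [hf₂, hf₁, pow_mul, mul_pow, mul_pow, mul_assoc ((f ^ E) ^ _), mul_assoc, ← mul_inv,
        mul_assoc, mul_inv_cancel₀ (mul_ne_zero h1 (pow_ne_zero _ h2)), mul_one]
    rw [e, map_inv₀ (algebraMap X.K G.splitField) (c₀ ^ q.factorial), map_pow, inv_pow, inv_pow,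
      ← pow_mul, ← pow_mul, mul_comm q.factorial m]
    ring

end Model

end FLTAgent.CarayolSquare
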