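import Mathlib.FieldTheory.Minpoly.IsIntegrallyClosed
import Mathlib.RingTheory.Polynomial.IsIntegral
import Mathlib.RingTheory.Polynomial.ScaleRoots
import Mathlib.RingTheory.Polynomial.Basic
import Mathlib.RingTheory.Localization.FractionRing
import Mathlib.RingTheory.IntegralClosure.IsIntegral.Basic

/-!
# Descending integrality across a prime

`isIntegral_of_mul`: an element `z` with `π z` and `D (u) ^ N z` integral over `O[u]`, for a prime
`π` not dividing `D`, is integral over `O[u]`.  Used for the charts in `Geometry.Charts`.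
-/

set_option autoImplicit false

noncomputable section

open Polynomial

namespace FLTAgent.CarayolSquare

variable {O E : Type*} [CommRing O] [Field E] [Algebra O E]

theorem isIntegral_adjoin_iff (u z : E) :
    IsIntegral (Algebra.adjoin O ({u} : Set E)) z ↔
      ∃ P : Polynomial (Polynomial O),
          P.Monic ∧ P.eval₂ (aeval u : O[X] →ₐ[O] E).toRingHom z = 0 := by
  have hr : ∀ a : Algebra.adjoin O ({u} : Set E), ∃ p : O[X], aeval u p = (a : E) := by
    rintro ⟨a, ha⟩
    rw [Algebra.adjoin_singleton_eq_range_aeval] at ha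
    exact ha
  let φ : O[X] →+* Algebra.adjoin O ({u} : Set E) :=
    (aeval u : O[X] →ₐ[O] E).toRingHom.codRestrict _ fun p => aeval_mem_adjoin_singleton O u
  have hφs : Function.Surjective φ := fun a => by
    obtain ⟨p, hp⟩ := hr a
    exact ⟨p, Subtype.ext hp⟩
  have hcomp : (algebraMap (Algebra.adjoin O ({u} : Set E)) E).comp φ =
      (aeval u : O[X] →ₐ[O] E).toRingHom := RingHom.ext fun _ => rfl
  constructor
  · rintro ⟨P, hP, hPz⟩
    obtain ⟨Q, hQ, -, hQm⟩ := lifts_and_degree_eq_and_monic (map_surjective φ hφs P) hP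
    refine ⟨Q, hQm, ?_⟩
    rw [← hQ, eval₂_map, hcomp] at hPz
    exact hPz
  · rintro ⟨P, hP, hPz⟩
    exact ⟨P.map φ, hP.map φ, by rw [eval₂_map, hcomp]; exact hPz⟩

theorem isIntegral_of_mul [IsDomain O] [IsIntegrallyClosed O] {π : O} (hπ : Prime π) {u : E}
    (hu : Function.Injective (aeval u : O[X] →ₐ[O] E)) {D : O[X]} (hD : ¬ C π ∣ D) {z : E} {N : ℕ}
    (h1 : IsIntegral (Algebra.adjoin O ({u} : Set E)) (aeval u D ^ N * z))
    (h2 : IsIntegral (Algebra.adjoin O ({u} : Set E)) (algebraMap O E π * z)) :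
    IsIntegral (Algebra.adjoin O ({u} : Set E)) z := by
  classical
  let ψ : O[X] →+* E := (aeval u : O[X] →ₐ[O] E).toRingHom
  let : Algebra O[X] E := ψ.toAlgebra
  let : Algebra (FractionRing O[X]) E := (IsFractionRing.lift (g := ψ) hu).toAlgebra
  have : IsScalarTower O[X] (FractionRing O[X]) E := IsScalarTower.of_algebraMap_eq fun r =>
    (IsFractionRing.lift_algebraMap (g := ψ) hu r).symm
  have h1' : IsIntegral O[X] (aeval u D ^ N * z) := (isIntegral_adjoin_iff u _).mp h1
  have h2' : IsIntegral O[X] (algebraMap O E π * z) := (isIntegral_adjoin_iff u _).mp h2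
  have hDu : ψ D ≠ 0 := fun h => hD (by rw [hu (h.trans (map_zero ψ).symm)]; exact dvd_zero _)
  set d : E := ψ D ^ N with hd
  have hd0 : d ≠ 0 := pow_ne_zero N hDu
  have hπ0 : algebraMap O E π ≠ 0 := by
    intro h
    refine hπ.ne_zero (C_injective (hu ?_))
    rw [map_zero, map_zero, aeval_C, h]
  have hzK : IsIntegral (FractionRing O[X]) z := by
    have h3 : IsIntegral (FractionRing O[X]) (aeval u D ^ N * z) := h1'.tower_top
    have h4 := (isIntegral_algebraMap (R := FractionRing O[X]) (A := E)
      (x := (algebraMap O[X] (FractionRing O[X]) D ^ N)⁻¹)).mul h3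
    rwa [map_inv₀, map_pow, ← IsScalarTower.algebraMap_apply,
      show algebraMap O[X] E D = aeval u D from rfl, ← mul_assoc,
          inv_mul_cancel₀ (show (aeval u D : E) ^ N ≠ 0 from hd0), one_mul] at h4
  set p := minpoly (FractionRing O[X]) z with hp
  -- the minimal polynomial of a multiple
  have key : ∀ r : O[X], ψ r ≠ 0 → IsIntegral O[X] (ψ r * z) →
      ∀ i, ∃ a : O[X], algebraMap O[X] (FractionRing O[X]) a =
        algebraMap O[X] (FractionRing O[X]) r ^ (p.natDegree - i) * p.coeff i := by
    intro r hr hint i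
    set r' := algebraMap O[X] (FractionRing O[X]) r
    have hr' : r' ≠ 0 := fun h0 => hr (by
      have h := congrArg (algebraMap (FractionRing O[X]) E) h0
      rwa [map_zero, ← IsScalarTower.algebraMap_apply] at h)
    have hmin : minpoly (FractionRing O[X]) (ψ r * z) = p.scaleRoots r' := by
      have hrz : algebraMap (FractionRing O[X]) E r' = ψ r :=
        (IsScalarTower.algebraMap_apply _ _ _ r).symm
      have hroot : aeval (ψ r * z) (p.scaleRoots r') = 0 := by
        have := scaleRoots_aeval_eq_zero (r := r') (minpoly.aeval (FractionRing O[X]) z)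
        rwa [hrz] at this
      refine (minpoly.unique _ _ ((monic_scaleRoots_iff r').mpr (minpoly.monic hzK)) hroot ?_).symm
      intro Q hQm hQ
      rw [degree_eq_natDegree ((monic_scaleRoots_iff r').mpr (minpoly.monic hzK)).ne_zero,
        degree_eq_natDegree hQm.ne_zero, natDegree_scaleRoots, Nat.cast_le]
      have hroot' : aeval z (Q.scaleRoots r'⁻¹) = 0 := by
        have := scaleRoots_aeval_eq_zero (r := r'⁻¹) hQ
        rwa [map_inv₀, hrz, ← mul_assoc, inv_mul_cancel₀ hr, one_mul] at this
      have hle := minpoly.min (FractionRing O[X]) z ((monic_scaleRoots_iff r'⁻¹).mpr hQm) hroot'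
      have hne : Q.scaleRoots r'⁻¹ ≠ 0 := scaleRoots_ne_zero hQm.ne_zero _
      have := natDegree_le_natDegree hle
      rwa [natDegree_scaleRoots] at this
    have hcoeff := congrArg (fun P => coeff P i)
      (minpoly.isIntegrallyClosed_eq_field_fractions' (FractionRing O[X]) hint)
    simp only [hmin, coeff_scaleRoots, coeff_map] at hcoeff
    exact ⟨_, by rw [← hcoeff, mul_comm]⟩
  have hA : ∀ i, ∃ a : O[X], algebraMap O[X] (FractionRing O[X]) a = p.coeff i := by
    intro i
    have hz1 : ψ (D ^ N) * z = aeval u D ^ N * z := by rw [map_pow]; rfl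
    obtain ⟨P, hP⟩ := key (D ^ N) (by rw [map_pow]; exact hd0) (by rw [hz1]; exact h1') i
    have hCπ : ψ (C π) = algebraMap O E π := aeval_C u π
    obtain ⟨Q, hQ⟩ := key (C π) (by rw [hCπ]; exact hπ0) (by rw [hCπ]; exact h2') i
    have hQP : Q * (D ^ N) ^ (p.natDegree - i) = C π ^ (p.natDegree - i) * P := by
      refine IsFractionRing.injective O[X] (FractionRing O[X]) ?_
      rw [map_mul, map_mul, hQ, hP]
      simp only [map_pow]
      ring
    have hCp : Prime (C π : O[X]) := Polynomial.prime_C_iff.mpr hπ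
    obtain ⟨a, ha⟩ : C π ^ (p.natDegree - i) ∣ Q := by
      refine hCp.pow_dvd_of_dvd_mul_right _ ?_ (Dvd.intro P hQP.symm)
      exact fun h => hD (hCp.dvd_of_dvd_pow (hCp.dvd_of_dvd_pow h))
    refine ⟨a, mul_left_cancel₀ (pow_ne_zero (p.natDegree - i) fun h0 => ?_) (?_ :
      algebraMap O[X] (FractionRing O[X]) (C π) ^ (p.natDegree - i) * _ = _)⟩
    · exact hCp.ne_zero
          (IsFractionRing.injective O[X] (FractionRing O[X]) (h0.trans (map_zero _).symm))
    · rw [← map_pow, ← map_mul, ← ha, hQ, map_pow]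
  choose a ha using hA
  obtain ⟨P, hP, -, hPm⟩ : ∃ P : Polynomial O[X], P.map (algebraMap O[X] (FractionRing O[X])) = p ∧
      P.degree = p.degree ∧ P.Monic :=
    lifts_and_degree_eq_and_monic ((lifts_iff_coeff_lifts p).mpr fun i => ⟨a i, ha i⟩)
      (minpoly.monic hzK)
  refine (isIntegral_adjoin_iff u z).mpr ⟨P, hPm, ?_⟩
  have h := minpoly.aeval (FractionRing O[X]) z
  rw [← hp, ← hP, aeval_map_algebraMap, aeval_def] at h
  exact h

end FLTAgent.CarayolSquare
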