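import Fermat.Agent.CarayolSquare.Geometry.Gauss
import Fermat.Agent.CarayolSquare.Geometry.Descent
import Fermat.Agent.CarayolSquare.Orth

/-!
# The two charts of `splitField`

The integral closures of `O[h]` and of `O[1/h]` and the embeddings of constants `embO`, `valO`.
`exists_pow_eq_mul`: an element of a chart with zero residue on the three components is nilpotent
modulo `q`.
-/

set_option autoImplicit false

noncomputable section

open ModularCurve Polynomial

namespace FLTAgent.CarayolSquare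

local notation "Qbar" => AlgebraicClosure ℚ

variable {q : ℕ}

theorem isIntegral_adjoin_map {O A B : Type*} [CommRing O] [Field A] [Field B] [Algebra O A]
    [Algebra O B] (f : A →ₐ[O] B) {u z : A} :
    IsIntegral (Algebra.adjoin O ({f u} : Set B)) (f z) ↔
      IsIntegral (Algebra.adjoin O ({u} : Set A)) z := by
  have e : (aeval (f u) : O[X] →ₐ[O] B).toRingHom = f.toRingHom.comp
      (aeval u : O[X] →ₐ[O] A).toRingHom :=
    RingHom.ext fun p => aeval_algHom_apply f u p
  rw [isIntegral_adjoin_iff, isIntegral_adjoin_iff, e]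
  refine exists_congr fun P => and_congr_right fun _ => ?_
  rw [show f z = f.toRingHom z from rfl, ← Polynomial.hom_eval₂]
  exact map_eq_zero_iff _ f.toRingHom.injective

theorem isIntegral_clear {O E : Type*} [CommRing O] [Field E] [Algebra O E] {T U : Subalgebra O E}
    {e : E} (he : e ∈ U) (hT : ∀ a ∈ T, ∃ N : ℕ, e ^ N * a ∈ U) {z : E} (hz : IsIntegral T z) :
    ∃ N : ℕ, IsIntegral U (e ^ N * z) := by
  classical
  obtain ⟨P, hP, hPz⟩ := hz
  choose N hN using fun i : ℕ => hT _ (P.coeff i).2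
  set N₀ := ∑ i ∈ Finset.range P.natDegree, N i
  refine ⟨N₀, ?_⟩
  set Q := (P.map (algebraMap T E)).scaleRoots (e ^ N₀) with hQ
  have hPm : (P.map (algebraMap T E)).Monic := hP.map _
  have hd : (P.map (algebraMap T E)).natDegree = P.natDegree := hP.natDegree_map _
  have hmem : ∀ i, Q.coeff i ∈ U := by
    intro i
    rw [hQ, coeff_scaleRoots, coeff_map, hd, ← pow_mul]
    rcases lt_trichotomy i P.natDegree with hi | hi | hi
    · obtain ⟨r, hr⟩ : ∃ r, N₀ * (P.natDegree - i) = N i + r := by
        refine Nat.exists_eq_add_of_le (le_trans (Finset.single_le_sum (fun _ _ => Nat.zero_le _)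
          (Finset.mem_range.mpr hi)) (Nat.le_mul_of_pos_right _ (by omega)))
      rw [hr, pow_add, mul_comm, mul_assoc, mul_comm (e ^ r), ← mul_assoc]
      exact mul_mem (hN i) (pow_mem he r)
    · subst hi
      rw [Nat.sub_self, mul_zero, pow_zero, mul_one, hP.coeff_natDegree, map_one]
      exact one_mem U
    · rw [coeff_eq_zero_of_natDegree_lt hi, map_zero, zero_mul]
      exact zero_mem U
  obtain ⟨R, hR, -, hRm⟩ := lifts_and_degree_eq_and_monic (f := algebraMap U E)
    ((lifts_iff_coeff_lifts Q).mpr fun i => ⟨⟨_, hmem i⟩, rfl⟩) ((monic_scaleRoots_iff _).mpr hPm)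
  refine ⟨R, hRm, ?_⟩
  rw [← eval_map, hR, ← coe_aeval_eq_eval]
  refine scaleRoots_aeval_eq_zero ?_
  rw [aeval_def, eval₂_map]
  exact hPz

theorem Ctx.isFractionRing (X : Ctx q) : IsFractionRing X.O X.K where
  map_units c := isUnit_iff_ne_zero.mpr fun h =>
    mem_nonZeroDivisors_iff_ne_zero.mp c.2 (Subtype.ext h)
  surj z := by
    obtain ⟨a, b, hb, h⟩ := X.exists_div_O z
    exact ⟨⟨a, b, mem_nonZeroDivisors_iff_ne_zero.mpr hb⟩, h⟩
  exists_of_eq h := ⟨1, congrArg _ (Subtype.ext h)⟩

theorem Ctx.prime_q (X : Ctx q) : Prime (q : X.O) :=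
  haveI := X.dvr
  X.irreducible_q.prime

/-- The parameter change as an algebra map. -/
def Ctx.upA (X : Ctx q) : Ser →ₐ[X.O] Ser :=
  { X.up with commutes' := X.up_algebraMap }

theorem Ctx.upA_apply (X : Ctx q) (s : Ser) : X.upA s = X.up s := rfl

namespace Model

variable {X : Ctx q} {M₁ : ℕ} [NeZero M₁] (G : Model X M₁)

/-- The series of `h`. -/
abbrev hSer : Ser := (G.h : Ser)

/-- `O[h, 1/D]`. -/
abbrev hRing : Subalgebra X.O Ser := Algebra.adjoin X.O ({(G.h : Ser), (G.Dinv : Ser)} : Set Ser)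

theorem hSer_ne_zero : G.hSer ≠ 0 := by
  obtain ⟨e, -, -, -, hlead⟩ := G.h_order
  intro h
  rw [hSer] at h
  simp [h] at hlead

theorem hSer_ne_const (c : Qbar) : G.hSer ≠ HahnSeries.C c := by
  obtain ⟨e, he, -, -, hlead⟩ := G.h_order
  intro h
  have h1 := congrArg (fun s : Ser => s.coeff (-(e : ℤ))) h
  simp only [HahnSeries.C_apply, HahnSeries.coeff_single_of_ne (show -(e : ℤ) ≠ 0 by omega)] at h1
  rw [show (G.h : Ser).coeff (-(e : ℤ)) = 0 from h1, map_zero] at hlead
  exact zero_ne_one hlead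

theorem aeval_hSer_injective : Function.Injective (aeval G.hSer : X.O[X] →ₐ[X.O] Ser) := by
  rw [injective_iff_map_eq_zero]
  intro P hP
  by_contra h0
  let φ : X.O →+* Qbar := (algebraMap X.K Qbar).comp (algebraMap X.O X.K)
  have hφ : Function.Injective φ :=
    (algebraMap X.K Qbar).injective.comp (fun a b h => Subtype.ext h)
  have h1 : Polynomial.eval G.hSer ((P.map φ).map (HahnSeries.C : Qbar →+* Ser)) = 0 := by
    rw [eval_map, eval₂_map]
    convert hP using 1
    rw [aeval_def]
    congr 1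
    exact (RingHom.ext fun c => X.algebraMap_eq_C c).symm
  have hne : P.map φ ≠ 0 := (Polynomial.map_ne_zero_iff hφ).mpr h0
  rw [(IsAlgClosed.splits (P.map φ)).eq_prod_roots, Polynomial.map_mul, eval_mul, map_C, eval_C,
    Polynomial.map_multiset_prod, eval_multiset_prod, mul_eq_zero] at h1
  rcases h1 with h1 | h1
  · exact hne (leadingCoeff_eq_zero.mp (by simpa using h1))
  · obtain ⟨r, hr, hr0⟩ := Multiset.mem_map.mp (Multiset.prod_eq_zero_iff.mp h1)
    obtain ⟨c, hc, rfl⟩ := Multiset.mem_map.mp hr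
    obtain ⟨a, -, rfl⟩ := Multiset.mem_map.mp hc
    simp only [Polynomial.map_sub, map_X, map_C, eval_sub, eval_X, eval_C, sub_eq_zero] at hr0
    exact G.hSer_ne_const a hr0

theorem Dinv_mul_ser :
    (G.Dinv : Ser) * ∏ a ∈ G.roots, (G.hSer - algebraMap X.O Ser a) = 1 := by
  have h := congrArg (G.C.val) G.Dinv_mul
  rw [map_mul, map_prod, map_one] at h
  simpa using h

/-- What is used about the coordinate of a chart. -/
structure Coord (u : Ser) where
  mem : u ∈ G.hRing
  inj : Function.Injective (aeval u : X.O[X] →ₐ[X.O] Ser)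
  E : X.O[X]
  not_dvd : ¬ Polynomial.C (q : X.O) ∣ E
  clear : ∀ a ∈ G.hRing, ∃ N : ℕ, aeval u E ^ N * a ∈ Algebra.adjoin X.O ({u} : Set Ser)

theorem clear_of_gens {u e : Ser} (he : e ∈ Algebra.adjoin X.O ({u} : Set Ser))
    (h1 : ∃ N : ℕ, e ^ N * G.hSer ∈ Algebra.adjoin X.O ({u} : Set Ser))
    (h2 : ∃ N : ℕ, e ^ N * (G.Dinv : Ser) ∈ Algebra.adjoin X.O ({u} : Set Ser)) :
    ∀ a ∈ G.hRing, ∃ N : ℕ, e ^ N * a ∈ Algebra.adjoin X.O ({u} : Set Ser) := by
  intro a ha
  induction ha using Algebra.adjoin_induction with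
  | mem z hz =>
    rcases hz with rfl | rfl
    · exact h1
    · exact h2
  | algebraMap r => exact ⟨0, by rw [pow_zero, one_mul]; exact Subalgebra.algebraMap_mem _ r⟩
  | add a b _ _ ha hb =>
    obtain ⟨i, hi⟩ := ha
    obtain ⟨j, hj⟩ := hb
    refine ⟨i + j, ?_⟩
    rw [show e ^ (i + j) * (a + b) = e ^ j * (e ^ i * a) + e ^ i * (e ^ j * b) by ring]
    exact add_mem (mul_mem (pow_mem he j) hi) (mul_mem (pow_mem he i) hj)
  | mul a b _ _ ha hb =>
    obtain ⟨i, hi⟩ := ha
    obtain ⟨j, hj⟩ := hb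
    refine ⟨i + j, ?_⟩
    rw [show e ^ (i + j) * (a * b) = (e ^ i * a) * (e ^ j * b) by ring]
    exact mul_mem hi hj

/-- `h` as a coordinate. -/
def coordH : G.Coord G.hSer where
  mem := Algebra.subset_adjoin (Set.mem_insert _ _)
  inj := G.aeval_hSer_injective
  E := ∏ a ∈ G.roots, (Polynomial.X - Polynomial.C a)
  not_dvd h := by
    have hm : (∏ a ∈ G.roots, (Polynomial.X - Polynomial.C a)).Monic :=
      monic_prod_of_monic _ _ fun a _ => monic_X_sub_C a
    obtain ⟨Q, hQ⟩ := h
    have h1 := congrArg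
        (fun P => coeff P (∏ a ∈ G.roots, (Polynomial.X - Polynomial.C a)).natDegree) hQ
    simp only [coeff_C_mul, hm.coeff_natDegree] at h1
    exact X.prime_q.not_isUnit (IsUnit.of_mul_eq_one _ h1.symm)
  clear := by
    have hu : G.hSer ∈ Algebra.adjoin X.O ({G.hSer} : Set Ser) :=
      Algebra.self_mem_adjoin_singleton _ _
    refine G.clear_of_gens (aeval_mem_adjoin_singleton _ _) ⟨0, by rwa [pow_zero, one_mul]⟩ ⟨1, ?_⟩
    rw [pow_one, map_prod]
    simp only [map_sub, aeval_X, aeval_C]
    rw [mul_comm, G.Dinv_mul_ser]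
    exact one_mem _

theorem inv_hSer_eq :
    G.hSer⁻¹ = (G.Dinv : Ser) * ∏ a ∈ G.roots.erase 0, (G.hSer - algebraMap X.O Ser a) := by
  refine inv_eq_of_mul_eq_one_right ?_
  have h := G.Dinv_mul_ser
  rw [← Finset.mul_prod_erase _ _ G.roots_zero, map_zero, sub_zero] at h
  rw [← h]
  ring

/-- `1/h` as a coordinate. -/
def coordInv : G.Coord G.hSer⁻¹ where
  mem := by
    rw [inv_hSer_eq]
    refine mul_mem (Algebra.subset_adjoin (Set.mem_insert_of_mem _ rfl)) (prod_mem fun a _ => ?_)
    exact sub_mem (Algebra.subset_adjoin (Set.mem_insert _ _)) (Subalgebra.algebraMap_mem _ a)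
  inj := by
    rw [injective_iff_map_eq_zero]
    intro P hP
    have hne : G.hSer ≠ 0 := G.hSer_ne_zero
    have : Invertible G.hSer⁻¹ := invertibleOfNonzero (inv_ne_zero hne)
    have h1 : eval₂ (algebraMap X.O Ser) G.hSer P.reverse = 0 := by
      have h := (eval₂_reverse_eq_zero_iff (algebraMap X.O Ser) G.hSer⁻¹ P).mpr hP
      rwa [invOf_eq_inv, inv_inv] at h
    have h2 := G.aeval_hSer_injective (show aeval G.hSer P.reverse = aeval G.hSer 0 by
      rw [map_zero]; exact h1)
    exact reverse_eq_zero.mp h2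
  E := Polynomial.X * ∏ a ∈ G.roots, (1 - Polynomial.C a * Polynomial.X)
  not_dvd h := by
    obtain ⟨Q, hQ⟩ := h
    have h1 := congrArg (fun P => coeff P 1) hQ
    simp only [coeff_C_mul, coeff_X_mul, coeff_zero_prod, coeff_sub, coeff_one_zero, mul_coeff_zero,
      coeff_C_zero, coeff_X_zero, mul_zero, sub_zero, Finset.prod_const_one] at h1
    exact X.prime_q.not_isUnit (IsUnit.of_mul_eq_one _ h1.symm)
  clear := by
    set v := G.hSer⁻¹ with hv
    have hne : G.hSer ≠ 0 := G.hSer_ne_zero
    have hv' : v ∈ Algebra.adjoin X.O ({v} : Set Ser) := Algebra.self_mem_adjoin_singleton _ _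
    have he : aeval v (Polynomial.X * ∏ a ∈ G.roots, (1 - Polynomial.C a * Polynomial.X)) =
        v * ∏ a ∈ G.roots, (1 - algebraMap X.O Ser a * v) := by
      simp [map_prod]
    refine G.clear_of_gens (aeval_mem_adjoin_singleton _ _) ⟨1, ?_⟩ ⟨1, ?_⟩
    · rw [pow_one, he, mul_right_comm, hv, inv_mul_cancel₀ hne, one_mul, ← hv]
      exact prod_mem fun a _ => sub_mem (one_mem _)
        (mul_mem (Subalgebra.algebraMap_mem _ a) hv')
    · have h : ∏ a ∈ G.roots, (1 - algebraMap X.O Ser a * v) =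
          v ^ G.roots.card * ∏ a ∈ G.roots, (G.hSer - algebraMap X.O Ser a) := by
        rw [← Finset.prod_const, ← Finset.prod_mul_distrib]
        refine Finset.prod_congr rfl fun a _ => ?_
        rw [hv, mul_sub, inv_mul_cancel₀ hne]
        ring
      rw [pow_one, he, h, mul_assoc, mul_assoc, mul_comm (∏ a ∈ G.roots, _) (G.Dinv : Ser),
        G.Dinv_mul_ser, mul_one]
      exact mul_mem hv' (pow_mem hv' _)

instance algebraSplit : Algebra X.O G.splitField := inferInstance

instance isScalarTowerSplit : IsScalarTower X.O X.K G.splitField :=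
  IsScalarTower.of_algebraMap_eq fun _ => rfl

/-- The embeddings as maps of `O`-algebras. -/
def embO [NeZero q] [Fact q.Prime] (δ : G.Cusp) (P : Pair q) : G.splitField →ₐ[X.O] Ser :=
  { (G.emb δ P).toRingHom with
    commutes' := fun c => by
      show G.emb δ P (algebraMap X.O G.splitField c) = algebraMap X.O Ser c
      rw [show algebraMap X.O G.splitField c = algebraMap X.K G.splitField (c : X.K) from rfl,
        AlgHom.commutes, X.algebraMap_eq] }

theorem embO_apply [NeZero q] [Fact q.Prime] (δ : G.Cusp) (P : Pair q) (z : G.splitField) :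
    G.embO δ P z = G.emb δ P z := rfl

/-- The inclusion as a map of `O`-algebras. -/
def valO : G.splitField →ₐ[X.O] Ser :=
  { G.splitField.val.toRingHom with commutes' := fun c => (X.algebraMap_eq c).symm }

theorem valO_apply (z : G.splitField) : G.valO z = (z : Ser) := rfl

theorem mem_C_of_isIntegral {u : Ser} (hu : G.Coord u) {r : Ser}
    (hr : r ∈ IntermediateField.adjoin X.K (G.C : Set Ser))
    (h : IsIntegral (Algebra.adjoin X.O ({u} : Set Ser)) r) : r ∈ G.C := by
  refine G.normal r hr ?_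
  have hle : Algebra.adjoin X.O ({u} : Set Ser) ≤ G.hRing :=
    Algebra.adjoin_le (Set.singleton_subset_iff.mpr hu.mem)
  obtain ⟨P, hP, hPr⟩ := h
  refine ⟨P.map (Subalgebra.inclusion hle).toRingHom, hP.map _, ?_⟩
  rw [eval₂_map]
  exact hPr

theorem isIntegral_hRing (c : G.C) : IsIntegral G.hRing (c : Ser) := by
  obtain ⟨S, hS⟩ := G.finite
  let A := G.hRing
  have hhC : A ≤ G.C := Algebra.adjoin_le (by
    rintro z (rfl | rfl)
    · exact G.h.2
    · exact G.Dinv.2)
  have := X.dvr
  have : IsNoetherianRing X.O := inferInstance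
  have : IsNoetherianRing A := by
    refine isNoetherianRing_of_fg ?_
    classical
    exact ⟨{(G.h : Ser), (G.Dinv : Ser)}, by simp [A, hRing]⟩
  let N : Submodule A Ser := Submodule.span A (S : Set Ser)
  have hsub : ∀ z ∈ G.C, z ∈ N := hS
  let Cs : Subalgebra A Ser :=
    { G.C.toSubsemiring with algebraMap_mem' := fun a => hhC a.2 }
  let : Module A N := N.module
  let : Algebra A Cs := Cs.algebra
  let : Module A Cs := Algebra.toModule
  have : IsNoetherian A N := isNoetherian_of_fg_of_noetherian N ⟨S, rfl⟩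
  have hfg : (Subalgebra.toSubmodule Cs).FG := isNoetherian_submodule.mp inferInstance _ hsub
  have : Module.Finite A Cs := Module.Finite.iff_fg.mpr hfg
  exact (Algebra.IsIntegral.isIntegral (R := A) (⟨(c : Ser), c.2⟩ : Cs)).map Cs.val

theorem isIntegral_of_q_mul {u : Ser} (hu : G.Coord u) (r : G.C)
    (h : IsIntegral (Algebra.adjoin X.O ({u} : Set Ser)) ((q : Ser) * r)) :
    IsIntegral (Algebra.adjoin X.O ({u} : Set Ser)) (r : Ser) := by
  have := X.dvr
  obtain ⟨N, hN⟩ := isIntegral_clear (aeval_mem_adjoin_singleton X.O u) hu.clear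
    (G.isIntegral_hRing r)
  exact isIntegral_of_mul X.prime_q hu.inj hu.not_dvd hN (by rwa [map_natCast])

variable [NeZero q] [Fact q.Prime]

/-- An element with zero residues at all components is nilpotent modulo `q`. -/
theorem exists_pow_eq_mul {u : Ser} (hu : G.Coord u) (U : G.C) (hU : (U : Ser) = u)
    {c : G.splitField} (hc : IsIntegral (Algebra.adjoin X.O ({G.baseHom U} : Set G.splitField)) c)
    (hres : ∀ κ, ∃ h : c ∈ G.V κ, G.resV κ ⟨c, h⟩ = 0) :
    ∃ (N : ℕ) (w : G.splitField),
      IsIntegral (Algebra.adjoin X.O ({G.baseHom U} : Set G.splitField)) w ∧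
        c ^ N = (q : G.splitField) * w := by
  classical
  obtain ⟨a, b, hb, hab⟩ := G.exists_rep c.2
  obtain ⟨P, hP⟩ := G.exists_prod_descend a b
  set d := Fintype.card (Pair q) with hd
  let R : Subring Ser := intSet X.O ({X.up u} : Set Ser)
  have hembU : ∀ P' : Pair q, G.emb G.one P' (G.baseHom U) = X.up u := fun P' => by
    rw [G.emb_baseHom, G.cs_one, hU]
  have hembR : ∀ P' : Pair q, G.emb G.one P' c ∈ R := fun P' => by
    show IsIntegral _ _
    have h := (isIntegral_adjoin_map (G.embO G.one P')).mpr hc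
    rwa [G.embO_apply, G.embO_apply, hembU] at h
  have hg : ∀ P' : Pair q, ∃ h : G.emb G.one P' c ∈ X.gaussRing, X.gaussRes ⟨_, h⟩ = 0 := by
    intro P'
    obtain ⟨hV, h0⟩ := hres (kindOf P')
    obtain ⟨h, he⟩ := G.gaussRes_emb P' hV
    exact ⟨h, he.trans h0⟩
  choose hgm hg0 using hg
  let Q : Ser[X] := ∏ P' : Pair q, (Polynomial.X - Polynomial.C (G.emb G.one P' c))
  let QR : R[X] := ∏ P' : Pair q, (Polynomial.X - Polynomial.C (⟨_, hembR P'⟩ : R))
  let QG : X.gaussRing[X] := ∏ P' : Pair q,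
      (Polynomial.X - Polynomial.C (⟨_, hgm P'⟩ : X.gaussRing))
  have hQR : QR.map R.subtype = Q := by simp [Q, QR, Polynomial.map_prod]
  have hQG : QG.map X.gaussRing.subtype = Q := by simp [Q, QG, Polynomial.map_prod]
  have hQres : QG.map X.gaussRes = Polynomial.X ^ d := by
    simp only [QG, Polynomial.map_prod, Polynomial.map_sub, map_X, map_C, hg0, map_zero, sub_zero]
    rw [Finset.prod_const, Finset.card_univ]
  -- the coefficients come from `C`
  have hprod : P.map (X.up.comp (G.cs G.one).toRingHom) = Polynomial.C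
      (∏ P' : Pair q, G.evP G.one P' b) * Q := by
    rw [hP, map_prod, ← Finset.prod_mul_distrib]
    refine Finset.prod_congr rfl fun P' _ => ?_
    rw [mul_sub, ← map_mul, mul_comm (G.evP G.one P' b) (G.emb G.one P' c),
      G.emb_spec G.one P' c hb hab]
  have hQm : Q.Monic := monic_prod_of_monic _ _ fun _ _ => monic_X_sub_C _
  have hQd : Q.natDegree = d := by
    simp only [Q]
    rw [natDegree_prod_of_monic _ _ fun _ _ => monic_X_sub_C _]
    simp [hd]
  have hcoef : ∀ n, X.up (P.coeff n : Ser) = (∏ P' : Pair q, G.evP G.one P' b) * Q.coeff n := by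
    intro n
    have := congrArg (fun T => Polynomial.coeff T n) hprod
    simp only [coeff_map, coeff_C_mul, RingHom.comp_apply] at this
    rw [← this]
    exact congrArg X.up (G.cs_one _).symm
  have hlead : X.up (P.coeff d : Ser) = ∏ P' : Pair q, G.evP G.one P' b := by
    rw [hcoef, ← hQd, hQm.coeff_natDegree, mul_one]
  have hb0 : (∏ P' : Pair q, G.evP G.one P' b) ≠ 0 :=
    Finset.prod_ne_zero_iff.mpr fun P' _ => G.evP_ne_zero G.one P' hb
  have key : ∀ n, n < d → ∃ r' : G.C, Q.coeff n = (q : Ser) * X.up (r' : Ser) ∧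
      IsIntegral (Algebra.adjoin X.O ({G.baseHom U} : Set G.splitField)) (G.baseHom r') := by
    intro n hn
    set r : Ser := (P.coeff n : Ser) / (P.coeff d : Ser)
    have hup : X.up r = Q.coeff n := by
      simp only [r, map_div₀, hcoef n, hlead]
      rw [mul_div_cancel_left₀ _ hb0]
    have hrK : r ∈ IntermediateField.adjoin X.K (G.C : Set Ser) :=
      div_mem (IntermediateField.subset_adjoin _ _ (P.coeff n).2)
        (IntermediateField.subset_adjoin _ _ (P.coeff d).2)
    have hrI : IsIntegral (Algebra.adjoin X.O ({u} : Set Ser)) r := by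
      have h1 : X.upA r ∈ R := by
        rw [X.upA_apply, hup, ← hQR, coeff_map]
        exact (QR.coeff n).2
      exact (isIntegral_adjoin_map X.upA).mp
          (h1 : IsIntegral (Algebra.adjoin X.O ({X.upA u} : Set Ser)) _)
    have hrC : r ∈ G.C := G.mem_C_of_isIntegral hu hrK hrI
    have hred : X.RedZero r := by
      have hgood := X.goodSer_of_coeffInO (G.coeff_mem r hrC)
      have h1 : X.gaussRes ⟨X.up r, X.intSer_le_gaussRing (X.up_mem_goodSer hgood).1⟩ = 0 := by
        have h2 := congrArg (fun T => Polynomial.coeff T n) hQres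
        simp only [coeff_map, coeff_X_pow, if_neg hn.ne] at h2
        rw [← h2]
        refine congrArg X.gaussRes (Subtype.ext ?_)
        show X.up r = _
        rw [hup, ← hQG, coeff_map]
        rfl
      rw [X.gaussRes_of_intSer ⟨X.up r, (X.up_mem_goodSer hgood).1⟩] at h1
      have h3 := (X.redS_eq_zero_iff _).mp h1
      intro k
      have h4 := h3 ((q : ℤ) * k)
      rwa [show (X.up r).coeff ((q : ℤ) * k) = r.coeff k from qExpand_coeff_mul q r k] at h4
    obtain ⟨r', hr', hrr⟩ := G.saturate r hrC hred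
    refine ⟨⟨r', hr'⟩, by rw [← hup, hrr, map_mul, map_natCast], ?_⟩
    have hr'I := G.isIntegral_of_q_mul hu ⟨r', hr'⟩ (by rwa [← hrr])
    have h5 := (isIntegral_adjoin_map X.upA).mpr hr'I
    refine (isIntegral_adjoin_map G.valO).mp ?_
    have hval : ∀ x : G.C, G.valO (G.baseHom x) = X.upA (x : Ser) := fun x => G.coe_baseHom x
    rw [hval, hval, hU]
    exact h5
  choose r hrq hrI using key
  refine ⟨d, -∑ n : Fin d, G.baseHom (r n n.2) * c ^ (n : ℕ), ?_, Subtype.ext ?_⟩
  · refine (IsIntegral.sum _ fun (n : Fin d) _ => (hrI n n.2).mul (hc.pow _)).neg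
  · have hroot : Q.eval (c : Ser) = 0 := by
      simp only [Q, eval_prod]
      refine Finset.prod_eq_zero (Finset.mem_univ (Pair.base q)) ?_
      rw [eval_sub, eval_X, eval_C, G.emb_base, sub_self]
    rw [eval_eq_sum_range, hQd, Finset.sum_range_succ, ← hQd, hQm.coeff_natDegree, hQd, one_mul,
      ← Fin.sum_univ_eq_sum_range (fun i => Q.coeff i * (c : Ser) ^ i)] at hroot
    show (c : Ser) ^ d = (q : Ser) * (G.valO (-∑ n : Fin d, G.baseHom (r n n.2) * c ^ (n : ℕ)))
    rw [map_neg, map_sum, eq_neg_of_add_eq_zero_right hroot, mul_neg, Finset.mul_sum]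
    refine congrArg Neg.neg (Finset.sum_congr rfl fun n _ => ?_)
    rw [map_mul, map_pow, G.valO_apply, G.valO_apply, G.coe_baseHom, hrq n n.2]
    ring

end Model

end FLTAgent.CarayolSquare
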