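import Mathlib.FieldTheory.PrimitiveElement
import Mathlib.FieldTheory.IntermediateField.Adjoin.Basic
import Mathlib.RingTheory.Norm.Transitivity

/-!
# Finiteness and degrees from bounds

Finiteness from bounded degrees (`finite_of_bounded_natDegree`), and norms as products when enough
embeddings are known (`norm_eq_prod_of_bijective`).
-/

set_option autoImplicit false

noncomputable section

namespace FLTAgent.CarayolSquare

open IntermediateField

theorem finite_of_bounded_natDegree {K L : Type*} [Field K] [Field L] [Algebra K L] [CharZero K]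
    (n : ℕ) (hint : ∀ z : L, IsIntegral K z) (hdeg : ∀ z : L, (minpoly K z).natDegree ≤ n) :
    FiniteDimensional K L ∧ Module.finrank K L ≤ n := by
  classical
  have hne : ∃ m, ∃ z : L, (minpoly K z).natDegree = m := ⟨_, 0, rfl⟩
  obtain ⟨z₀, hz₀⟩ := hne
  have hbdd : BddAbove (Set.range fun z : L => (minpoly K z).natDegree) :=
    ⟨n, by rintro _ ⟨z, rfl⟩; exact hdeg z⟩
  obtain ⟨z, hz⟩ := Nat.sSup_mem (Set.range_nonempty fun z : L => (minpoly K z).natDegree) hbdd
  have hmax : ∀ w : L, (minpoly K w).natDegree ≤ (minpoly K z).natDegree := fun w => by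
    rw [show (minpoly K z).natDegree = _ from hz]
    exact le_csSup hbdd ⟨w, rfl⟩
  have htop : K⟮z⟯ = ⊤ := by
    rw [eq_top_iff]
    intro w _
    have : FiniteDimensional K K⟮z, w⟯ := finiteDimensional_adjoin_pair (hint z) (hint w)
    obtain ⟨v, hv⟩ := Field.exists_primitive_element K K⟮z, w⟯
    have h1 : Module.finrank K K⟮z, w⟯ ≤ (minpoly K z).natDegree := by
      rw [← (Field.primitive_element_iff_minpoly_natDegree_eq K v).mp hv,
        ← minpoly.algebraMap_eq (FaithfulSMul.algebraMap_injective K⟮z, w⟯ L) v]
      exact hmax _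
    have hle : K⟮z⟯ ≤ K⟮z, w⟯ := adjoin.mono _ _ _ (by simp)
    have heq : K⟮z⟯ = K⟮z, w⟯ := eq_of_le_of_finrank_le hle (by
      rwa [adjoin.finrank (hint z)])
    rw [heq]
    exact subset_adjoin K _ (by simp)
  have hfd : FiniteDimensional K L := by
    have := adjoin.finiteDimensional (hint z)
    rw [htop] at this
    exact Module.Finite.equiv (topEquiv (F := K) (E := L)).toLinearEquiv
  refine ⟨hfd, ?_⟩
  rw [← finrank_top', ← htop, adjoin.finrank (hint z)]
  exact hdeg z

variable {K L E : Type*} [Field K] [Field L] [Field E] [Algebra K L] [Algebra K E]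
  [FiniteDimensional K L] [Algebra.IsSeparable K L] [IsAlgClosed E]
  {ι : Type*} [Fintype ι] {σ : ι → (L →ₐ[K] E)}

theorem card_le_finrank (hσ : Function.Injective σ) : Fintype.card ι ≤ Module.finrank K L := by
  classical
  rw [← AlgHom.card K L E]
  exact Fintype.card_le_of_injective σ hσ

theorem bijective_of_finrank_le (hσ : Function.Injective σ)
    (h : Module.finrank K L ≤ Fintype.card ι) : Function.Bijective σ := by
  classical
  refine (Fintype.bijective_iff_injective_and_card σ).mpr ⟨hσ, ?_⟩
  rw [AlgHom.card K L E]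
  exact le_antisymm (card_le_finrank hσ) h

theorem norm_eq_prod_of_bijective (hσ : Function.Bijective σ) (x : L) :
    algebraMap K E (Algebra.norm K x) = ∏ i, σ i x := by
  rw [Algebra.norm_eq_prod_embeddings K E x]
  exact (Fintype.prod_bijective σ hσ _ _ fun _ => rfl).symm

end FLTAgent.CarayolSquare
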