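import Fermat.Agent.CarayolSquare.Geometry.Embeddings
import Fermat.Agent.CarayolSquare.Geometry.Counting

/-!
# The degree of `splitField`

`splitField` has degree `q (q + 1)` over the base (`finrank_B₀`); its embeddings over the base and
over a line field are the pairs of lines, so the norms are products over pairs
(`coe_norm_LF`, `coe_norm_B₀`).
-/

set_option autoImplicit false

noncomputable section

open ModularCurve

namespace FLTAgent.CarayolSquare

variable {q : ℕ} [NeZero q] {X : Ctx q} {M₁ : ℕ} [NeZero M₁]

theorem card_pair : Fintype.card (Pair q) = (q + 1) * q := by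
  classical
  let e : Pair q ≃ Σ L : Line q, {L' : Line q // L ≠ L'} :=
    { toFun := fun P => ⟨P.1.1, P.1.2, P.2⟩
      invFun := fun s => ⟨(s.1, s.2.1), s.2.2⟩
      left_inv := fun _ => rfl
      right_inv := fun _ => rfl }
  have h : ∀ L : Line q, Fintype.card {L' : Line q // L ≠ L'} = q := fun L => by
    rw [Fintype.card_subtype_compl, Fintype.card_option, ZMod.card, Fintype.card_subtype_eq']
    omega
  rw [Fintype.card_congr e, Fintype.card_sigma, Finset.sum_congr rfl fun L _ => h L,
    Finset.sum_const, smul_eq_mul, Finset.card_univ, Fintype.card_option, ZMod.card]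

theorem card_fibre (b : Bool) (L : Line q) : Fintype.card {P : Pair q // P.line b = L} = q := by
  classical
  have h : Fintype.card {L' : Line q // L ≠ L'} = q := by
    rw [Fintype.card_subtype_compl, Fintype.card_option, ZMod.card, Fintype.card_subtype_eq']
    omega
  refine (Fintype.card_congr ?_).trans h
  exact
    { toFun := fun P => ⟨P.1.line (!b), by
        obtain ⟨⟨⟨A, B⟩, hP⟩, hL⟩ := P
        cases b
        · simp only [Pair.line, Bool.false_eq_true, ↓reduceIte] at hL ⊢
          simpa [← hL] using Ne.symm hP
        · simp only [Pair.line, ↓reduceIte] at hL ⊢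
          simpa [← hL] using hP⟩
      invFun := fun L' => ⟨if b then ⟨(L, L'.1), L'.2⟩ else ⟨(L'.1, L), L'.2.symm⟩, by
        cases b <;> rfl⟩
      left_inv := fun P => by
        obtain ⟨⟨⟨A, B⟩, hP⟩, hL⟩ := P
        cases b <;> simp only [Pair.line, Bool.false_eq_true, ↓reduceIte] at hL <;> subst hL <;> rfl
      right_inv := fun L' => by cases b <;> rfl }

namespace Model

variable (G : Model X M₁)

/-- The base field inside `splitField`. -/
def B₀ : IntermediateField X.K G.splitField :=
  IntermediateField.adjoin X.K (Set.range G.baseHom)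

/-- A line field inside `splitField`. -/
def LF (b : Bool) : IntermediateField X.K G.splitField :=
  IntermediateField.adjoin X.K (Set.range (G.gen b))

omit [NeZero q] in
theorem B₀_le_LF (b : Bool) : G.B₀ ≤ G.LF b := by
  refine IntermediateField.adjoin.mono _ _ _ ?_
  rintro _ ⟨c, rfl⟩
  refine ⟨.base c, Subtype.ext ?_⟩
  show X.up (G.cs G.one c) = X.up (G.cs G.one c)
  rfl

omit [NeZero q] in
theorem emb_B₀_eq (δ : G.Cusp) (P P' : Pair q) {z : G.splitField} (hz : z ∈ G.B₀) :
    G.emb δ P z = G.emb δ P' z := by
  induction hz using IntermediateField.adjoin_induction with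
  | mem x hx =>
    obtain ⟨c, rfl⟩ := hx
    rw [emb_baseHom, emb_baseHom]
  | algebraMap c => rw [AlgHom.commutes, AlgHom.commutes]
  | add x y _ _ hx hy => rw [map_add, map_add, hx, hy]
  | inv x _ hx => rw [map_inv₀, map_inv₀, hx]
  | mul x y _ _ hx hy => rw [map_mul, map_mul, hx, hy]

omit [NeZero q] in
theorem emb_LF_eq (δ : G.Cusp) (b : Bool) {P P' : Pair q} (h : P.line b = P'.line b)
    {z : G.splitField} (hz : z ∈ G.LF b) : G.emb δ P z = G.emb δ P' z := by
  induction hz using IntermediateField.adjoin_induction with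
  | mem x hx =>
    obtain ⟨v, rfl⟩ := hx
    rw [emb_gen, emb_gen, h]
  | algebraMap c => rw [AlgHom.commutes, AlgHom.commutes]
  | add x y _ _ hx hy => rw [map_add, map_add, hx, hy]
  | inv x _ hx => rw [map_inv₀, map_inv₀, hx]
  | mul x y _ _ hx hy => rw [map_mul, map_mul, hx, hy]

omit [NeZero q] in
theorem sub_h (L : Line q) : G.gs G.one L (.pull G.h) = X.sub L (G.h : Ser) := by
  show X.sub L (G.cs (lineCusp G.twP G.twB G.one L) G.h) = _
  congr 1
  cases L with
  | none => exact G.twP_h
  | some b => rw [show lineCusp G.twP G.twB G.one (some b) = G.one from G.twB_one]; exact G.cs_one _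

theorem sub_h_injective : Function.Injective fun L : Line q => X.sub L (G.h : Ser) := by
  obtain ⟨e, he, hqe, hlow, hlead⟩ := G.h_order
  have hc : (G.h : Ser).coeff (-(e : ℤ)) ≠ 0 := fun h => by simp [h] at hlead
  have hsome : ∀ b : ZMod q, (X.sub (some b) (G.h : Ser)).coeff (-(e : ℤ)) =
      (X.ζ ^ b.val) ^ (-(e : ℤ)) * (G.h : Ser).coeff (-(e : ℤ)) := fun b => by
    show (Igusa.scale (X.zetaU b) _).coeff _ = _
    rw [Igusa.coeff_scale, Units.val_zpow_eq_zpow_val]
    rfl
  have hdvd : ¬ (q : ℤ) ∣ (-(e : ℤ)) := by
    rw [dvd_neg]; exact_mod_cast hqe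
  have hnone : (X.sub none (G.h : Ser)).coeff (-(e : ℤ)) = 0 :=
    qExpand_coeff_of_not_dvd q (X.up (G.h : Ser)) hdvd
  intro L L' h
  replace h := congrArg (fun s : Ser => s.coeff (-(e : ℤ))) h
  cases L with
  | none =>
    cases L' with
    | none => rfl
    | some b =>
      simp only [hnone, hsome] at h
      exact absurd h.symm (mul_ne_zero (zpow_ne_zero _ (pow_ne_zero _ X.ζ_ne_zero)) hc)
  | some b =>
    cases L' with
    | none =>
      simp only [hnone, hsome] at h
      exact absurd h (mul_ne_zero (zpow_ne_zero _ (pow_ne_zero _ X.ζ_ne_zero)) hc)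
    | some b' =>
      simp only [hsome, mul_eq_mul_right_iff, hc, or_false, zpow_neg, inv_inj, zpow_natCast,
        ← pow_mul] at h
      have hmod := (X.hζ.pow_eq_one_iff_dvd (b.val * e + (q - 1) * (b'.val * e))).mp (by
        rw [pow_add, h, ← pow_add, ← one_add_mul, Nat.add_sub_cancel' X.prime.one_le,
          pow_mul, X.hζ.pow_eq_one, one_pow])
      have hz := (ZMod.natCast_eq_zero_iff _ _).mpr hmod
      push_cast [Nat.cast_sub X.prime.one_le] at hz
      simp only [ZMod.natCast_self, ZMod.natCast_val, ZMod.cast_id', id_eq, zero_sub] at hz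
      have : Fact q.Prime := ⟨X.prime⟩
      have he' : ((e : ℕ) : ZMod q) ≠ 0 := fun h0 => hqe ((ZMod.natCast_eq_zero_iff _ _).mp h0)
      have : b = b' := by
        refine sub_eq_zero.mp ((mul_eq_zero.mp ?_).resolve_right he')
        linear_combination hz
      rw [this]

theorem line_injective (δ : G.Cusp) (hδ : δ = G.one) {P P' : Pair q}
    (h : ∀ b, G.emb δ P (G.gen b (.pull G.h)) = G.emb δ P' (G.gen b (.pull G.h))) : P = P' := by
  subst hδ
  have hb : ∀ b, P.line b = P'.line b := fun b => G.sub_h_injective (by
    have := h b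
    rwa [emb_gen, emb_gen, sub_h, sub_h] at this)
  exact Subtype.ext (Prod.ext (hb true) (hb false))

theorem exists_minpoly_bound (z : G.splitField) :
    IsIntegral G.B₀ z ∧ (minpoly G.B₀ z).natDegree ≤ Fintype.card (Pair q) := by
  classical
  obtain ⟨a, b, hb, h⟩ := G.exists_rep z.2
  obtain ⟨P, hP⟩ := G.exists_prod_descend a b
  let ψ : G.C →+* G.B₀ :=
    G.baseHom.toRingHom.codRestrict _ fun c => IntermediateField.subset_adjoin _ _ ⟨c, rfl⟩
  set R := P.map ψ
  let φ : G.B₀ →+* Ser := (G.splitField.val.toRingHom).comp (algebraMap G.B₀ G.splitField)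
  have hφψ : φ.comp ψ = X.up.comp (G.cs G.one).toRingHom := RingHom.ext fun c => by
    show ((G.baseHom c : G.splitField) : Ser) = _
    rw [G.coe_baseHom]
    exact congrArg X.up (G.cs_one c).symm
  have hR : R.map φ = ∏ p : Pair q, (Polynomial.C (G.evP G.one p b) * Polynomial.X -
      Polynomial.C (G.evP G.one p a)) := by
    rw [Polynomial.map_map, hφψ, hP]
  have hne : ∀ p : Pair q, Polynomial.C (G.evP G.one p b) * Polynomial.X -
      Polynomial.C (G.evP G.one p a) ≠ 0 := fun p h0 => by
    have := congrArg (fun Q => Polynomial.coeff Q 1) h0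
    simp at this
    exact G.evP_ne_zero G.one p hb this
  have hR0 : R ≠ 0 := fun h0 => by
    rw [h0, Polynomial.map_zero] at hR
    exact Finset.prod_ne_zero_iff.mpr (fun p _ => hne p) hR.symm
  have hroot : Polynomial.aeval z R = 0 := by
    apply G.splitField.val.toRingHom.injective
    rw [map_zero, Polynomial.aeval_def, Polynomial.hom_eval₂, ← Polynomial.eval_map]
    show Polynomial.eval _ (R.map φ) = 0
    rw [hR, Polynomial.eval_prod, Finset.prod_eq_zero_iff]
    refine ⟨Pair.base q, Finset.mem_univ _, ?_⟩
    simp only [Polynomial.eval_sub, Polynomial.eval_mul, Polynomial.eval_C, Polynomial.eval_X]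
    rw [sub_eq_zero, mul_comm]
    exact h
  have hint : IsIntegral G.B₀ z := IsAlgebraic.isIntegral ⟨R, hR0, hroot⟩
  refine ⟨hint, (Polynomial.natDegree_le_of_dvd (minpoly.dvd _ _ hroot) hR0).trans ?_⟩
  rw [← Polynomial.natDegree_map φ, hR]
  refine (Polynomial.natDegree_prod_le _ _).trans ?_
  rw [← Finset.card_univ]
  refine (Finset.sum_le_card_nsmul _ _ 1 fun p _ => ?_).trans (by simp)
  refine (Polynomial.natDegree_sub_le _ _).trans ?_
  simp only [Polynomial.natDegree_C, max_le_iff, zero_le, and_true]
  exact Polynomial.natDegree_C_mul_le _ _ |>.trans Polynomial.natDegree_X_le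

instance finite_B₀ : FiniteDimensional G.B₀ G.splitField :=
  (finite_of_bounded_natDegree _ (fun z => (G.exists_minpoly_bound z).1)
    fun z => (G.exists_minpoly_bound z).2).1

theorem finrank_B₀_le : Module.finrank G.B₀ G.splitField ≤ Fintype.card (Pair q) :=
  (finite_of_bounded_natDegree _ (fun z => (G.exists_minpoly_bound z).1)
    fun z => (G.exists_minpoly_bound z).2).2

instance finite_LF (b : Bool) : FiniteDimensional (G.LF b) G.splitField := by
  let : Algebra G.B₀ (G.LF b) :=
    (IntermediateField.inclusion (G.B₀_le_LF b)).toRingHom.toAlgebra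
  let : SMul G.B₀ (G.LF b) := Algebra.toSMul
  let : Module G.B₀ (G.LF b) := Algebra.toModule
  have : Module.Free G.B₀ (G.LF b) := Module.Free.of_divisionRing _ _
  have : IsScalarTower G.B₀ (G.LF b) G.splitField := IsScalarTower.of_algebraMap_eq fun _ => rfl
  exact FiniteDimensional.right G.B₀ (G.LF b) G.splitField

/-- The big algebraically closed field. -/
abbrev BigF : Type := AlgebraicClosure Ser

/-- An embedding at `∞` over the base. -/
def embB (P : Pair q) : G.splitField →ₐ[G.B₀] BigF :=
  { (algebraMap Ser BigF).comp (G.emb G.one P).toRingHom with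
    commutes' := fun z => by
      show algebraMap Ser BigF (G.emb G.one P (z : G.splitField)) = algebraMap G.B₀ BigF z
      rw [G.emb_B₀_eq G.one P (Pair.base q) z.2, G.emb_base]
      rfl }

theorem embB_injective : Function.Injective G.embB := fun _ _ h =>
  G.line_injective G.one rfl fun b => (algebraMap Ser BigF).injective
    (DFunLike.congr_fun h (G.gen b (.pull G.h)))

theorem finrank_B₀ : Module.finrank G.B₀ G.splitField = Fintype.card (Pair q) :=
  haveI : Algebra.IsAlgebraic G.B₀ G.splitField := Algebra.IsAlgebraic.of_finite _ _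
  haveI : Algebra.IsSeparable G.B₀ G.splitField := Algebra.IsAlgebraic.isSeparable_of_perfectField
  le_antisymm G.finrank_B₀_le (card_le_finrank G.embB_injective)

/-- An embedding over a line field, for the pairs with that line. -/
def embLF (b : Bool) (P : {P : Pair q // P.line b = (Pair.base q).line b}) :
    G.splitField →ₐ[G.LF b] BigF :=
  { (algebraMap Ser BigF).comp (G.emb G.one P.1).toRingHom with
    commutes' := fun z => by
      show algebraMap Ser BigF (G.emb G.one P.1 (z : G.splitField)) = algebraMap (G.LF b) BigF z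
      rw [G.emb_LF_eq G.one b P.2 z.2, G.emb_base]
      rfl }

theorem embLF_injective (b : Bool) : Function.Injective (G.embLF b) := fun _ _ h =>
  Subtype.ext (G.line_injective G.one rfl fun b' => (algebraMap Ser BigF).injective
    (DFunLike.congr_fun h (G.gen b' (.pull G.h))))

theorem finrank_LF_le (b : Bool) : Module.finrank (G.LF b) G.splitField ≤ q := by
  classical
  let : Algebra G.B₀ (G.LF b) :=
    (IntermediateField.inclusion (G.B₀_le_LF b)).toRingHom.toAlgebra
  let : SMul G.B₀ (G.LF b) := Algebra.toSMul
  let : Module G.B₀ (G.LF b) := Algebra.toModule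
  have : Module.Free G.B₀ (G.LF b) := Module.Free.of_divisionRing _ _
  have : IsScalarTower G.B₀ (G.LF b) G.splitField := IsScalarTower.of_algebraMap_eq fun _ => rfl
  have : FiniteDimensional G.B₀ (G.LF b) := FiniteDimensional.left _ _ G.splitField
  have : Module.Free (G.LF b) G.splitField := Module.Free.of_divisionRing _ _
  have h1 := Module.finrank_mul_finrank G.B₀ (G.LF b) G.splitField
  rw [G.finrank_B₀, card_pair] at h1
  -- distinct restrictions to the line field
  have hpick : ∀ L : Line q, ∃ P : Pair q, P.line b = L := fun L => by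
    have hc : 0 < Fintype.card {P : Pair q // P.line b = L} := by
      rw [card_fibre]; exact Nat.pos_of_ne_zero (NeZero.ne q)
    obtain ⟨P⟩ := Fintype.card_pos_iff.mp hc
    exact ⟨P.1, P.2⟩
  choose pk hpk using hpick
  let res : Line q → (G.LF b →ₐ[G.B₀] BigF) := fun L =>
    { ((G.embB (pk L)).toRingHom.comp (algebraMap (G.LF b) G.splitField)) with
      commutes' := fun z => (G.embB (pk L)).commutes z }
  have hinj : Function.Injective res := fun L L' h => by
    have := DFunLike.congr_fun h
      (⟨G.gen b (.pull G.h), IntermediateField.subset_adjoin _ _ ⟨_, rfl⟩⟩ : G.LF b)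
    replace this : G.emb G.one (pk L) (G.gen b (.pull G.h)) =
        G.emb G.one (pk L') (G.gen b (.pull G.h)) := (algebraMap Ser BigF).injective this
    rw [emb_gen, emb_gen, sub_h, sub_h, hpk, hpk] at this
    exact G.sub_h_injective this
  have h2 : q + 1 ≤ Module.finrank G.B₀ (G.LF b) := by
    have h3 := card_le_finrank hinj
    rwa [Fintype.card_option, ZMod.card] at h3
  exact Nat.le_of_mul_le_mul_left (le_trans (Nat.mul_le_mul_right _ h2) h1.le) (Nat.succ_pos q)

theorem embLF_bijective (b : Bool) : Function.Bijective (G.embLF b) :=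
  haveI : Algebra.IsAlgebraic (G.LF b) G.splitField := Algebra.IsAlgebraic.of_finite _ _
  haveI : Algebra.IsSeparable (G.LF b) G.splitField :=
    Algebra.IsAlgebraic.isSeparable_of_perfectField
  bijective_of_finrank_le (G.embLF_injective b) (by rw [card_fibre]; exact G.finrank_LF_le b)

/-- The norm to a line field is the product over the pairs with that line. -/
theorem coe_norm_LF (b : Bool) (z : G.splitField) :
    ((Algebra.norm (G.LF b) z : G.splitField) : Ser) =
      ∏ P : {P : Pair q // P.line b = (Pair.base q).line b}, G.emb G.one P.1 z := by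
  refine (algebraMap Ser BigF).injective ?_
  rw [map_prod]
  have : Algebra.IsAlgebraic (G.LF b) G.splitField := Algebra.IsAlgebraic.of_finite _ _
  have : Algebra.IsSeparable (G.LF b) G.splitField :=
    Algebra.IsAlgebraic.isSeparable_of_perfectField
  exact norm_eq_prod_of_bijective (G.embLF_bijective b) z

/-- The norm to the base is the product over all pairs. -/
theorem coe_norm_B₀ (z : G.splitField) :
    ((Algebra.norm G.B₀ z : G.splitField) : Ser) = ∏ P : Pair q, G.emb G.one P z := by
  refine (algebraMap Ser BigF).injective ?_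
  rw [map_prod]
  have : Algebra.IsAlgebraic G.B₀ G.splitField := Algebra.IsAlgebraic.of_finite _ _
  have : Algebra.IsSeparable G.B₀ G.splitField := Algebra.IsAlgebraic.isSeparable_of_perfectField
  exact norm_eq_prod_of_bijective
    (bijective_of_finrank_le G.embB_injective G.finrank_B₀_le) z

end Model

end FLTAgent.CarayolSquare
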