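import Fermat.Agent.CarayolSquare.Geometry.Spec
import Mathlib.RingTheory.Norm.Basic
import Mathlib.FieldTheory.IntermediateField.Adjoin.Basic

/-!
# The function field of the split Cartan cover

`splitField` is generated by the values of all families along the pair of lines `(∞, 0)`; the two
`lineField`s by the values along one line.  `RootDescends` is the local theorem at `q`, proved in
`Geometry.Final` from gluing.
-/

set_option autoImplicit false

noncomputable section

open ModularCurve

namespace FLTAgent.CarayolSquare

namespace Model

variable {q : ℕ} {X : Ctx q} {M₁ : ℕ} [NeZero M₁] (G : Model X M₁)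

/-- The series of a generator along a line at a cusp. -/
def gs (δ : G.Cusp) (L : Line q) (v : Gen G.C) : Ser :=
  genSer X M₁ (fun δ a => G.cs δ a) G.twP G.twB δ L v

/-- The field of the values of the families along one line. -/
def lineField (L : Line q) : IntermediateField X.K Ser :=
  IntermediateField.adjoin X.K (Set.range (G.gs G.one L))

/-- The function field of the split Cartan cover. -/
def splitField : IntermediateField X.K Ser :=
  IntermediateField.adjoin X.K
    (Set.range (G.gs G.one none) ∪ Set.range (G.gs G.one (some 0)))

theorem lineField_none_le : G.lineField none ≤ G.splitField :=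
  IntermediateField.adjoin.mono _ _ _ Set.subset_union_left

theorem lineField_zero_le : G.lineField (some 0) ≤ G.splitField :=
  IntermediateField.adjoin.mono _ _ _ Set.subset_union_right

/-- The norm from the split Cartan cover to the field of the first line. -/
def normNone (f : G.splitField) : G.lineField none :=
  Algebra.norm (G.lineField none)
    (⟨(f : Ser), f.2⟩ : IntermediateField.extendScalars G.lineField_none_le)

/-- The norm from the split Cartan cover to the field of the second line. -/
def normZero (f : G.splitField) : G.lineField (some 0) :=
  Algebra.norm (G.lineField (some 0))
    (⟨(f : Ser), f.2⟩ : IntermediateField.extendScalars G.lineField_zero_le)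

/-- **The local theorem.**  With an exponent `e` depending only on the model: a function whose
orders at all places of `splitField / K` are divisible by `m` and whose norms to the two line
fields are constants times `m`-th powers has `e`-th power a constant times an `m`-th power. -/
def RootDescends : Prop :=
  ∃ e : ℕ, 0 < e ∧ ∀ (m : ℕ), 0 < m → ¬ q ∣ m → ∀ f : G.splitField, f ≠ 0 →
    (∀ W : ValuationSubring G.splitField, (∀ c : X.K, algebraMap X.K G.splitField c ∈ W) →
      ∃ g : G.splitField, g ≠ 0 ∧ W.valuation f = W.valuation (g ^ m)) →
    (∃ (κ : X.K) (g : G.lineField none), G.normNone f = algebraMap X.K _ κ * g ^ m) →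
    (∃ (κ : X.K) (g : G.lineField (some 0)), G.normZero f = algebraMap X.K _ κ * g ^ m) →
      ∃ (κ : X.K) (g : G.splitField), f ^ e = algebraMap X.K _ κ * g ^ m

end Model

end FLTAgent.CarayolSquare
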