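import Fermat.Agent.CarayolSquare.Geometry.Series
import Fermat.Agent.CarayolSquare.Geometry.Fields
import Mathlib.FieldTheory.PrimitiveElement
import Mathlib.RingTheory.Algebraic.Integral
import Fermat.Agent.FFBasic.AdjoinFrac

/-!
# The embeddings of `splitField` at pairs of lines and cusps

`emb` takes the values of the families at all pairs of lines and all cusps, with values in good
series (`goodSer`); `exists_prod_descend` descends the symmetric products over the pairs.
-/

set_option autoImplicit false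

noncomputable section

open ModularCurve

namespace FLTAgent.CarayolSquare

local notation "Qbar" => AlgebraicClosure ℚ

variable {q : ℕ}

/-- Ordered pairs of distinct lines. -/
def Pair (q : ℕ) : Type := {P : Line q × Line q // P.1 ≠ P.2}

/-- The pair `(∞, 0)`. -/
def Pair.base (q : ℕ) : Pair q := ⟨(none, some 0), by simp⟩

/-- The line of a pair. -/
def Pair.line (P : Pair q) (b : Bool) : Line q := if b then P.1.1 else P.1.2

instance : DecidableEq (Pair q) := Subtype.instDecidableEq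
instance [NeZero q] : Fintype (Pair q) := Subtype.fintype _

namespace Ctx

variable (X : Ctx q)

/-- Integral series over `K (ζ)`. -/
def goodSer : Subring Ser := X.intSer ⊓ X.serL₁

theorem mem_goodSer {s : Ser} : s ∈ X.goodSer ↔ ∀ n, s.coeff n ∈ X.A ∧ s.coeff n ∈ X.L₁ :=
  ⟨fun h n => ⟨h.1 n, h.2 n⟩, fun h => ⟨fun n => (h n).1, fun n => (h n).2⟩⟩

theorem goodSer_of_coeffInO {s : Ser} (h : X.CoeffInO s) : s ∈ X.goodSer := by
  rw [mem_goodSer]
  intro n
  obtain ⟨c, hc⟩ := h n
  rw [← hc]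
  exact ⟨c.2, algebraMap_mem _ _⟩

theorem goodSer_of_int {s : Ser} (h : ∀ n, ∃ z : ℤ, (z : Qbar) = s.coeff n) : s ∈ X.goodSer := by
  rw [mem_goodSer]
  intro n
  obtain ⟨z, hz⟩ := h n
  rw [← hz]
  exact ⟨intCast_mem X.A.toSubring z, intCast_mem X.L₁ z⟩

theorem algebraMap_mem_goodSer (c : X.O) : algebraMap X.O Ser c ∈ X.goodSer := by
  refine X.goodSer_of_coeffInO fun n => ?_
  rw [X.algebraMap_eq_C, HahnSeries.C_apply]
  rcases eq_or_ne n 0 with rfl | hn
  · exact ⟨c, by simp⟩
  · exact ⟨0, by simp [hn]⟩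

theorem qExpand_mem_goodSer (N : ℕ) [NeZero N] {s : Ser} (hs : s ∈ X.goodSer) :
    qExpand Qbar N s ∈ X.goodSer := by
  rw [mem_goodSer] at hs ⊢
  intro n
  by_cases hn : (N : ℤ) ∣ n
  · obtain ⟨k, rfl⟩ := hn
    rw [qExpand_coeff_mul]
    exact hs k
  · rw [qExpand_coeff_of_not_dvd N s hn]
    exact ⟨X.A.zero_mem, zero_mem _⟩

theorem up_mem_goodSer {s : Ser} (hs : s ∈ X.goodSer) : X.up s ∈ X.goodSer :=
  haveI := X.neZero
  X.qExpand_mem_goodSer q hs

theorem ζ_mem_A : X.ζ ∈ X.A := by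
  rw [← X.A.valuation_le_one_iff]
  refine le_of_eq ((pow_eq_one_iff_left X.prime.ne_zero).mp ?_)
  rw [← map_pow, X.hζ.pow_eq_one, map_one]

theorem zpow_zeta_mem (b : ℕ) (n : ℤ) : (X.ζ ^ b) ^ n ∈ X.A ∧ (X.ζ ^ b) ^ n ∈ X.L₁ := by
  refine ⟨?_, zpow_mem (pow_mem X.ζ_mem b) n⟩
  rw [← X.A.valuation_le_one_iff, map_zpow₀, map_pow]
  have h : X.A.valuation X.ζ = 1 := (pow_eq_one_iff_left X.prime.ne_zero).mp (by
    rw [← map_pow, X.hζ.pow_eq_one, map_one])
  simp [h]

theorem sub_mem_goodSer (L : Line q) {s : Ser} (hs : s ∈ X.goodSer) : X.sub L s ∈ X.goodSer := by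
  cases L with
  | none => exact X.up_mem_goodSer (X.up_mem_goodSer hs)
  | some b =>
    rw [mem_goodSer] at hs ⊢
    intro n
    show (Igusa.scale (X.zetaU b) s).coeff n ∈ X.A ∧ (Igusa.scale (X.zetaU b) s).coeff n ∈ X.L₁
    rw [Igusa.coeff_scale, Units.val_zpow_eq_zpow_val]
    exact ⟨X.A.mul_mem _ _ (X.zpow_zeta_mem _ n).1 (hs n).1,
      mul_mem (X.zpow_zeta_mem _ n).2 (hs n).2⟩

theorem discSeries_mem_goodSer : Igusa.discSeries Qbar ∈ X.goodSer ∧
    Igusa.discInvSeries Qbar ∈ X.goodSer := by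
  constructor <;> refine X.goodSer_of_int fun n => ?_
  · rw [← (Igusa.coeffMap_discSeries (Int.castRingHom Qbar)).1]
    exact ⟨_, rfl⟩
  · rw [← (Igusa.coeffMap_discSeries (Int.castRingHom Qbar)).2]
    exact ⟨_, rfl⟩

theorem discFam_mem_goodSer (M₁ : ℕ) [NeZero M₁] (L : Line q) :
    discFam X M₁ L ∈ X.goodSer := by
  have h1 := X.qExpand_mem_goodSer M₁ X.discSeries_mem_goodSer.1
  have h2 := X.qExpand_mem_goodSer M₁ X.discSeries_mem_goodSer.2
  cases L with
  | none =>
    exact mul_mem (pow_mem (natCast_mem _ _) _)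
      (mul_mem (X.sub_mem_goodSer none h1) (X.up_mem_goodSer h2))
  | some b => exact mul_mem (X.sub_mem_goodSer (some b) h1) (X.up_mem_goodSer h2)

theorem exists_div_O (c : X.K) : ∃ a b : X.O, b ≠ 0 ∧ c * (b : X.K) = a := by
  rcases X.A.mem_or_inv_mem (algebraMap X.K Qbar c) with h | h
  · exact ⟨⟨c, h⟩, 1, one_ne_zero, by simp⟩
  · rcases eq_or_ne c 0 with rfl | hc
    · exact ⟨0, 1, one_ne_zero, by simp⟩
    rw [← map_inv₀] at h
    exact ⟨1, ⟨c⁻¹, h⟩, fun h0 => inv_ne_zero hc (congrArg Subtype.val h0),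
      by simp [mul_inv_cancel₀ hc]⟩

end Ctx

namespace Model

variable [NeZero q] {X : Ctx q} {M₁ : ℕ} [NeZero M₁] (G : Model X M₁)

omit [NeZero q] in
theorem gs_mem_goodSer (δ : G.Cusp) (L : Line q) (v : Gen G.C) : G.gs δ L v ∈ X.goodSer := by
  cases v with
  | base a => exact X.up_mem_goodSer (X.goodSer_of_coeffInO (G.cs_coeff δ a))
  | pull a => exact X.sub_mem_goodSer L (X.goodSer_of_coeffInO (G.cs_coeff _ a))
  | disc => exact X.discFam_mem_goodSer M₁ L

/-- Polynomials in the values along two lines. -/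
abbrev PairPoly : Type := MvPolynomial (Bool × Gen G.C) X.O

/-- Evaluation at a cusp along a pair. -/
def evP (δ : G.Cusp) (P : Pair q) : G.PairPoly →ₐ[X.O] Ser :=
  MvPolynomial.aeval fun v => G.gs δ (P.line v.1) v.2

/-- Evaluation at `∞` along `(∞, 0)`. -/
def ev0 : G.PairPoly →ₐ[X.O] Ser := G.evP G.one (Pair.base q)

omit [NeZero q] in
theorem evP_eq_zero_iff (δ : G.Cusp) (P : Pair q) (p : G.PairPoly) :
    G.evP δ P p = 0 ↔ G.ev0 p = 0 := G.transfer p δ P.1.1 P.1.2 P.2

omit [NeZero q] in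
theorem evP_mem_goodSer (δ : G.Cusp) (P : Pair q) (p : G.PairPoly) :
    G.evP δ P p ∈ X.goodSer := by
  induction p using MvPolynomial.induction_on with
  | C a => rw [← MvPolynomial.algebraMap_eq, AlgHom.commutes]; exact X.algebraMap_mem_goodSer a
  | add a b ha hb => rw [map_add]; exact add_mem ha hb
  | mul_X a v ha =>
    rw [map_mul, evP, MvPolynomial.aeval_X]
    exact mul_mem ha (G.gs_mem_goodSer δ _ _)

omit [NeZero q] in
theorem exists_rep {z : Ser} (hz : z ∈ G.splitField) :
    ∃ a b : G.PairPoly, G.ev0 b ≠ 0 ∧ z * G.ev0 b = G.ev0 a := by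
  refine FFBasic.exists_mul_eq_of_mem_adjoin G.ev0.toRingHom (fun c => ?_) (fun x hx => ?_) hz
  · obtain ⟨a, b, hb, h⟩ := X.exists_div_O c
    refine ⟨algebraMap X.O _ a, algebraMap X.O _ b, ?_, ?_⟩
    · rw [AlgHom.toRingHom_eq_coe, RingHom.coe_coe, AlgHom.commutes, X.algebraMap_eq]
      exact (_root_.map_ne_zero _).mpr fun h0 => hb (Subtype.ext h0)
    · rw [AlgHom.toRingHom_eq_coe, RingHom.coe_coe, AlgHom.commutes, AlgHom.commutes,
        X.algebraMap_eq, X.algebraMap_eq, ← map_mul]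
      exact congrArg _ h
  · rcases hx with ⟨v, rfl⟩ | ⟨v, rfl⟩
    · exact ⟨MvPolynomial.X (true, v), 1, by rw [map_one]; exact one_ne_zero,
        by rw [map_one, mul_one, AlgHom.toRingHom_eq_coe, RingHom.coe_coe, ev0, evP,
          MvPolynomial.aeval_X]; rfl⟩
    · exact ⟨MvPolynomial.X (false, v), 1, by rw [map_one]; exact one_ne_zero,
        by rw [map_one, mul_one, AlgHom.toRingHom_eq_coe, RingHom.coe_coe, ev0, evP,
          MvPolynomial.aeval_X]; rfl⟩

omit [NeZero q] in
theorem evP_ne_zero (δ : G.Cusp) (P : Pair q) {p : G.PairPoly} (hp : G.ev0 p ≠ 0) :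
    G.evP δ P p ≠ 0 := fun h => hp ((G.evP_eq_zero_iff δ P p).mp h)

/-- The value of an element along a pair at a cusp. -/
def embFun (δ : G.Cusp) (P : Pair q) (z : G.splitField) : Ser :=
  G.evP δ P (G.exists_rep z.2).choose / G.evP δ P (G.exists_rep z.2).choose_spec.choose

omit [NeZero q] in
theorem embFun_spec (δ : G.Cusp) (P : Pair q) (z : G.splitField) {a b : G.PairPoly}
    (_hb : G.ev0 b ≠ 0) (h : (z : Ser) * G.ev0 b = G.ev0 a) :
    G.embFun δ P z * G.evP δ P b = G.evP δ P a := by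
  have key : ∀ a' b' : G.PairPoly, G.ev0 b' ≠ 0 → (z : Ser) * G.ev0 b' = G.ev0 a' →
      G.evP δ P a' / G.evP δ P b' * G.evP δ P b = G.evP δ P a := by
    intro a' b' hb' h'
    have h1 : G.ev0 (a' * b - a * b') = 0 := by
      rw [map_sub, map_mul, map_mul, ← h, ← h']
      ring
    have h2 := (G.evP_eq_zero_iff δ P _).mpr h1
    rw [map_sub, map_mul, map_mul, sub_eq_zero] at h2
    rw [div_mul_eq_mul_div, div_eq_iff (G.evP_ne_zero δ P hb')]
    exact h2
  obtain ⟨hb', h'⟩ := (G.exists_rep z.2).choose_spec.choose_spec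
  exact key _ _ hb' h'

/-- **The embedding of `splitField` along a pair at a cusp.** -/
def emb (δ : G.Cusp) (P : Pair q) : G.splitField →ₐ[X.K] Ser where
  toFun := G.embFun δ P
  map_one' := by
    simpa using G.embFun_spec δ P 1 (a := 1) (b := 1) (by rw [map_one]; exact one_ne_zero) (by simp)
  map_mul' z w := by
    obtain ⟨a, b, hb, h⟩ := G.exists_rep z.2
    obtain ⟨a', b', hb', h'⟩ := G.exists_rep w.2
    have hbb : G.ev0 (b * b') ≠ 0 := by rw [map_mul]; exact mul_ne_zero hb hb'
    have e := G.embFun_spec δ P (z * w) (a := a * a') hbb (by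
      rw [map_mul, map_mul, ← h, ← h']; push_cast; ring)
    refine mul_right_cancel₀ (G.evP_ne_zero δ P hbb) ?_
    rw [e, map_mul, map_mul, ← G.embFun_spec δ P z hb h, ← G.embFun_spec δ P w hb' h']
    ring
  map_zero' := by
    simpa using G.embFun_spec δ P 0 (a := 0) (b := 1) (by rw [map_one]; exact one_ne_zero) (by simp)
  map_add' z w := by
    obtain ⟨a, b, hb, h⟩ := G.exists_rep z.2
    obtain ⟨a', b', hb', h'⟩ := G.exists_rep w.2
    have hbb : G.ev0 (b * b') ≠ 0 := by rw [map_mul]; exact mul_ne_zero hb hb'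
    have e := G.embFun_spec δ P (z + w) (a := a * b' + a' * b) hbb (by
      rw [map_add, map_mul, map_mul, map_mul, ← h, ← h']; push_cast; ring)
    refine mul_right_cancel₀ (G.evP_ne_zero δ P hbb) ?_
    rw [e, map_add, map_mul, map_mul, map_mul, ← G.embFun_spec δ P z hb h,
      ← G.embFun_spec δ P w hb' h']
    ring
  commutes' c := by
    obtain ⟨a, b, hb, h⟩ := X.exists_div_O c
    have hne : ∀ f : G.PairPoly →ₐ[X.O] Ser, f (algebraMap X.O _ b) ≠ 0 := fun f => by
      rw [AlgHom.commutes, X.algebraMap_eq]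
      exact (_root_.map_ne_zero _).mpr fun h0 => hb (Subtype.ext h0)
    have e := G.embFun_spec δ P (algebraMap X.K _ c) (a := algebraMap X.O _ a) (hne _) (by
      show algebraMap X.K Ser c * _ = _
      rw [AlgHom.commutes, AlgHom.commutes, X.algebraMap_eq, X.algebraMap_eq, ← map_mul]
      exact congrArg _ h)
    refine mul_right_cancel₀ (hne (G.evP δ P)) ?_
    rw [e, AlgHom.commutes, AlgHom.commutes, X.algebraMap_eq, X.algebraMap_eq, ← map_mul]
    exact congrArg _ h.symm

omit [NeZero q] in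
theorem emb_spec (δ : G.Cusp) (P : Pair q) (z : G.splitField) {a b : G.PairPoly}
    (hb : G.ev0 b ≠ 0) (h : (z : Ser) * G.ev0 b = G.ev0 a) :
    G.emb δ P z * G.evP δ P b = G.evP δ P a := G.embFun_spec δ P z hb h

omit [NeZero q] in
theorem emb_base (z : G.splitField) : G.emb G.one (Pair.base q) z = z := by
  obtain ⟨a, b, hb, h⟩ := G.exists_rep z.2
  exact mul_right_cancel₀ hb ((G.emb_spec G.one (Pair.base q) z hb h).trans h.symm)

omit [NeZero q] in
theorem isBounded_emb (δ : G.Cusp) (P : Pair q) (z : G.splitField) :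
    X.IsBounded (G.emb δ P z) := by
  obtain ⟨a, b, hb, h⟩ := G.exists_rep z.2
  exact ⟨⟨_, (G.evP_mem_goodSer δ P a).1⟩, ⟨_, (G.evP_mem_goodSer δ P b).1⟩,
    (G.evP_mem_goodSer δ P a).2, (G.evP_mem_goodSer δ P b).2, G.evP_ne_zero δ P hb,
    G.emb_spec δ P z hb h⟩

omit [NeZero q] in
theorem gs_mem_splitField (b : Bool) (v : Gen G.C) :
    G.gs G.one ((Pair.base q).line b) v ∈ G.splitField := by
  cases b
  · exact IntermediateField.subset_adjoin _ _ (Or.inr ⟨v, rfl⟩)
  · exact IntermediateField.subset_adjoin _ _ (Or.inl ⟨v, rfl⟩)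

/-- A generator of `splitField`. -/
def gen (b : Bool) (v : Gen G.C) : G.splitField := ⟨_, G.gs_mem_splitField b v⟩

omit [NeZero q] in
@[simp] theorem emb_gen (δ : G.Cusp) (P : Pair q) (b : Bool) (v : Gen G.C) :
    G.emb δ P (G.gen b v) = G.gs δ (P.line b) v := by
  have h := G.emb_spec δ P (G.gen b v) (a := MvPolynomial.X (b, v)) (b := 1)
    (by rw [map_one]; exact one_ne_zero)
    (by rw [map_one, mul_one, ev0, evP, MvPolynomial.aeval_X]; rfl)
  rwa [map_one, mul_one, evP, MvPolynomial.aeval_X] at h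

/-- The base functions inside `splitField`. -/
def baseHom : G.C →ₐ[X.O] G.splitField where
  toFun c := G.gen true (.base c)
  map_one' := Subtype.ext (by show X.up (G.cs G.one 1) = 1; rw [map_one, map_one])
  map_mul' a b := Subtype.ext (by
    show X.up (G.cs G.one (a * b)) = X.up (G.cs G.one a) * X.up (G.cs G.one b)
    rw [map_mul, map_mul])
  map_zero' := Subtype.ext (by show X.up (G.cs G.one 0) = 0; rw [map_zero, map_zero])
  map_add' a b := Subtype.ext (by
    show X.up (G.cs G.one (a + b)) = X.up (G.cs G.one a) + X.up (G.cs G.one b)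
    rw [map_add, map_add])
  commutes' r := Subtype.ext (by
    show X.up (G.cs G.one (algebraMap X.O G.C r)) = algebraMap X.K Ser (r : X.K)
    rw [AlgHom.commutes, X.up_algebraMap, X.algebraMap_eq])

omit [NeZero q] in
theorem coe_baseHom (c : G.C) : (G.baseHom c : Ser) = X.up (c : Ser) :=
  congrArg X.up (G.cs_one c)

omit [NeZero q] in
theorem emb_baseHom (δ : G.Cusp) (P : Pair q) (c : G.C) :
    G.emb δ P (G.baseHom c) = X.up (G.cs δ c) := G.emb_gen δ P true (.base c)

/-! ### Symmetric products over all pairs -/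

/-- Polynomials in the values along all lines. -/
abbrev LinePoly : Type := MvPolynomial (Line q × Gen G.C) X.O

/-- Evaluation at a cusp. -/
def evL (δ : G.Cusp) : G.LinePoly →ₐ[X.O] Ser := MvPolynomial.aeval fun v => G.gs δ v.1 v.2

/-- A pair polynomial placed on a pair. -/
def atPair (P : Pair q) : G.PairPoly →ₐ[X.O] G.LinePoly :=
  MvPolynomial.rename fun v => (P.line v.1, v.2)

omit [NeZero q] in
theorem evL_atPair (δ : G.Cusp) (P : Pair q) (p : G.PairPoly) :
    G.evL δ (G.atPair P p) = G.evP δ P p := by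
  rw [evL, atPair, evP, MvPolynomial.aeval_rename]
  rfl

/-- A permutation of the lines acting on pairs. -/
def permPair (π : Equiv.Perm (Line q)) : Equiv.Perm (Pair q) :=
  (π.prodCongr π).subtypeEquiv fun _ => π.injective.ne_iff.symm

omit [NeZero q] in
theorem rename_atPair (π : Equiv.Perm (Line q)) (P : Pair q) (p : G.PairPoly) :
    MvPolynomial.rename (Prod.map π id) (G.atPair P p) = G.atPair (permPair π P) p := by
  rw [atPair, atPair, MvPolynomial.rename_rename]
  congr 2
  funext ⟨b, w⟩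
  cases b <;> rfl


/-- **Symmetric products descend.** -/
theorem exists_prod_descend (a b : G.PairPoly) :
    ∃ P : Polynomial G.C, ∀ δ, P.map ((X.up.comp (G.cs δ).toRingHom)) =
      ∏ p : Pair q, (Polynomial.C (G.evP δ p b) * Polynomial.X - Polynomial.C (G.evP δ p a)) := by
  classical
  set Q : Polynomial G.LinePoly :=
    ∏ p : Pair q, (Polynomial.C (G.atPair p b) * Polynomial.X - Polynomial.C (G.atPair p a)) with hQ
  have hsym : ∀ π : Equiv.Perm (Line q),
      Q.map (MvPolynomial.rename (Prod.map π id) : G.LinePoly →ₐ[X.O]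
          G.LinePoly).toRingHom = Q := by
    intro π
    simp only [hQ, Polynomial.map_prod, Polynomial.map_sub, Polynomial.map_mul, Polynomial.map_C,
      Polynomial.map_X, AlgHom.toRingHom_eq_coe, RingHom.coe_coe, rename_atPair]
    exact Fintype.prod_equiv (permPair π) _ (fun p =>
      Polynomial.C (G.atPair p b) * Polynomial.X - Polynomial.C (G.atPair p a)) fun _ => rfl
  choose c hc using fun n : ℕ => G.symm (Q.coeff n) fun π => by
    have := congrArg (fun R => Polynomial.coeff R n) (hsym π)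
    simpa using this
  refine ⟨∑ n ∈ Finset.range (Q.natDegree + 1), Polynomial.monomial n (c n), fun δ => ?_⟩
  have hQδ : Q.map (G.evL δ).toRingHom =
      ∏ p : Pair q, (Polynomial.C (G.evP δ p b) * Polynomial.X - Polynomial.C (G.evP δ p a)) := by
    simp only [hQ, Polynomial.map_prod, Polynomial.map_sub, Polynomial.map_mul, Polynomial.map_C,
      Polynomial.map_X, AlgHom.toRingHom_eq_coe, RingHom.coe_coe, evL_atPair]
  rw [← hQδ]
  conv_rhs => rw [Q.as_sum_range' _ (Nat.lt_succ_self _)]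
  rw [Polynomial.map_sum, Polynomial.map_sum]
  refine Finset.sum_congr rfl fun n _ => ?_
  rw [Polynomial.map_monomial, Polynomial.map_monomial]
  congr 1
  exact (hc n δ).symm

end Model

end FLTAgent.CarayolSquare
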