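import Fermat.Agent.CarayolSquare.Geometry.Charts
import Mathlib.RingTheory.DedekindDomain.IntegralClosure
import Mathlib.RingTheory.Polynomial.UniqueFactorization
import Mathlib.FieldTheory.IntermediateField.Adjoin.Basic
import Mathlib.RingTheory.Algebraic.Integral

/-!
# Finiteness of the chart

`splitField` is finite over `K (u)` and its chart over `O[u]` is a finite module: `chartFinite`,
an input of the triviality of covers in `Geometry.Final`.
-/

set_option autoImplicit false

noncomputable section

open Polynomial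

namespace FLTAgent.CarayolSquare

variable {q : ℕ}

namespace Model

variable {X : Ctx q} {M₁ : ℕ} [NeZero M₁] (G : Model X M₁) [NeZero q] [Fact q.Prime]

omit [Fact q.Prime] [NeZero q] in
theorem valO_baseHom (x : G.C) : G.valO (G.baseHom x) = X.upA (x : Ser) := G.coe_baseHom x

omit [NeZero q] [Fact q.Prime] in
/-- `C` is generated over `O[h, 1/D]` by finitely many of its elements. -/
theorem exists_generators : ∃ T : Finset G.C,
    ∀ c : G.C, ∃ a : G.C → G.C, (∀ t, (a t : Ser) ∈ G.hRing) ∧ ∑ t ∈ T, a t * t = c := by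
  classical
  obtain ⟨S, hS⟩ := G.finite
  let A := G.hRing
  have hhC : A ≤ G.C := Algebra.adjoin_le (by
    rintro z (rfl | rfl)
    · exact G.h.2
    · exact G.Dinv.2)
  have := X.dvr
  have : IsNoetherianRing A :=
    isNoetherianRing_of_fg ⟨{(G.h : Ser), (G.Dinv : Ser)}, by simp [A, hRing]⟩
  let N : Submodule A Ser := Submodule.span A (S : Set Ser)
  let Cs : Subalgebra A Ser :=
    { G.C.toSubsemiring with algebraMap_mem' := fun a => hhC a.2 }
  let : Module A N := N.module
  have : IsNoetherian A N := isNoetherian_of_fg_of_noetherian N ⟨S, rfl⟩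
  obtain ⟨B, hB⟩ := isNoetherian_submodule.mp (inferInstance : IsNoetherian A N)
    (Subalgebra.toSubmodule Cs) hS
  have hBC : ∀ b ∈ B, b ∈ G.C := fun b hb =>
    (hB ▸ Submodule.subset_span hb : b ∈ Subalgebra.toSubmodule Cs)
  refine ⟨B.attach.image fun b => ⟨b.1, hBC b.1 b.2⟩, fun c => ?_⟩
  have hc : (c : Ser) ∈ Submodule.span A (B : Set Ser) := hB.symm ▸ (c.2 : (c : Ser) ∈ Cs)
  obtain ⟨r, -, hr⟩ := Submodule.mem_span_finset.mp hc
  refine ⟨fun t => ⟨(r (t : Ser) : Ser), hhC (r (t : Ser)).2⟩, fun t => (r (t : Ser)).2, ?_⟩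
  refine Subtype.ext ?_
  rw [Finset.sum_image]
  · refine (map_sum G.C.val _ _).trans (Eq.trans ?_ hr)
    rw [← Finset.sum_attach B (fun b => r b • b)]
    rfl
  · intro x _ y _ h
    exact Subtype.ext (congrArg (fun z : G.C => (z : Ser)) h)

omit [Fact (Nat.Prime q)] [NeZero q] in
theorem aeval_baseHom_injective {u : Ser} (hu : G.Coord u) (U : G.C) (hU : (U : Ser) = u) :
    Function.Injective (aeval (G.baseHom U) : X.O[X] →ₐ[X.O] G.splitField) := by
  intro a b h
  refine hu.inj (X.up.injective ?_)
  have h1 := congrArg G.valO h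
  rw [aeval_algHom_apply, aeval_algHom_apply] at h1
  have e : ∀ p : X.O[X], G.valO (G.baseHom (aeval U p)) = X.up (aeval u p) := fun p => by
    rw [G.valO_baseHom, X.upA_apply, ← hU]
    exact congrArg X.up (aeval_algHom_apply G.C.val U p).symm
  rwa [e, e] at h1

omit [Fact (Nat.Prime q)] in
theorem chartFinite {u : Ser} (hu : G.Coord u) (U : G.C) (hU : (U : Ser) = u) (E : Type*)
    [Field E] [Algebra X.O E] [Algebra G.splitField E] [IsScalarTower X.O G.splitField E] :
    ChartFinite X.O E (G.baseHom U) := by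
  classical
  have := X.dvr
  let R := X.O[X]
  let F := G.splitField
  let ψ : R →+* F := (aeval (G.baseHom U) : X.O[X] →ₐ[X.O] F).toRingHom
  have hψ : Function.Injective ψ := G.aeval_baseHom_injective hu U hU
  let : Algebra R F := ψ.toAlgebra
  let : Module R F := Algebra.toModule
  let K' := FractionRing R
  let : Algebra K' F := (IsFractionRing.lift (g := ψ) hψ).toAlgebra
  let : Module K' F := Algebra.toModule
  have : IsScalarTower R K' F := IsScalarTower.of_algebraMap_eq fun r =>
    (IsFractionRing.lift_algebraMap (g := ψ) hψ r).symm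
  have : Module.IsTorsionFree R F :=
    Module.IsTorsionFree.of_smul_eq_zero fun r z h => by
      rw [Algebra.smul_def, mul_eq_zero, RingHom.algebraMap_toAlgebra] at h
      exact h.imp (fun h' => hψ (by rw [h', map_zero])) id
  have : CharZero R := inferInstance
  have : CharZero K' := inferInstance
  -- clearing denominators with `E`
  have hE : ψ hu.E ≠ 0 := fun h => hu.not_dvd (by
    rw [show hu.E = 0 from hψ (h.trans (map_zero ψ).symm)]; exact dvd_zero _)
  have hbase : ∀ p : R, G.baseHom (aeval U p) = ψ p := fun p => (aeval_algHom_apply _ _ _).symm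
  have hcoe : ∀ p : R, ((aeval U p : G.C) : Ser) = aeval u p := fun p => by
    rw [← hU]; exact (aeval_algHom_apply G.C.val U p).symm
  have hrange : ∀ a : G.C, (a : Ser) ∈ G.hRing → G.baseHom a ∈ Set.range (algebraMap K' F) := by
    intro a ha
    obtain ⟨N, hN⟩ := hu.clear _ ha
    rw [Algebra.adjoin_singleton_eq_range_aeval] at hN
    obtain ⟨p, hp⟩ := hN
    have h1 : (aeval U hu.E) ^ N * a = aeval U p := Subtype.ext (by
      show ((aeval U hu.E : G.C) : Ser) ^ N * (a : Ser) = ((aeval U p : G.C) : Ser)
      rw [hcoe, hcoe]; exact hp.symm)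
    have h2 : ψ hu.E ^ N * G.baseHom a = ψ p := by
      rw [← hbase, ← hbase, ← map_pow, ← map_mul, h1]
    refine ⟨algebraMap R K' p / algebraMap R K' hu.E ^ N, ?_⟩
    rw [map_div₀, map_pow, ← IsScalarTower.algebraMap_apply, ← IsScalarTower.algebraMap_apply,
      RingHom.algebraMap_toAlgebra, ← h2, mul_div_cancel_left₀ _ (pow_ne_zero N hE)]
  have hint : ∀ c : G.C, IsIntegral K' (G.baseHom c) := by
    intro c
    obtain ⟨N, hN⟩ := isIntegral_clear (aeval_mem_adjoin_singleton X.O u) hu.clear
      (G.isIntegral_hRing c)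
    have h1 : IsIntegral (Algebra.adjoin X.O ({G.baseHom U} : Set F))
        (ψ hu.E ^ N * G.baseHom c) := by
      refine (isIntegral_adjoin_map G.valO).mp ?_
      rw [map_mul, map_pow, G.valO_baseHom, ← hbase, G.valO_baseHom, G.valO_baseHom, ← map_pow,
        ← map_mul, hU, hcoe]
      exact (isIntegral_adjoin_map X.upA).mpr hN
    have h2 : IsIntegral K' (ψ hu.E ^ N * G.baseHom c) :=
      (show IsIntegral R _ from (isIntegral_adjoin_iff (G.baseHom U) _).mp h1).tower_top
    have h3 := (isIntegral_algebraMap (R := K') (A := F)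
      (x := (algebraMap R K' hu.E ^ N)⁻¹)).mul h2
    rwa [map_inv₀, map_pow, ← IsScalarTower.algebraMap_apply, RingHom.algebraMap_toAlgebra,
      ← mul_assoc, inv_mul_cancel₀ (pow_ne_zero N hE), one_mul] at h3
  -- finitely many generators of `C` over `O[h, 1/D]`
  obtain ⟨T, hT⟩ := G.exists_generators
  let F₁ : IntermediateField K' F := IntermediateField.adjoin K' (G.baseHom '' (T : Set G.C))
  let : Module K' F₁ := Algebra.toModule
  have : FiniteDimensional K' F₁ := IntermediateField.finiteDimensional_adjoin (fun x hx => by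
    obtain ⟨c, -, rfl⟩ := hx
    exact hint c)
  have hC : ∀ c : G.C, G.baseHom c ∈ F₁ := by
    intro c
    obtain ⟨a, ha, rfl⟩ := hT c
    rw [map_sum]
    refine sum_mem fun t ht => ?_
    rw [map_mul]
    obtain ⟨x, hx⟩ := hrange (a t) (ha t)
    exact mul_mem (hx ▸ F₁.algebraMap_mem x) (IntermediateField.subset_adjoin _ _ ⟨t, ht, rfl⟩)
  have hK : ∀ k : X.K, algebraMap X.K F k ∈ F₁ := by
    intro k
    obtain ⟨a, b, hb, hab⟩ := X.exists_div_O k
    have hO : ∀ z : X.O, algebraMap X.K F (z : X.K) ∈ F₁ := fun z => by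
      have := hC (algebraMap X.O G.C z)
      rwa [AlgHom.commutes] at this
    have hb' : algebraMap X.K F (b : X.K) ≠ 0 :=
      (_root_.map_ne_zero _).mpr fun h => hb (Subtype.ext h)
    rw [show algebraMap X.K F k = algebraMap X.K F (a : X.K) / algebraMap X.K F (b : X.K) by
      rw [eq_div_iff hb', ← map_mul, hab]]
    exact div_mem (hO a) (hO b)
  have hB : ∀ z ∈ G.B₀, z ∈ F₁ := by
    intro z hz
    induction hz using IntermediateField.adjoin_induction with
    | mem x hx => obtain ⟨c, rfl⟩ := hx; exact hC c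
    | algebraMap k => exact hK k
    | add x y _ _ hx hy => exact add_mem hx hy
    | inv x _ hx => exact inv_mem hx
    | mul x y _ _ hx hy => exact mul_mem hx hy
  have : Module.Finite F₁ F := by
    obtain ⟨B, hBs⟩ := Module.Finite.fg_top (R := G.B₀) (M := F)
    refine ⟨B, eq_top_iff.mpr fun z hz' => ?_⟩
    clear hz'
    have hz : z ∈ Submodule.span G.B₀ (B : Set F) := hBs.symm ▸ Submodule.mem_top
    induction hz using Submodule.span_induction with
    | mem x hx => exact Submodule.subset_span hx
    | zero => exact zero_mem _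
    | add x y _ _ hx hy => exact add_mem hx hy
    | smul r x _ hx =>
      exact (Submodule.span F₁ (B : Set F)).smul_mem ⟨(r : F), hB _ r.2⟩ hx
  have : FiniteDimensional K' F := Module.Finite.trans F₁ F
  have : IsIntegrallyClosed R := inferInstance
  have hfin : Module.Finite R (integralClosure R F) :=
      IsIntegralClosure.finite R K' F (integralClosure R F)
  have hiff : ∀ x : F, x ∈ chartF X.O E {G.baseHom U} ↔ IsIntegral R x := fun x => by
    rw [mem_chartF_iff, isIntegral_adjoin_iff]
    rfl
  constructor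
  · obtain ⟨B, hBs⟩ := hfin.fg_top
    refine ⟨Submodule.span _ ((fun x : integralClosure R F => (x : F)) '' (B : Set _)),
      Submodule.fg_span (B.finite_toSet.image _), fun x hx => ?_⟩
    have hx' : (⟨x, (hiff x).mp hx⟩ : integralClosure R F) ∈ Submodule.span R (B : Set _) :=
      hBs.symm ▸ Submodule.mem_top
    obtain ⟨c, -, hc⟩ := Submodule.mem_span_finset.mp hx'
    have hsum : x = ∑ b ∈ B, ψ (c b) * (b : F) := by
      have := congrArg (integralClosure R F).val hc
      rw [map_sum] at this
      refine this.symm.trans (Finset.sum_congr rfl fun b _ => ?_)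
      rw [map_smul, Algebra.smul_def]
      rfl
    rw [hsum]
    refine sum_mem fun b hb => ?_
    exact (Submodule.span (Algebra.adjoin X.O ({G.baseHom U} : Set F)) _).smul_mem
      ⟨ψ (c b), aeval_mem_adjoin_singleton X.O _⟩ (Submodule.subset_span ⟨b, hb, rfl⟩)
  · intro x
    have hx : IsAlgebraic R x :=
      (IsFractionRing.isAlgebraic_iff R K' F).mpr (Algebra.IsAlgebraic.isAlgebraic x)
    obtain ⟨y, hy, hyx⟩ := hx.exists_integral_multiple
    refine ⟨ψ y, fun h => hy (hψ (h.trans (map_zero ψ).symm)), (hiff _).mpr isIntegral_algebraMap,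
      (hiff _).mpr ?_⟩
    rwa [Algebra.smul_def] at hyx

end Model

end FLTAgent.CarayolSquare
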