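import Fermat.Agent.CarayolSquare.Geometry.Degree
import Fermat.Agent.CarayolSquare.Geometry.Twist

/-!
# The Gauss valuations of `splitField`

The three Gauss valuations `V` with their residue maps `resV`, and the normalised order `ord` with
its rules (`ord_mul`, `ord_inv`).
-/

set_option autoImplicit false

noncomputable section

open ModularCurve

namespace FLTAgent.CarayolSquare

local notation "Qbar" => AlgebraicClosure ℚ

variable {q : ℕ}

namespace Ctx

variable (X : Ctx q)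

/-- `z` is a constant of normalised value `n` times a quotient of two series with nonzero
reductions. -/
def HasOrd (z : Ser) (n : ℤ) : Prop :=
  ∃ (c : Qbar) (a b : X.intSer), X.redS a ≠ 0 ∧ X.redS b ≠ 0 ∧
    z * (b : Ser) = (HahnSeries.C c : Ser) * (a : Ser) ∧
    X.A.valuation c ^ q.factorial = X.A.valuation (q : Qbar) ^ n

theorem v_q_pos (X : Ctx q) : 0 < X.A.valuation (q : Qbar) :=
  X.A.valuation.pos_iff.mpr X.q_ne_zero

theorem coe_ne_zero_of_redS {a : X.intSer} (ha : X.redS a ≠ 0) : (a : Ser) ≠ 0 := fun h =>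
  ha (by rw [show a = 0 from Subtype.ext h, map_zero])

variable {X} in
theorem HasOrd.ne_zero {z : Ser} {n : ℤ} (h : X.HasOrd z n) : z ≠ 0 := by
  obtain ⟨c, a, b, ha, hb, h, hc⟩ := h
  intro hz
  rw [hz, zero_mul, eq_comm, mul_eq_zero] at h
  rcases h with h | h
  · have hc0 : c = 0 := by simpa using h
    rw [hc0, map_zero, zero_pow (Nat.factorial_ne_zero q)] at hc
    exact zpow_ne_zero n X.v_q_pos.ne' hc.symm
  · exact X.coe_ne_zero_of_redS ha h

theorem valuation_le_of_eq {c c' : Qbar} {a a' : X.intSer} (ha : X.redS a ≠ 0)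
    (h : (HahnSeries.C c : Ser) * (a : Ser) = (HahnSeries.C c' : Ser) * (a' : Ser)) :
    X.A.valuation c ≤ X.A.valuation c' := by
  rw [Ne, X.redS_eq_zero_iff] at ha
  obtain ⟨n, hn⟩ := not_forall.mp ha
  have hn1 : X.A.valuation ((a : Ser).coeff n) = 1 :=
    le_antisymm ((X.A.valuation_le_one_iff _).mpr (a.2 n)) (not_lt.mp hn)
  have h1 := congrArg (fun s : Ser => X.A.valuation (s.coeff n)) h
  simp only [HahnSeries.C_mul_eq_smul, HahnSeries.coeff_smul, smul_eq_mul, map_mul, hn1,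
      mul_one] at h1
  rw [h1]
  exact mul_le_of_le_one_right' ((X.A.valuation_le_one_iff _).mpr (a'.2 n))

variable {X} in
theorem HasOrd.unique {z : Ser} {n n' : ℤ} (h : X.HasOrd z n) (h' : X.HasOrd z n') : n = n' := by
  obtain ⟨c, a, b, ha, hb, h, hc⟩ := h
  obtain ⟨c', a', b', ha', hb', h', hc'⟩ := h'
  have e : (HahnSeries.C c : Ser) * ((a * b' : X.intSer) : Ser) =
      (HahnSeries.C c' : Ser) * ((a' * b : X.intSer) : Ser) := by
    push_cast
    rw [← mul_assoc, ← h, ← mul_assoc, ← h']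
    ring
  have e1 : X.redS (a * b') ≠ 0 := by rw [map_mul]; exact mul_ne_zero ha hb'
  have e2 : X.redS (a' * b) ≠ 0 := by rw [map_mul]; exact mul_ne_zero ha' hb
  have hv := le_antisymm (X.valuation_le_of_eq e1 e) (X.valuation_le_of_eq e2 e.symm)
  rw [hv, hc'] at hc
  exact (zpow_right_injective₀ X.v_q_pos X.q_lt_one.ne hc).symm

variable {X} in
theorem HasOrd.mul {z w : Ser} {n k : ℤ} (h : X.HasOrd z n) (h' : X.HasOrd w k) :
    X.HasOrd (z * w) (n + k) := by
  obtain ⟨c, a, b, ha, hb, h, hc⟩ := h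
  obtain ⟨c', a', b', ha', hb', h', hc'⟩ := h'
  refine ⟨c * c', a * a', b * b', ?_, ?_, ?_, ?_⟩
  · rw [map_mul]; exact mul_ne_zero ha ha'
  · rw [map_mul]; exact mul_ne_zero hb hb'
  · push_cast
    rw [map_mul]
    linear_combination (w * (b' : Ser)) * h + ((HahnSeries.C c : Ser) * (a : Ser)) * h'
  · rw [map_mul, mul_pow, hc, hc', zpow_add₀ X.v_q_pos.ne']

theorem hasOrd_one : X.HasOrd 1 0 :=
  ⟨1, 1, 1, by rw [map_one]; exact one_ne_zero, by rw [map_one]; exact one_ne_zero, by simp,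
    by simp⟩

variable {X} in
theorem HasOrd.inv {z : Ser} {n : ℤ} (h : X.HasOrd z n) : X.HasOrd z⁻¹ (-n) := by
  have hz := h.ne_zero
  obtain ⟨c, a, b, ha, hb, h, hc⟩ := h
  have hc0 : c ≠ 0 := fun h0 => by
    rw [h0, map_zero, zero_mul, mul_eq_zero] at h
    exact h.elim hz (X.coe_ne_zero_of_redS hb)
  refine ⟨c⁻¹, b, a, hb, ha, ?_, by rw [map_inv₀, inv_pow, hc, zpow_neg]⟩
  refine mul_left_cancel₀ hz ?_
  rw [← mul_assoc, mul_inv_cancel₀ hz, one_mul, mul_left_comm, h, ← mul_assoc, ← map_mul,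
    inv_mul_cancel₀ hc0, map_one, one_mul]

theorem exists_hasOrd {z : Ser} (hz : X.IsBounded z) (h0 : z ≠ 0) : ∃ n : ℤ, X.HasOrd z n := by
  obtain ⟨a, b, haL, hbL, hb0, h⟩ := hz
  have ha0 : (a : Ser) ≠ 0 := by rw [← h]; exact mul_ne_zero h0 hb0
  obtain ⟨c, a', ⟨-, hcL⟩, hc0, hac, ha'⟩ := X.exists_normalise a haL ha0
  obtain ⟨d, b', ⟨-, hdL⟩, hd0, hbd, hb'⟩ := X.exists_normalise b hbL hb0
  obtain ⟨i, j, hij⟩ := X.exists_pow_valuation (div_mem hcL hdL) (div_ne_zero hc0 hd0)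
  refine ⟨(j : ℤ) - i, c / d, a', b', ha', hb', ?_, ?_⟩
  · have hd : (HahnSeries.C d : Ser) ≠ 0 := by simpa using hd0
    refine mul_left_cancel₀ hd ?_
    rw [← mul_assoc, ← mul_assoc, mul_comm _ z, mul_assoc z, ← hbd, h, hac, ← map_mul,
      mul_div_cancel₀ _ hd0]
  · rw [zpow_sub₀ X.v_q_pos.ne', zpow_natCast, zpow_natCast,
      eq_div_iff (pow_ne_zero i X.v_q_pos.ne'), hij]

theorem mem_gaussRing_of_nonneg {z : Ser} {n : ℤ} (h : X.HasOrd z n) (hn : 0 ≤ n) :
    z ∈ X.gaussRing := by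
  obtain ⟨c, a, b, ha, hb, h, hc⟩ := h
  have hcA : c ∈ X.A := by
    rw [← X.A.valuation_le_one_iff]
    refine (pow_le_one_iff (Nat.factorial_ne_zero q)).mp ?_
    rw [hc]
    obtain ⟨k, rfl⟩ := Int.eq_ofNat_of_zero_le hn
    rw [zpow_natCast]
    exact pow_le_one₀ zero_le X.q_lt_one.le
  refine ⟨⟨(HahnSeries.C c : Ser) * (a : Ser), fun i => ?_⟩, b, hb, h⟩
  rw [HahnSeries.C_mul_eq_smul, HahnSeries.coeff_smul, smul_eq_mul]
  exact X.A.mul_mem _ _ hcA (a.2 i)

theorem hasOrd_zero_iff {z : Ser} {n : ℤ} (h : X.HasOrd z n) :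
    n = 0 ↔ ∃ hz : z ∈ X.gaussRing, X.gaussRes ⟨z, hz⟩ ≠ 0 := by
  constructor
  · rintro rfl
    have hzg := X.mem_gaussRing_of_nonneg h le_rfl
    refine ⟨hzg, ?_⟩
    obtain ⟨c, a, b, ha, hb, h, hc⟩ := h
    rw [zpow_zero] at hc
    have hc1 : X.A.valuation c = 1 := (pow_eq_one_iff_left (Nat.factorial_ne_zero q)).mp hc
    have hcA : c ∈ X.A := (X.A.valuation_le_one_iff _).mp hc1.le
    let C' : X.intSer := ⟨(HahnSeries.C c : Ser), fun i => by
      rw [HahnSeries.C_apply, HahnSeries.coeff_single]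
      split
      · exact hcA
      · exact X.A.zero_mem⟩
    intro h0
    have h1 := X.gaussRes_spec ⟨z, hzg⟩ (C' * a) b hb h
    rw [h0, zero_mul, map_mul, eq_comm, mul_eq_zero] at h1
    rcases h1 with h1 | h1
    · have := (X.redS_eq_zero_iff C').mp h1 0
      simp [C', hc1] at this
    · exact ha h1
  · rintro ⟨hz, h0⟩
    obtain ⟨a, b, hb, hab⟩ := id hz
    have ha : X.redS a ≠ 0 := by
      rw [← X.gaussRes_spec ⟨z, hz⟩ a b hb hab]; exact mul_ne_zero h0 hb
    exact h.unique ⟨1, a, b, ha, hb, by rw [map_one, one_mul, hab], by simp⟩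

end Ctx

/-- The pairs representing the three components. -/
def kindPair [NeZero q] [Fact (1 < q)] : Option Bool → Pair q
  | some true => Pair.base q
  | some false => ⟨(some 0, none), by simp⟩
  | none => ⟨(some 0, some 1), by simp⟩

/-- The component of a pair. -/
def kindOf (P : Pair q) : Option Bool :=
  if P.1.1 = none then some true else if P.1.2 = none then some false else none

theorem exists_affPair [NeZero q] [Fact q.Prime] (P : Pair q) :
    ∃ (a : (ZMod q)ˣ) (b : ZMod q), affPair a b (kindPair (kindOf P)) = P := by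
  obtain ⟨⟨A, B⟩, hP⟩ := P
  match A, B, hP with
  | none, none, h => exact absurd rfl h
  | none, some c, _ => exact ⟨1, c, by simp [kindOf, kindPair, Pair.base, affPair, Ctx.affLine]⟩
  | some c, none, _ => exact ⟨1, c, by simp [kindOf, kindPair, affPair, Ctx.affLine]⟩
  | some c, some d, h =>
    exact ⟨Units.mk0 (d - c) (sub_ne_zero.mpr fun e => h (by rw [e])), c,
      by simp [kindOf, kindPair, affPair, Ctx.affLine]⟩

namespace Model

variable [NeZero q] [Fact q.Prime] {X : Ctx q} {M₁ : ℕ} [NeZero M₁] (G : Model X M₁)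

/-- The valuation ring of a component. -/
def V (κ : Option Bool) : ValuationSubring G.splitField where
  toSubring := X.gaussRing.comap (G.emb G.one (kindPair κ)).toRingHom
  mem_or_inv_mem' z := by
    rcases X.mem_or_inv_mem_gaussRing (G.isBounded_emb G.one (kindPair κ) z) with h | h
    · exact Or.inl h
    · right
      show G.emb G.one (kindPair κ) z⁻¹ ∈ X.gaussRing
      rwa [map_inv₀]

theorem mem_V {κ : Option Bool} {z : G.splitField} :
    z ∈ G.V κ ↔ G.emb G.one (kindPair κ) z ∈ X.gaussRing := Iff.rfl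

/-- The residue map of a component. -/
def resV (κ : Option Bool) : G.V κ →+* LaurentSeries X.k :=
  X.gaussRes.comp (((G.emb G.one (kindPair κ)).toRingHom.comp (G.V κ).subtype).codRestrict
    X.gaussRing fun z => z.2)

theorem resV_apply (κ : Option Bool) (z : G.V κ) :
    G.resV κ z = X.gaussRes ⟨G.emb G.one (kindPair κ) z, z.2⟩ := rfl

theorem resV_eq_zero_iff (κ : Option Bool) (z : G.V κ) :
    G.resV κ z = 0 ↔ (G.V κ).valuation (z : G.splitField) < 1 := by
  rw [← (G.V κ).valuation_lt_one_iff, IsLocalRing.mem_maximalIdeal, mem_nonunits_iff]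
  constructor
  · intro h hu
    exact (hu.map (G.resV κ)).ne_zero h
  · intro h
    by_contra h0
    refine h ?_
    have hz : (z : G.splitField) ≠ 0 := fun e => h0 (by
      rw [show z = 0 from Subtype.ext e, map_zero])
    have hinv : (z : G.splitField)⁻¹ ∈ G.V κ := by
      rw [mem_V, map_inv₀]
      exact X.inv_mem_of_gaussRes_ne_zero ⟨G.emb G.one (kindPair κ) z, z.2⟩
        (by rwa [← G.resV_apply κ z])
    exact IsUnit.of_mul_eq_one ⟨_, hinv⟩ (Subtype.ext (mul_inv_cancel₀ hz))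

/-- The normalised order at a component. -/
def ord (κ : Option Bool) (z : G.splitField) : ℤ :=
  open Classical in if h : z = 0 then 0 else
    (X.exists_hasOrd (G.isBounded_emb G.one (kindPair κ) z)
      ((_root_.map_ne_zero _).mpr h)).choose

theorem hasOrd_ord (κ : Option Bool) {z : G.splitField} (hz : z ≠ 0) :
    X.HasOrd (G.emb G.one (kindPair κ) z) (G.ord κ z) := by
  rw [ord, dif_neg hz]
  exact (X.exists_hasOrd (G.isBounded_emb G.one (kindPair κ) z)
    ((_root_.map_ne_zero _).mpr hz)).choose_spec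

theorem ord_eq {κ : Option Bool} {z : G.splitField} {n : ℤ} (hz : z ≠ 0)
    (h : X.HasOrd (G.emb G.one (kindPair κ) z) n) : G.ord κ z = n :=
  (G.hasOrd_ord κ hz).unique h

theorem ord_one (κ : Option Bool) : G.ord κ 1 = 0 :=
  G.ord_eq one_ne_zero (by rw [map_one]; exact X.hasOrd_one)

theorem ord_mul (κ : Option Bool) {z w : G.splitField} (hz : z ≠ 0) (hw : w ≠ 0) :
    G.ord κ (z * w) = G.ord κ z + G.ord κ w :=
  G.ord_eq (mul_ne_zero hz hw) (by rw [map_mul]; exact (G.hasOrd_ord κ hz).mul (G.hasOrd_ord κ hw))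

theorem ord_inv (κ : Option Bool) {z : G.splitField} (hz : z ≠ 0) :
    G.ord κ z⁻¹ = -G.ord κ z :=
  G.ord_eq (inv_ne_zero hz) (by rw [map_inv₀]; exact (G.hasOrd_ord κ hz).inv)

theorem ord_pow (κ : Option Bool) {z : G.splitField} (hz : z ≠ 0) (i : ℕ) :
    G.ord κ (z ^ i) = i * G.ord κ z := by
  induction i with
  | zero => rw [pow_zero, ord_one]; simp
  | succ i ih =>
    rw [pow_succ, G.ord_mul κ (pow_ne_zero i hz) hz, ih]
    push_cast
    ring

theorem ord_zpow (κ : Option Bool) {z : G.splitField} (hz : z ≠ 0) (i : ℤ) :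
    G.ord κ (z ^ i) = i * G.ord κ z := by
  rcases Int.eq_nat_or_neg i with ⟨n, rfl | rfl⟩
  · rw [zpow_natCast, G.ord_pow κ hz]
  · rw [zpow_neg, zpow_natCast, G.ord_inv κ (pow_ne_zero n hz), G.ord_pow κ hz]
    ring

theorem unit_V_of_ord_eq_zero {κ : Option Bool} {z : G.splitField} (hz : z ≠ 0)
    (h : G.ord κ z = 0) :
    ∃ hV : z ∈ G.V κ, z⁻¹ ∈ G.V κ ∧ G.resV κ ⟨z, hV⟩ ≠ 0 := by
  obtain ⟨hg, h0⟩ := (X.hasOrd_zero_iff (G.hasOrd_ord κ hz)).mp h
  refine ⟨hg, ?_, h0⟩
  rw [mem_V, map_inv₀]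
  exact X.inv_mem_of_gaussRes_ne_zero ⟨_, hg⟩ h0

/-- Twisting does not change the Gauss data. -/
theorem hasOrd_emb_of_kind {P : Pair q} {z : G.splitField} {n : ℤ}
    (h : X.HasOrd (G.emb G.one (kindPair (kindOf P)) z) n) : X.HasOrd (G.emb G.one P z) n := by
  obtain ⟨a, b, hab⟩ := exists_affPair P
  obtain ⟨c, u, v, hu, hv, h, hc⟩ := h
  have hint : ∀ s : X.intSer, X.twistSer a b (s : Ser) ∈ X.intSer ∧
      ∀ k, X.A.valuation ((X.twistSer a b (s : Ser)).coeff k) = X.A.valuation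
          ((s : Ser).coeff k) := by
    intro s
    have key : ∀ k, X.A.valuation ((X.twistSer a b (s : Ser)).coeff k) =
        X.A.valuation ((s : Ser).coeff k) := by
      intro k
      show X.A.valuation (((X.zetaU b ^ k : Qbarˣ) : Qbar) * X.sigma a ((s : Ser).coeff k)) = _
      have hζ : X.A.valuation X.ζ = 1 := (pow_eq_one_iff_left X.prime.ne_zero).mp (by
        rw [← map_pow, X.hζ.pow_eq_one, map_one])
      rw [map_mul, X.valuation_sigma (X.sigma_mem a), Units.val_zpow_eq_zpow_val, map_zpow₀]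
      show X.A.valuation (X.ζ ^ b.val) ^ k * _ = _
      rw [map_pow, hζ, one_pow, one_zpow, one_mul]
    exact ⟨fun k => by rw [← X.A.valuation_le_one_iff, key, X.A.valuation_le_one_iff]; exact s.2 k,
      key⟩
  have hne : ∀ s : X.intSer, X.redS s ≠ 0 → X.redS ⟨_, (hint s).1⟩ ≠ 0 := by
    intro s hs h0
    refine hs ((X.redS_eq_zero_iff s).mpr fun k => ?_)
    rw [← (hint s).2 k]
    exact (X.redS_eq_zero_iff _).mp h0 k
  refine ⟨X.sigma a c, ⟨_, (hint u).1⟩, ⟨_, (hint v).1⟩, hne u hu, hne v hv, ?_, ?_⟩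
  · have := congrArg (X.twistSer a b) h
    rw [map_mul, map_mul, G.twistSer_emb, hab] at this
    rw [this]
    congr 1
    show Igusa.scale (X.zetaU b) (coeffMap _ _) = _
    rw [HahnSeries.C_apply, coeffMap_single, Igusa.scale_single, zpow_zero, Units.val_one, one_mul]
    rfl
  · rw [X.valuation_sigma (X.sigma_mem a)]
    exact hc

theorem hasOrd_emb (P : Pair q) {z : G.splitField} (hz : z ≠ 0) :
    X.HasOrd (G.emb G.one P z) (G.ord (kindOf P) z) :=
  G.hasOrd_emb_of_kind (G.hasOrd_ord _ hz)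

/-- Residues are invariant under twisting. -/
theorem gaussRes_emb (P : Pair q) {z : G.splitField} (hz : z ∈ G.V (kindOf P)) :
    ∃ h : G.emb G.one P z ∈ X.gaussRing,
      X.gaussRes ⟨_, h⟩ = G.resV (kindOf P) ⟨z, hz⟩ := by
  obtain ⟨a, b, hab⟩ := exists_affPair P
  obtain ⟨u, v, hv, huv⟩ := G.mem_V.mp hz
  have hsame : ∀ s : X.intSer, ∃ hs : X.twistSer a b (s : Ser) ∈ X.intSer,
      X.redS ⟨_, hs⟩ = X.redS s := by
    intro s
    have hmem : X.twistSer a b (s : Ser) ∈ X.intSer := by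
      intro k
      show ((X.zetaU b ^ k : Qbarˣ) : Qbar) * X.sigma a ((s : Ser).coeff k) ∈ X.A
      rw [Units.val_zpow_eq_zpow_val]
      exact X.A.mul_mem _ _ (X.zpow_zeta_mem _ k).1
          ((X.sigma_mem_iff (X.sigma_mem a) _).mpr (s.2 k))
    refine ⟨hmem, ?_⟩
    ext k
    rw [Ctx.coeff_redS, Ctx.coeff_redS]
    let z1 : X.A := ⟨((X.zetaU b ^ k : Qbarˣ) : Qbar), by
      rw [Units.val_zpow_eq_zpow_val]; exact (X.zpow_zeta_mem _ k).1⟩
    let z2 : X.A := ⟨X.sigma a ((s : Ser).coeff k), (X.sigma_mem_iff (X.sigma_mem a) _).mpr (s.2 k)⟩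
    show IsLocalRing.residue X.A (z1 * z2) = _
    have h1 : IsLocalRing.residue X.A z1 = 1 := by
      rw [← map_one (IsLocalRing.residue X.A), ← sub_eq_zero, ← map_sub,
        IsLocalRing.residue_eq_zero_iff, X.A.valuation_lt_one_iff]
      show X.A.valuation (((X.zetaU b ^ k : Qbarˣ) : Qbar) - 1) < 1
      obtain ⟨i, hi⟩ : ∃ i : ℕ, ((X.zetaU b ^ k : Qbarˣ) : Qbar) = X.ζ ^ i := by
        obtain ⟨i, hi⟩ := (X.hζ.isUnit X.prime.ne_zero).exists_left_inv
        have hq : X.ζ ^ q = 1 := X.hζ.pow_eq_one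
        refine ⟨((b.val : ℤ) * k % q).toNat, ?_⟩
        rw [Units.val_zpow_eq_zpow_val]
        show (X.ζ ^ b.val) ^ k = _
        rw [← zpow_natCast X.ζ ((_ : ℤ).toNat), Int.toNat_of_nonneg
          (Int.emod_nonneg _ (by exact_mod_cast X.prime.ne_zero)), ← zpow_natCast, ← zpow_mul]
        conv_lhs => rw [← Int.emod_add_mul_ediv ((b.val : ℤ) * k) q, zpow_add₀ X.ζ_ne_zero,
          zpow_mul, zpow_natCast, hq, one_zpow, mul_one]
      rw [hi]
      have hζ1 : X.A.valuation (X.ζ - 1) < 1 := by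
        rw [← Valuation.map_neg, neg_sub]
        refine lt_of_le_of_ne ((X.A.valuation_le_one_iff _).mpr
          (X.A.toSubring.sub_mem X.A.one_mem X.ζ_mem_A)) fun h => ?_
        have := X.valuation_q_eq rfl X.hζ
        rw [h, one_pow] at this
        exact X.q_lt_one.ne this
      rw [← mul_geom_sum, map_mul]
      exact lt_of_le_of_lt (mul_le_of_le_one_right' ((X.A.valuation_le_one_iff _).mpr
        (sum_mem fun j _ => pow_mem X.ζ_mem_A j))) hζ1
    rw [map_mul, h1, one_mul]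
    rw [← sub_eq_zero, ← map_sub, IsLocalRing.residue_eq_zero_iff, X.A.valuation_lt_one_iff]
    show X.A.valuation (X.sigma a ((s : Ser).coeff k) - (s : Ser).coeff k) < 1
    have := X.fixedData.res_fixed _ (X.sigma_mem a) _ (X.fixedData_A.symm ▸ s.2 k)
    rwa [X.fixedData_A] at this
  obtain ⟨hu', hu1⟩ := hsame u
  obtain ⟨hv', hv1⟩ := hsame v
  have e : G.emb G.one P z * X.twistSer a b (v : Ser) = X.twistSer a b (u : Ser) := by
    rw [← huv, map_mul, G.twistSer_emb, hab]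
  have hmem : G.emb G.one P z ∈ X.gaussRing := ⟨⟨_, hu'⟩, ⟨_, hv'⟩, by rw [hv1]; exact hv, e⟩
  refine ⟨hmem, mul_right_cancel₀ hv ?_⟩
  rw [G.resV_apply]
  refine Eq.trans ?_
      (X.gaussRes_spec ⟨G.emb G.one (kindPair (kindOf P)) z, G.mem_V.mp hz⟩ u v hv huv).symm
  conv_lhs => arg 2; rw [← hv1]
  rw [X.gaussRes_spec ⟨_, hmem⟩ ⟨_, hu'⟩ ⟨_, hv'⟩ (by rw [hv1]; exact hv) e, hu1]

end Model

end FLTAgent.CarayolSquare
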