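import Fermat.Agent.CarayolSquare.Geometry.Gauss

/-!
# Orders of norms to the line fields

Norms to the line fields evaluated along any pair (`emb_norm_LF`), and the resulting relations
between the orders at the three components (`exists_ord_congr`).
-/

set_option autoImplicit false

noncomputable section

open ModularCurve

namespace FLTAgent.CarayolSquare

local notation "Qbar" => AlgebraicClosure ℚ

variable {q : ℕ}

namespace Ctx

variable {X : Ctx q}

theorem HasOrd.prod {ι : Type*} (s : Finset ι) {z : ι → Ser} {n : ι → ℤ}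
    (h : ∀ i ∈ s, X.HasOrd (z i) (n i)) : X.HasOrd (∏ i ∈ s, z i) (∑ i ∈ s, n i) := by
  classical
  induction s using Finset.induction_on with
  | empty => simpa using X.hasOrd_one
  | insert a s ha ih =>
    rw [Finset.prod_insert ha, Finset.sum_insert ha]
    exact (h a (Finset.mem_insert_self a s)).mul (ih fun i hi => h i (Finset.mem_insert_of_mem hi))

variable (X)

theorem hasOrd_C {c : Qbar} {n : ℤ}
    (h : X.A.valuation c ^ q.factorial = X.A.valuation (q : Qbar) ^ n) :
    X.HasOrd (HahnSeries.C c) n :=
  ⟨c, 1, 1, by rw [map_one]; exact one_ne_zero, by rw [map_one]; exact one_ne_zero, by simp, h⟩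

end Ctx

variable [NeZero q] [Fact q.Prime]

theorem kindOf_kindPair (κ : Option Bool) : kindOf (kindPair (q := q) κ) = κ := by
  rcases κ with _ | _ | _ <;> simp [kindOf, kindPair, Pair.base]

omit [Fact q.Prime] in
/-- The product of a function of the components over the pairs with a given line. -/
theorem prod_fibre {R : Type*} [CommMonoid R] (b : Bool) (L : Line q) (o : Option Bool → R) :
    ∏ P : {P : Pair q // P.line b = L}, o (kindOf P.1) =
      if L = none then o (some b) ^ q else o (some !b) * o none ^ (q - 1) := by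
  classical
  have hcard : (Finset.univ : Finset {P : Pair q // P.line b = L}).card = q := by
    rw [Finset.card_univ, card_fibre]
  cases L with
  | none =>
    rw [if_pos rfl, Finset.prod_congr rfl (g := fun _ => o (some b)), Finset.prod_const, hcard]
    rintro ⟨⟨⟨A, B⟩, hP⟩, hL⟩ -
    cases b
    · simp only [Pair.line, Bool.false_eq_true, ↓reduceIte] at hL
      subst hL
      simp [kindOf, hP]
    · simp only [Pair.line, ↓reduceIte] at hL
      subst hL
      simp [kindOf]
  | some c =>
    rw [if_neg (Option.some_ne_none c)]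
    let P₀ : {P : Pair q // P.line b = some c} :=
      ⟨if b then ⟨(some c, none), by simp⟩ else ⟨(none, some c), by simp⟩, by cases b <;> rfl⟩
    have h0 : o (kindOf P₀.1) = o (some !b) := by cases b <;> simp [P₀, kindOf]
    rw [← Finset.mul_prod_erase _ _ (Finset.mem_univ P₀), h0,
      Finset.prod_congr rfl (g := fun _ => o none), Finset.prod_const,
      Finset.card_erase_of_mem (Finset.mem_univ P₀), hcard]
    intro P hP
    have hne : P ≠ P₀ := Finset.ne_of_mem_erase hP
    obtain ⟨⟨⟨A, B⟩, hAB⟩, hL⟩ := P
    cases b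
    · simp only [Pair.line, Bool.false_eq_true, ↓reduceIte] at hL
      subst hL
      cases A with
      | none => exact absurd rfl hne
      | some a => simp [kindOf]
    · simp only [Pair.line, ↓reduceIte] at hL
      subst hL
      cases B with
      | none => exact absurd rfl hne
      | some a => simp [kindOf]

omit [Fact (Nat.Prime q)] in
/-- The sum of a function of the components over the pairs with a given first or second line. -/
theorem sum_fibre (b : Bool) (L : Line q) (o : Option Bool → ℤ) :
    ∑ P : {P : Pair q // P.line b = L}, o (kindOf P.1) =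
      if L = none then (q : ℤ) * o (some b) else o (some !b) + ((q : ℤ) - 1) * o none := by
  refine Multiplicative.ofAdd.injective ?_
  rw [ofAdd_sum, prod_fibre b L fun κ => Multiplicative.ofAdd (o κ)]
  refine Multiplicative.toAdd.injective ?_
  split_ifs <;> simp [toAdd_pow, Nat.cast_sub (NeZero.one_le : 1 ≤ q), mul_comm]

namespace Model

variable {X : Ctx q} {M₁ : ℕ} [NeZero M₁] (G : Model X M₁)

omit [Fact (Nat.Prime q)] in
/-- The norm to a line field, read along any pair. -/
theorem emb_norm_LF (b : Bool) (P₀ : Pair q) (z : G.splitField) :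
    G.emb G.one P₀ (Algebra.norm (G.LF b) z : G.splitField) =
      ∏ Q : {Q : Pair q // Q.line b = P₀.line b}, G.emb G.one Q.1 z := by
  classical
  let e : G.LF b →+* BigF :=
    ((algebraMap Ser BigF).comp (G.emb G.one P₀).toRingHom).comp (algebraMap (G.LF b) G.splitField)
  let : Algebra (G.LF b) BigF := e.toAlgebra
  let σ : {Q : Pair q // Q.line b = P₀.line b} → (G.splitField →ₐ[G.LF b] BigF) := fun Q =>
    { (algebraMap Ser BigF).comp (G.emb G.one Q.1).toRingHom with
      commutes' := fun w => by
        show algebraMap Ser BigF (G.emb G.one Q.1 (w : G.splitField)) = e w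
        rw [G.emb_LF_eq G.one b Q.2 w.2]
        rfl }
  have hσ : Function.Injective σ := fun Q Q' h =>
    Subtype.ext (G.line_injective G.one rfl fun b' => (algebraMap Ser BigF).injective
      (DFunLike.congr_fun h (G.gen b' (.pull G.h))))
  refine (algebraMap Ser BigF).injective ?_
  rw [map_prod]
  exact norm_eq_prod_of_bijective
    (bijective_of_finrank_le hσ (by rw [card_fibre]; exact G.finrank_LF_le b)) z

theorem ord_norm_LF (b : Bool) (P₀ : Pair q) {z : G.splitField} (hz : z ≠ 0) :
    G.ord (kindOf P₀) (Algebra.norm (G.LF b) z : G.splitField) =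
      if P₀.line b = none then (q : ℤ) * G.ord (some b) z
      else G.ord (some !b) z + ((q : ℤ) - 1) * G.ord none z := by
  classical
  have hN : (Algebra.norm (G.LF b) z : G.splitField) ≠ 0 := by
    have h := (Algebra.norm_ne_zero_iff (R := G.LF b)).mpr hz
    exact fun h0 => h (Subtype.ext h0)
  rw [← sum_fibre b (P₀.line b) (fun κ => G.ord κ z)]
  refine (G.hasOrd_emb P₀ hN).unique ?_
  rw [G.emb_norm_LF b P₀ z]
  exact Ctx.HasOrd.prod _ fun Q _ => G.hasOrd_emb Q.1 hz

/-- The common order of a constant. -/
theorem ord_algebraMap (κ κ' : Option Bool) (c : X.K) :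
    G.ord κ (algebraMap X.K G.splitField c) = G.ord κ' (algebraMap X.K G.splitField c) := by
  rcases eq_or_ne c 0 with rfl | hc
  · simp [ord]
  have h0 : algebraMap X.K G.splitField c ≠ 0 := (_root_.map_ne_zero _).mpr hc
  refine G.ord_eq h0 ?_
  have h := G.hasOrd_ord κ' h0
  rwa [AlgHom.commutes] at h ⊢

theorem exists_ord_algebraMap {c : X.K} (hc : c ≠ 0) :
    ∃ i : ℤ, X.A.valuation (algebraMap X.K Qbar c) = X.A.valuation (q : Qbar) ^ i ∧
      ∀ κ, G.ord κ (algebraMap X.K G.splitField c) = i * q.factorial := by
  obtain ⟨i, j, hij⟩ := X.exists_valuation_eq_pow c hc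
  have hv : X.A.valuation (algebraMap X.K Qbar c) = X.A.valuation (q : Qbar) ^ ((j : ℤ) - i) := by
    rw [zpow_sub₀ X.v_q_pos.ne', zpow_natCast, zpow_natCast,
      eq_div_iff (pow_ne_zero i X.v_q_pos.ne'), hij]
  refine ⟨(j : ℤ) - i, hv, fun κ => G.ord_eq ((_root_.map_ne_zero _).mpr hc) ?_⟩
  rw [AlgHom.commutes, IsScalarTower.algebraMap_apply X.K Qbar Ser,
    algebraMap_laurentSeries_eq_single, ← HahnSeries.C_apply]
  refine X.hasOrd_C ?_
  rw [hv, ← zpow_natCast, ← zpow_mul]

theorem ord_natCast (κ : Option Bool) :
    G.ord κ (q : G.splitField) = q.factorial := by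
  have h0 : (q : X.K) ≠ 0 := Nat.cast_ne_zero.mpr X.prime.ne_zero
  refine G.ord_eq (Nat.cast_ne_zero.mpr X.prime.ne_zero) ?_
  rw [map_natCast, ← map_natCast (HahnSeries.C : Qbar →+* Ser)]
  exact X.hasOrd_C (by simp)

/-- `m`-th power norms force congruences between the orders. -/
theorem exists_ord_congr (b : Bool) {m : ℕ} {f : G.splitField} (hf : f ≠ 0) {c : X.K}
    {g : G.splitField} (h : (Algebra.norm (G.LF b) f : G.splitField) =
      algebraMap X.K G.splitField c * g ^ m) :
    ∃ l : ℤ, (q : ℤ) * G.ord (some b) f -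
      (G.ord (some !b) f + ((q : ℤ) - 1) * G.ord none f) = m * l := by
  have hN : (Algebra.norm (G.LF b) f : G.splitField) ≠ 0 := by
    have h1 := (Algebra.norm_ne_zero_iff (R := G.LF b)).mpr hf
    exact fun h0 => h1 (Subtype.ext h0)
  rw [h] at hN
  rcases Nat.eq_zero_or_pos m with rfl | hm
  · refine ⟨0, ?_⟩
    have e1 := G.ord_norm_LF b (kindPair (some b)) hf
    have e2 := G.ord_norm_LF b (kindPair none) hf
    rw [kindOf_kindPair, if_pos (by cases b <;> rfl), h, pow_zero, mul_one] at e1
    rw [kindOf_kindPair, if_neg (by cases b <;> simp [kindPair, Pair.line]), h, pow_zero, mul_one,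
      G.ord_algebraMap none (some b)] at e2
    rw [← e1, e2]
    ring
  have hc : algebraMap X.K G.splitField c ≠ 0 := left_ne_zero_of_mul hN
  have hg : g ≠ 0 := ne_zero_pow hm.ne' (right_ne_zero_of_mul hN)
  refine ⟨G.ord (some b) g - G.ord none g, ?_⟩
  have e1 := G.ord_norm_LF b (kindPair (some b)) hf
  have e2 := G.ord_norm_LF b (kindPair none) hf
  rw [kindOf_kindPair, if_pos (by cases b <;> rfl), h, G.ord_mul _ hc (pow_ne_zero m hg),
    G.ord_pow _ hg] at e1
  rw [kindOf_kindPair, if_neg (by cases b <;> simp [kindPair, Pair.line]), h,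
    G.ord_mul _ hc (pow_ne_zero m hg), G.ord_pow _ hg, G.ord_algebraMap none (some b)] at e2
  rw [← e1, ← e2]
  ring

end Model

end FLTAgent.CarayolSquare
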