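import Fermat.Agent.CarayolSquare.Geometry.SeriesMod
import Fermat.Agent.CarayolSquare.Geometry.Finite

/-!
# Closed points of the special fibre

`Point` is a closed point of a chart, `GlueAt` the gluing of roots of residues there.  The three
local gluing statements `GlueOrdinary`, `GlueSupersingular` and `GlueCusps` are defined here and
proved in the directories `Ordinary`, `Supersingular` and `Cusps`.
-/

set_option autoImplicit false

noncomputable section

namespace FLTAgent.CarayolSquare

variable {q : ℕ} [NeZero q] [Fact q.Prime]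

namespace Model

variable {X : Ctx q} {M₁ : ℕ} [NeZero M₁] (G : Model X M₁)

/-- Functions integral over `O[u]`. -/
def uChart (u : G.splitField) : Subring G.splitField := intSet X.O ({u} : Set G.splitField)

/-- Functions integral over `O[h, 1/D]`. -/
def openChart : Subring G.splitField :=
  intSet X.O ({G.baseHom G.h, G.baseHom G.Dinv} : Set G.splitField)

omit [NeZero q] [Fact (Nat.Prime q)] in
/-- The generators of the base ring lie in `C`. -/
theorem hRing_le_C : G.hRing ≤ G.C := Algebra.adjoin_le (by
  rintro z (rfl | rfl)
  · exact G.h.2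
  · exact G.Dinv.2)

/-- A point of the special fibre: a homomorphism to the residue field extending reduction. -/
structure Point (B : Subring G.splitField) where
  φ : B →+* X.k
  const : ∀ (c : X.O) (z : B), (z : G.splitField) = algebraMap X.O G.splitField c → φ z = X.resK c

/-- The coordinates `1/h`, `h - a` vanishing at cusps. -/
def IsCuspCoord (u : G.splitField) : Prop :=
  u = (G.baseHom G.h)⁻¹ ∨ ∃ a ∈ G.roots, u = G.baseHom G.h - algebraMap X.O G.splitField a

variable {G}

/-- The roots `r` of the residues of `Φ` glue at a point. -/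
def GlueAt (m : ℕ) (Φ : G.splitField) (r : Option Bool → LaurentSeries X.k) (j : ℕ)
    {B : Subring G.splitField} (φ : B →+* X.k) : Prop :=
  ∃ s₀ : B, φ s₀ ≠ 0 ∧ ∃ y : G.splitField, y ^ m * Φ ^ j ∈ B ∧
    ∀ κ, G.red κ y * r κ ^ j = G.red κ s₀

/-- The roots of the residues of a balanced function glue at a point. -/
def GlueOn {m : ℕ} (β : G.Balanced m) (j : ℕ) {B : Subring G.splitField} (φ : B →+* X.k) : Prop :=
  GlueAt m (β.f ^ gluePow q) β.groot j φ

variable (G)

/-- The value of the Hasse invariant at a point of the open chart vanishes. -/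
def Supersingular (P : G.Point G.openChart) : Prop :=
  ∀ z : G.openChart, (z : G.splitField) = G.baseHom G.hasse → P.φ z = 0

/-- Gluing at ordinary points. -/
def GlueOrdinary : Prop :=
  ∀ (m : ℕ), 0 < m → ¬ q ∣ m → ∀ (β : G.Balanced m) (P : G.Point G.openChart),
    ¬ G.Supersingular P → ∀ j < m, GlueOn β j P.φ

/-- Gluing at supersingular points. -/
def GlueSupersingular : Prop :=
  ∀ (m : ℕ), 0 < m → ¬ q ∣ m → ∀ (β : G.Balanced m) (P : G.Point G.openChart),
    G.Supersingular P → ∀ j < m, GlueOn β j P.φ

/-- Gluing at cusps. -/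
def GlueCusps : Prop :=
  ∀ (m : ℕ), 0 < m → ¬ q ∣ m → ∀ (β : G.Balanced m) (u : G.splitField), G.IsCuspCoord u →
    ∀ P : G.Point (G.uChart u),
      (∀ z : G.uChart u, (z : G.splitField) = u → P.φ z = 0) → ∀ j < m, GlueOn β j P.φ

end Model

end FLTAgent.CarayolSquare
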