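import Fermat.Agent.CarayolSquare.Geometry.Norms
import Fermat.Agent.CarayolSquare.Geometry.Charts
import Mathlib.Algebra.CharP.Lemmas
import Mathlib.Algebra.Polynomial.Expand

/-!
# Residues at the three components

The residue maps `red` on constants, base functions and norms (`red_norm_LF`), the units of order
zero `Unit0`, and the field `InBase` of residues of base functions.
-/

set_option autoImplicit false

noncomputable section

open ModularCurve

namespace FLTAgent.CarayolSquare

local notation "Qbar" => AlgebraicClosure ℚ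

variable {q : ℕ}

theorem Ctx.natCast_k (X : Ctx q) : (q : X.k) = 0 := by
  rw [← map_natCast (IsLocalRing.residue X.A), IsLocalRing.residue_eq_zero_iff,
    X.A.valuation_lt_one_iff]
  push_cast
  exact X.q_lt_one

theorem Ctx.charP_serk (X : Ctx q) : CharP (LaurentSeries X.k) q :=
  (CharP.charP_iff_prime_eq_zero X.prime).mpr (by
    rw [← map_natCast (HahnSeries.C : X.k →+* LaurentSeries X.k), X.natCast_k, map_zero])

/-- The residue of a constant. -/
def Ctx.resK (X : Ctx q) : X.O →+* X.k :=
  (IsLocalRing.residue X.A).comp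
    (((algebraMap X.K Qbar).comp X.O.subtype).codRestrict X.A.toSubring fun c => c.2)

theorem Ctx.resK_surjective (X : Ctx q) : Function.Surjective X.resK := by
  intro r
  obtain ⟨a, rfl⟩ := IsLocalRing.residue_surjective r
  obtain ⟨c, hc⟩ := X.res_surj a a.2
  refine ⟨c, ?_⟩
  refine (sub_eq_zero.mp ?_).symm
  show IsLocalRing.residue X.A a - IsLocalRing.residue X.A _ = 0
  rw [← map_sub, IsLocalRing.residue_eq_zero_iff, X.A.valuation_lt_one_iff]
  exact hc

variable [NeZero q] [Fact q.Prime]

namespace Model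

variable {X : Ctx q} {M₁ : ℕ} [NeZero M₁] (G : Model X M₁)

open Classical in
/-- The residue at a component, extended by zero. -/
def red (κ : Option Bool) (z : G.splitField) : LaurentSeries X.k :=
  if h : z ∈ G.V κ then G.resV κ ⟨z, h⟩ else 0

theorem red_eq {κ : Option Bool} {z : G.splitField} (h : z ∈ G.V κ) :
    G.red κ z = G.resV κ ⟨z, h⟩ := dif_pos h

theorem red_mul {κ : Option Bool} {z w : G.splitField} (hz : z ∈ G.V κ) (hw : w ∈ G.V κ) :
    G.red κ (z * w) = G.red κ z * G.red κ w := by
  rw [G.red_eq hz, G.red_eq hw, G.red_eq (mul_mem hz hw), ← map_mul]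
  rfl

theorem red_add {κ : Option Bool} {z w : G.splitField} (hz : z ∈ G.V κ) (hw : w ∈ G.V κ) :
    G.red κ (z + w) = G.red κ z + G.red κ w := by
  rw [G.red_eq hz, G.red_eq hw, G.red_eq (add_mem hz hw), ← map_add]
  rfl

theorem red_sub {κ : Option Bool} {z w : G.splitField} (hz : z ∈ G.V κ) (hw : w ∈ G.V κ) :
    G.red κ (z - w) = G.red κ z - G.red κ w := by
  rw [G.red_eq hz, G.red_eq hw, G.red_eq (sub_mem hz hw), ← map_sub]
  rfl

theorem red_one (κ : Option Bool) : G.red κ 1 = 1 := by
  rw [G.red_eq (one_mem _)]; exact map_one _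

theorem red_zero (κ : Option Bool) : G.red κ 0 = 0 := by
  rw [G.red_eq (zero_mem _)]; exact map_zero _

theorem red_pow {κ : Option Bool} {z : G.splitField} (hz : z ∈ G.V κ) (i : ℕ) :
    G.red κ (z ^ i) = G.red κ z ^ i := by
  rw [G.red_eq hz, G.red_eq (pow_mem hz i), ← map_pow]
  rfl

theorem red_eq_zero_iff {κ : Option Bool} {z : G.splitField} (hz : z ∈ G.V κ) :
    G.red κ z = 0 ↔ (G.V κ).valuation z < 1 := by
  rw [G.red_eq hz]; exact G.resV_eq_zero_iff κ ⟨z, hz⟩

/-- A unit at the three components. -/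
structure Unit0 (z : G.splitField) : Prop where
  ne_zero : z ≠ 0
  ord_eq : ∀ κ, G.ord κ z = 0

variable {G}

theorem Unit0.mem {z : G.splitField} (h : G.Unit0 z) (κ : Option Bool) : z ∈ G.V κ :=
  (G.unit_V_of_ord_eq_zero h.ne_zero (h.ord_eq κ)).1

theorem Unit0.inv_mem {z : G.splitField} (h : G.Unit0 z) (κ : Option Bool) : z⁻¹ ∈ G.V κ :=
  (G.unit_V_of_ord_eq_zero h.ne_zero (h.ord_eq κ)).2.1

theorem Unit0.red_ne_zero {z : G.splitField} (h : G.Unit0 z) (κ : Option Bool) :
    G.red κ z ≠ 0 := by
  rw [G.red_eq (h.mem κ)]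
  exact (G.unit_V_of_ord_eq_zero h.ne_zero (h.ord_eq κ)).2.2

theorem Unit0.mul {z w : G.splitField} (h : G.Unit0 z) (h' : G.Unit0 w) : G.Unit0 (z * w) :=
  ⟨mul_ne_zero h.ne_zero h'.ne_zero, fun κ => by
    rw [G.ord_mul κ h.ne_zero h'.ne_zero, h.ord_eq, h'.ord_eq, add_zero]⟩

theorem Unit0.inv {z : G.splitField} (h : G.Unit0 z) : G.Unit0 z⁻¹ :=
  ⟨inv_ne_zero h.ne_zero, fun κ => by rw [G.ord_inv κ h.ne_zero, h.ord_eq, neg_zero]⟩

theorem Unit0.pow {z : G.splitField} (h : G.Unit0 z) (i : ℕ) : G.Unit0 (z ^ i) :=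
  ⟨pow_ne_zero i h.ne_zero, fun κ => by rw [G.ord_pow κ h.ne_zero, h.ord_eq, mul_zero]⟩

theorem unit0_of_red {z : G.splitField} (h : ∀ κ, z ∈ G.V κ ∧ G.red κ z ≠ 0) : G.Unit0 z := by
  have hz : z ≠ 0 := fun h0 => (h none).2 (by rw [h0, G.red_zero])
  refine ⟨hz, fun κ => ?_⟩
  have h1 := (h κ).2
  rw [G.red_eq (h κ).1, G.resV_apply] at h1
  exact (X.hasOrd_zero_iff (G.hasOrd_ord κ hz)).mpr ⟨(h κ).1, h1⟩

variable (G)

theorem emb_red (P : Pair q) {z : G.splitField} (hz : z ∈ G.V (kindOf P)) :
    ∃ h : G.emb G.one P z ∈ X.gaussRing, X.gaussRes ⟨_, h⟩ = G.red (kindOf P) z := by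
  rw [G.red_eq hz]
  exact G.gaussRes_emb P hz

theorem emb_algebraMap (P : Pair q) (c : X.O) :
    G.emb G.one P (algebraMap X.O G.splitField c) = algebraMap X.O Ser c :=
  (G.embO G.one P).commutes c

omit [NeZero q] [Fact (Nat.Prime q)] in
theorem algebraMap_mem_intSer (c : X.O) : algebraMap X.O Ser c ∈ X.intSer := by
  intro n
  rw [X.algebraMap_eq_C, HahnSeries.C_apply, HahnSeries.coeff_single]
  split
  · exact c.2
  · exact X.A.zero_mem

theorem algebraMap_mem_V (κ : Option Bool) (c : X.O) : algebraMap X.O G.splitField c ∈ G.V κ := by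
  rw [mem_V, emb_algebraMap]
  exact X.intSer_le_gaussRing (algebraMap_mem_intSer c)

theorem red_of_emb {κ : Option Bool} {z : G.splitField} (g : X.gaussRing)
    (h : G.emb G.one (kindPair κ) z = (g : Ser)) : z ∈ G.V κ ∧ G.red κ z = X.gaussRes g := by
  have hV : z ∈ G.V κ := by rw [mem_V, h]; exact g.2
  refine ⟨hV, ?_⟩
  rw [G.red_eq hV, G.resV_apply]
  exact congrArg X.gaussRes (Subtype.ext h)

theorem red_algebraMap (κ : Option Bool) (c : X.O) :
    G.red κ (algebraMap X.O G.splitField c) = HahnSeries.C (X.resK c) := by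
  rw [(G.red_of_emb (κ := κ) ⟨((⟨_, algebraMap_mem_intSer c⟩ : X.intSer) : Ser),
      X.intSer_le_gaussRing (algebraMap_mem_intSer c)⟩ (G.emb_algebraMap _ c)).2]
  rw [X.gaussRes_of_intSer]
  ext n
  rw [Ctx.coeff_redS, HahnSeries.C_apply, HahnSeries.coeff_single]
  have hc : ((⟨_, algebraMap_mem_intSer c⟩ : X.intSer) : Ser).coeff n =
      if n = 0 then algebraMap X.K Qbar (c : X.K) else 0 := by
    show (algebraMap X.O Ser c).coeff n = _
    rw [X.algebraMap_eq_C, HahnSeries.C_apply, HahnSeries.coeff_single]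
    split_ifs <;> rfl
  split_ifs with h
  · subst h
    rw [if_pos rfl] at hc
    exact congrArg (IsLocalRing.residue X.A) (Subtype.ext hc)
  · rw [if_neg h] at hc
    rw [show (⟨_, _⟩ : X.A) = 0 from Subtype.ext hc, map_zero]

theorem red_natCast_q (κ : Option Bool) : G.red κ (q : G.splitField) = 0 := by
  rw [← map_natCast (algebraMap X.O G.splitField), G.red_algebraMap, map_natCast, X.natCast_k,
    map_zero]

/-- A base function has the same residue at the three components. -/
theorem red_B₀ {β : G.splitField} (hβ : β ∈ G.B₀) {κ : Option Bool} (hV : β ∈ G.V κ)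
    (κ' : Option Bool) : β ∈ G.V κ' ∧ G.red κ' β = G.red κ β := by
  have e := G.emb_B₀_eq G.one (kindPair κ') (kindPair κ) hβ
  have h' : β ∈ G.V κ' := by
    rw [mem_V, e]; exact hV
  refine ⟨h', ?_⟩
  rw [G.red_eq h', G.red_eq hV, G.resV_apply, G.resV_apply]
  exact congrArg X.gaussRes (Subtype.ext e)

/-- A function of one line has the same residue at the two components with that line affine. -/
theorem red_LF (b : Bool) {z : G.splitField} (hz : z ∈ G.LF b)
    (hV : z ∈ G.V none) (hV' : z ∈ G.V (some !b)) : G.red (some !b) z = G.red none z := by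
  let P : Pair q := ⟨if b then (some 0, some 1) else (some 1, some 0), by cases b <;> simp⟩
  have hP : kindOf P = none := by cases b <;> simp [P, kindOf]
  have hQ : kindOf (kindPair (q := q) (some !b)) = some !b := kindOf_kindPair _
  obtain ⟨h1, e1⟩ := G.emb_red P (z := z) (hP.symm ▸ hV)
  obtain ⟨h2, e2⟩ := G.emb_red (kindPair (some !b)) (z := z) (hQ.symm ▸ hV')
  rw [hP] at e1
  rw [hQ] at e2
  rw [← e1, ← e2]
  refine congrArg X.gaussRes (Subtype.ext (G.emb_LF_eq G.one b ?_ hz))
  cases b <;> rfl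

/-- Residues of norms to a line field. -/
theorem red_norm_LF (b : Bool) {z : G.splitField} (hz : G.Unit0 z) :
    G.Unit0 (Algebra.norm (G.LF b) z : G.splitField) ∧
      G.red (some b) (Algebra.norm (G.LF b) z : G.splitField) = G.red (some b) z ^ q ∧
      G.red none (Algebra.norm (G.LF b) z : G.splitField) =
        G.red (some !b) z * G.red none z ^ (q - 1) := by
  classical
  have key : ∀ κ, (Algebra.norm (G.LF b) z : G.splitField) ∈ G.V κ ∧
      G.red κ (Algebra.norm (G.LF b) z : G.splitField) =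
        if (kindPair (q := q) κ).line b = none then G.red (some b) z ^ q
        else G.red (some !b) z * G.red none z ^ (q - 1) := by
    intro κ
    choose hm he using fun Q : {Q : Pair q // Q.line b = (kindPair κ).line b} =>
      G.emb_red Q.1 (hz.mem (kindOf Q.1))
    have hprod : (∏ Q, (⟨_, hm Q⟩ : X.gaussRing) : X.gaussRing) =
        (G.emb G.one (kindPair κ) (Algebra.norm (G.LF b) z : G.splitField) : Ser) := by
      rw [G.emb_norm_LF b (kindPair κ) z]
      exact map_prod X.gaussRing.subtype _ _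
    have hV : (Algebra.norm (G.LF b) z : G.splitField) ∈ G.V κ := by
      rw [mem_V, ← hprod]; exact Subtype.coe_prop _
    refine ⟨hV, ?_⟩
    rw [(G.red_of_emb (κ := κ) (∏ Q, (⟨_, hm Q⟩ : X.gaussRing)) hprod.symm).2,
      ← prod_fibre b _ (fun κ' => G.red κ' z), map_prod]
    exact Finset.prod_congr rfl fun Q _ => he Q
  refine ⟨unit0_of_red fun κ => ⟨(key κ).1, ?_⟩, ?_, ?_⟩
  · rw [(key κ).2]
    split
    · exact pow_ne_zero _ (hz.red_ne_zero _)
    · exact mul_ne_zero (hz.red_ne_zero _) (pow_ne_zero _ (hz.red_ne_zero _))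
  · rw [(key (some b)).2, if_pos]
    cases b <;> rfl
  · rw [(key none).2, if_neg]
    cases b <;> simp [kindPair, Pair.line]

/-! ### Coefficients of characteristic polynomials -/

omit [Fact (Nat.Prime q)] in
theorem exists_coeff (z : G.splitField) : ∃ a : ℕ → G.C, ∃ d : G.C, G.baseHom d ≠ 0 ∧
    ∀ (n : ℕ) (P₀ : Pair q), G.emb G.one P₀ (G.baseHom (a n) / G.baseHom d) =
      (∏ P : Pair q, (Polynomial.X - Polynomial.C (G.emb G.one P z))).coeff n := by
  classical
  obtain ⟨a, b, hb, hab⟩ := G.exists_rep z.2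
  obtain ⟨P, hP⟩ := G.exists_prod_descend a b
  set Q := ∏ P : Pair q, (Polynomial.X - Polynomial.C (G.emb G.one P z)) with hQ
  set lead := ∏ P : Pair q, G.evP G.one P b with hlead
  have hl : lead ≠ 0 := Finset.prod_ne_zero_iff.mpr fun P' _ => G.evP_ne_zero G.one P' hb
  have hprod : P.map (X.up.comp (G.cs G.one).toRingHom) = Polynomial.C lead * Q := by
    rw [hP, hlead, hQ, map_prod, ← Finset.prod_mul_distrib]
    refine Finset.prod_congr rfl fun P' _ => ?_
    rw [mul_sub, ← map_mul, mul_comm (G.evP G.one P' b) (G.emb G.one P' z),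
      G.emb_spec G.one P' z hb hab]
  have hQm : Q.Monic := Polynomial.monic_prod_of_monic _ _ fun _ _ => Polynomial.monic_X_sub_C _
  have hc : ∀ n, X.up (G.cs G.one (P.coeff n)) = lead * Q.coeff n := by
    intro n
    have := congrArg (fun T => Polynomial.coeff T n) hprod
    simp only [Polynomial.coeff_map, Polynomial.coeff_C_mul, RingHom.comp_apply] at this
    exact this
  refine ⟨P.coeff, P.coeff Q.natDegree, ?_, fun n P₀ => ?_⟩
  · intro h
    have h1 : (G.baseHom (P.coeff Q.natDegree) : Ser) = 0 := by rw [h]; rfl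
    rw [G.coe_baseHom, ← G.cs_one, hc, hQm.coeff_natDegree, mul_one] at h1
    exact hl h1
  · rw [map_div₀, G.emb_baseHom, G.emb_baseHom, hc, hc, hQm.coeff_natDegree, mul_one,
      mul_div_cancel_left₀ _ hl]

/-! ### Residues of base functions -/

/-- The residues of base functions. -/
def InBase (r : LaurentSeries X.k) : Prop :=
  ∃ β ∈ G.B₀, β ∈ G.V none ∧ G.red none β = r

variable {G}

theorem InBase.mul {r s : LaurentSeries X.k} (h : G.InBase r) (h' : G.InBase s) :
    G.InBase (r * s) := by
  obtain ⟨β, hβ, hβV, rfl⟩ := h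
  obtain ⟨γ, hγ, hγV, rfl⟩ := h'
  exact ⟨β * γ, mul_mem hβ hγ, mul_mem hβV hγV, G.red_mul hβV hγV⟩

theorem InBase.inv {r : LaurentSeries X.k} (h : G.InBase r) : G.InBase r⁻¹ := by
  obtain ⟨β, hβ, hβV, rfl⟩ := h
  rcases eq_or_ne (G.red none β) 0 with h0 | h0
  · exact ⟨β, hβ, hβV, by rw [h0, inv_zero]⟩
  · have hu : G.Unit0 β := unit0_of_red fun κ =>
      ⟨(G.red_B₀ hβ hβV κ).1, by rw [(G.red_B₀ hβ hβV κ).2]; exact h0⟩
    refine ⟨β⁻¹, inv_mem hβ, hu.inv_mem none, ?_⟩
    refine eq_inv_of_mul_eq_one_left ?_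
    rw [← G.red_mul (hu.inv_mem none) hβV, inv_mul_cancel₀ hu.ne_zero, G.red_one]

theorem InBase.pow {r : LaurentSeries X.k} (h : G.InBase r) (i : ℕ) : G.InBase (r ^ i) := by
  obtain ⟨β, hβ, hβV, rfl⟩ := h
  exact ⟨β ^ i, pow_mem hβ i, pow_mem hβV i, G.red_pow hβV i⟩

theorem InBase.exists_lift {r : LaurentSeries X.k} (h : G.InBase r) (κ : Option Bool) :
    ∃ β ∈ G.B₀, ∃ hV : β ∈ G.V κ, G.resV κ ⟨β, hV⟩ = r := by
  obtain ⟨β, hβ, hβV, rfl⟩ := h
  refine ⟨β, hβ, (G.red_B₀ hβ hβV κ).1, ?_⟩
  rw [← G.red_eq, (G.red_B₀ hβ hβV κ).2]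

variable (G)

theorem inBase_const (c : X.k) : G.InBase (HahnSeries.C c) := by
  obtain ⟨c, rfl⟩ := X.resK_surjective c
  exact ⟨algebraMap X.O G.splitField c, G.B₀.algebraMap_mem (c : X.K), G.algebraMap_mem_V none c,
    G.red_algebraMap none c⟩

/-- `q`-th, resp. `q²`-th powers of the residues of a function of one line are residues of base
functions. -/
theorem inBase_LF (b : Bool) {z : G.splitField} (hz : z ∈ G.LF b) (hu : G.Unit0 z) :
    G.InBase (G.red (some b) z ^ q) ∧ G.InBase (G.red none z ^ q ^ 2) := by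
  classical
  have := X.charP_serk
  have : ExpChar (LaurentSeries X.k) q := ExpChar.prime X.prime
  set A := G.red (some b) z with hA
  set B := G.red none z with hB
  choose hm he using fun P : Pair q => G.emb_red P (hu.mem (kindOf P))
  let QG : Polynomial X.gaussRing := ∏ P, (Polynomial.X - Polynomial.C (⟨_, hm P⟩ : X.gaussRing))
  have hQ : QG.map X.gaussRing.subtype = ∏ P, (Polynomial.X - Polynomial.C (G.emb G.one P z)) := by
    simp [QG, Polynomial.map_prod]
  have hline : ∀ P : Pair q, G.red (kindOf P) z = if P.line b = none then A else B := by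
    intro P
    obtain ⟨⟨L, L'⟩, hne⟩ := P
    cases b <;> simp only [Pair.line, Bool.false_eq_true, ↓reduceIte]
    · cases L' with
      | none =>
        rw [if_pos rfl, hA, show kindOf (⟨(L, none), hne⟩ : Pair q) = some false from by
          simp [kindOf, show L ≠ none from hne]]
      | some c =>
        rw [if_neg (Option.some_ne_none c), hB]
        cases L with
        | none => exact G.red_LF false hz (hu.mem _) (hu.mem _)
        | some a => simp [kindOf]
    · cases L with
      | none => rw [if_pos rfl, hA]; simp [kindOf]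
      | some a =>
        rw [if_neg (Option.some_ne_none a), hB]
        cases L' with
        | none =>
          simp only [kindOf, reduceCtorEq, ↓reduceIte]
          exact G.red_LF true hz (hu.mem _) (hu.mem _)
        | some c => simp [kindOf]
  have hsum : (Finset.univ : Finset (Line q)).card = q + 1 := by
    rw [Finset.card_univ, Fintype.card_option, ZMod.card]
  have hred : QG.map X.gaussRes =
      (Polynomial.X ^ q - Polynomial.C (A ^ q)) *
        (Polynomial.X ^ q ^ 2 - Polynomial.C (B ^ q ^ 2)) := by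
    simp only [QG, Polynomial.map_prod, Polynomial.map_sub, Polynomial.map_X, Polynomial.map_C, he,
      hline]
    rw [← Finset.prod_fiberwise (Finset.univ : Finset (Pair q)) (fun P : Pair q => P.line b),
      Fintype.prod_option]
    have hf : ∀ L : Line q, (∏ P ∈ (Finset.univ : Finset (Pair q)).filter (fun P => P.line b = L),
        (Polynomial.X - Polynomial.C (if P.line b = none then A else B))) =
        (Polynomial.X - Polynomial.C (if L = none then A else B)) ^ q := by
      intro L
      rw [Finset.prod_congr rfl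
          (g := fun _ => Polynomial.X - Polynomial.C (if L = none then A else B))
        (fun P hP => by rw [(Finset.mem_filter.mp hP).2]), Finset.prod_const]
      congr 1
      exact (Fintype.card_subtype _).symm.trans (card_fibre b L)
    simp only [hf, reduceCtorEq, ↓reduceIte, Finset.prod_const, Finset.card_univ, ZMod.card,
        ← pow_mul]
    rw [show q * q = q ^ 2 by ring, sub_pow_expChar, sub_pow_expChar_pow, ← map_pow, ← map_pow]
  obtain ⟨a, d, hd, hcoef⟩ := G.exists_coeff z
  have hbase : ∀ n, G.InBase ((QG.map X.gaussRes).coeff n) := by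
    intro n
    set β := G.baseHom (a n) / G.baseHom d
    have hβ : β ∈ G.B₀ :=
      div_mem (IntermediateField.subset_adjoin _ _ ⟨_, rfl⟩)
        (IntermediateField.subset_adjoin _ _ ⟨_, rfl⟩)
    have e : G.emb G.one (kindPair none) β = (QG.coeff n : Ser) := by
      rw [hcoef, ← hQ, Polynomial.coeff_map]; rfl
    have hV : β ∈ G.V none := by rw [mem_V, e]; exact (QG.coeff n).2
    refine ⟨β, hβ, hV, ?_⟩
    rw [G.red_eq hV, G.resV_apply, Polynomial.coeff_map]
    exact congrArg X.gaussRes (Subtype.ext e)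
  have hneg : ∀ {r}, G.InBase (-r) → G.InBase r := fun {r} h => by
    have := (G.inBase_const (-1)).mul h
    rwa [map_neg, map_one, neg_one_mul, neg_neg] at this
  have hq2 : q < q ^ 2 := by nlinarith [X.prime.two_le]
  have hq0 : 0 < q := X.prime.pos
  constructor
  · have h := hbase (q ^ 2)
    rw [hred] at h
    simp only [sub_mul, mul_sub, ← pow_add, ← map_mul, Polynomial.coeff_sub, Polynomial.coeff_X_pow,
      Polynomial.coeff_C_mul, Polynomial.coeff_X_pow_mul', Polynomial.coeff_C] at h
    simp [hq2.le, hq0.ne', show q ^ 2 - q ≠ 0 by omega] at h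
    exact hneg (by simpa using h)
  · have h := hbase q
    rw [hred] at h
    simp only [sub_mul, mul_sub, ← pow_add, ← map_mul, Polynomial.coeff_sub, Polynomial.coeff_X_pow,
      Polynomial.coeff_C_mul, Polynomial.coeff_X_pow_mul', Polynomial.coeff_C] at h
    simp [hq2.ne, hq0.ne'] at h
    exact hneg (by simpa using h)

end Model

end FLTAgent.CarayolSquare
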