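import Fermat.Agent.CarayolSquare.Geometry.Spec
import Mathlib.RingTheory.DiscreteValuationRing.Basic
import Mathlib.RingTheory.Valuation.ValuationSubring

/-!
# Series with integral coefficients

`intSer`, its reduction `redS`, and the Gauss valuation ring `gaussRing` of series with coefficients
in the finite extension `K (ζ)`, with residue map `gaussRes`.  These give the valuations of
`splitField` in `Geometry.Gauss`.
-/

set_option autoImplicit false

noncomputable section

open ModularCurve Polynomial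

namespace FLTAgent.CarayolSquare

local notation "Qbar" => AlgebraicClosure ℚ

theorem isIntegral_Qbar (a : Qbar) : IsIntegral ℚ a :=
  ((AlgebraicClosure.isAlgebraic ℚ).isAlgebraic a).isIntegral

namespace Ctx

variable {q : ℕ} (X : Ctx q)

/-- The residue field. -/
abbrev k := IsLocalRing.ResidueField X.A

theorem q_lt_one : X.A.valuation (q : Qbar) < 1 := X.lies

theorem q_ne_zero (X : Ctx q) : (q : Qbar) ≠ 0 := Nat.cast_ne_zero.mpr X.prime.ne_zero

theorem algebraMap_eq (c : X.O) : algebraMap X.O Ser c = algebraMap X.K Ser (c : X.K) := by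
  show HahnSeries.ofPowerSeries ℤ Qbar (algebraMap X.O (PowerSeries Qbar) c) =
    algebraMap Qbar Ser (algebraMap X.K Qbar (c : X.K))
  rw [PowerSeries.algebraMap_apply, HahnSeries.ofPowerSeries_C,
    ModularCurve.algebraMap_laurentSeries_eq_single]
  rfl

instance isScalarTower_ser : IsScalarTower X.O X.K Ser :=
  ⟨fun x y z => HahnSeries.ext (funext fun n => by
    show (algebraMap X.K Qbar (x • y) • z).coeff n = x • ((algebraMap X.K Qbar y) • z).coeff n
    simp only [HahnSeries.coeff_smul, Algebra.smul_def, map_mul]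
    rw [mul_assoc]
    rfl)⟩

theorem algebraMap_eq_C (c : X.O) :
    algebraMap X.O Ser c = HahnSeries.C (algebraMap X.K Qbar (c : X.K)) := by
  rw [X.algebraMap_eq]
  show algebraMap Qbar Ser _ = _
  rw [ModularCurve.algebraMap_laurentSeries_eq_single]
  rfl

theorem up_algebraMap (c : X.O) : X.up (algebraMap X.O Ser c) = algebraMap X.O Ser c := by
  rw [X.algebraMap_eq_C]
  exact @ModularCurve.qExpand_C Qbar _ q X.neZero _

theorem sub_algebraMap (L : Line q) (c : X.O) :
    X.sub L (algebraMap X.O Ser c) = algebraMap X.O Ser c := by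
  cases L with
  | none => exact (congrArg X.up (X.up_algebraMap c)).trans (X.up_algebraMap c)
  | some b =>
    rw [X.algebraMap_eq_C, HahnSeries.C_apply]
    show Igusa.scale (X.zetaU b) _ = _
    rw [Igusa.scale_single, zpow_zero, Units.val_one, one_mul]

theorem exists_O_of_mem (c : X.K) (hc : algebraMap X.K Qbar c ∈ X.A) :
    ∃ o : X.O, (o : X.K) = c := ⟨⟨c, hc⟩, rfl⟩

theorem isUnit_iff_valuation (c : X.O) :
    IsUnit c ↔ X.A.valuation (algebraMap X.K Qbar (c : X.K)) = 1 := by
  constructor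
  · intro h
    obtain ⟨d, hd⟩ := h.exists_right_inv
    have h1 := congrArg (fun z : X.O => X.A.valuation (algebraMap X.K Qbar (z : X.K))) hd
    simp only [Subring.coe_mul, map_mul, Subring.coe_one, map_one] at h1
    refine le_antisymm ((X.A.valuation_le_one_iff _).mpr c.2) ?_
    calc (1 : _) = _ * _ := h1.symm
      _ ≤ X.A.valuation (algebraMap X.K Qbar (c : X.K)) * 1 :=
        mul_le_mul_of_nonneg_left ((X.A.valuation_le_one_iff _).mpr d.2) zero_le
      _ = _ := mul_one _
  · intro h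
    have h0 : (c : X.K) ≠ 0 := fun h0 => by simp [h0] at h
    refine IsUnit.of_mul_eq_one (⟨(c : X.K)⁻¹, ?_⟩ : X.O) (Subtype.ext (mul_inv_cancel₀ h0))
    show algebraMap X.K Qbar (c : X.K)⁻¹ ∈ X.A
    rw [map_inv₀, ← X.A.valuation_le_one_iff, map_inv₀, h, inv_one]

theorem irreducible_q : Irreducible (q : X.O) := by
  have := X.dvr
  obtain ⟨ϖ, hϖ⟩ := IsDiscreteValuationRing.exists_irreducible X.O
  have key : ∀ c : X.O, ¬ IsUnit c ↔ (q : X.O) ∣ c := by
    intro c
    rw [X.isUnit_iff_valuation, ← X.fixedData_π, ← X.fixedData.lt_one_iff, X.fixedData_A]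
    exact ⟨fun h => lt_of_le_of_ne ((X.A.valuation_le_one_iff _).mpr c.2) h, fun h => h.ne⟩
  obtain ⟨d, hd⟩ := (key ϖ).mp hϖ.1
  have hu : IsUnit d := (hϖ.isUnit_or_isUnit hd).resolve_left ((key _).mpr dvd_rfl)
  rw [hd] at hϖ
  exact (irreducible_mul_isUnit hu).mp hϖ

theorem exists_valuation_eq_pow (c : X.K) (hc : c ≠ 0) :
    ∃ i j : ℕ, X.A.valuation (algebraMap X.K Qbar c) * X.A.valuation (q : Qbar) ^ i =
      X.A.valuation (q : Qbar) ^ j := by
  have := X.dvr
  have hO : ∀ o : X.O, o ≠ 0 → ∃ n : ℕ,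
      X.A.valuation (algebraMap X.K Qbar (o : X.K)) = X.A.valuation (q : Qbar) ^ n := by
    intro o ho
    obtain ⟨n, u, hu⟩ := IsDiscreteValuationRing.eq_unit_mul_pow_irreducible ho X.irreducible_q
    refine ⟨n, ?_⟩
    rw [hu, Subring.coe_mul, map_mul, map_mul, (X.isUnit_iff_valuation _).mp u.isUnit, one_mul]
    simp
  rcases X.A.mem_or_inv_mem (algebraMap X.K Qbar c) with h | h
  · obtain ⟨n, hn⟩ := hO ⟨c, h⟩ fun h0 => hc (congrArg Subtype.val h0)
    exact ⟨0, n, by rw [pow_zero, mul_one]; exact hn⟩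
  · rw [← map_inv₀] at h
    obtain ⟨n, hn⟩ := hO ⟨c⁻¹, h⟩ fun h0 => inv_ne_zero hc (congrArg Subtype.val h0)
    refine ⟨n, 0, ?_⟩
    rw [pow_zero, ← hn, ← map_mul, ← map_mul, mul_inv_cancel₀ hc, map_one, map_one]

theorem sigma_mem_iff {σ : Qbar ≃ₐ[X.K] Qbar} (hσ : σ ∈ X.fixedData.G) (a : Qbar) :
    σ a ∈ X.A ↔ a ∈ X.A := by
  rw [← X.fixedData_A]
  refine ⟨fun h => ?_, X.fixedData.sigma_mem hσ⟩
  have h' := X.fixedData.sigma_mem (inv_mem hσ) h
  rwa [← AlgEquiv.mul_apply, inv_mul_cancel] at h'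

theorem valuation_sigma {σ : Qbar ≃ₐ[X.K] Qbar} (hσ : σ ∈ X.fixedData.G) (a : Qbar) :
    X.A.valuation (σ a) = X.A.valuation a := by
  classical
  have key : ∀ x y : Qbar, X.A.valuation x ≤ X.A.valuation y →
      X.A.valuation (σ x) ≤ X.A.valuation (σ y) := by
    intro x y h
    obtain ⟨b, hb⟩ := (X.A.valuation_le_iff x y).mp h
    rw [← hb, map_mul, map_mul]
    exact mul_le_of_le_one_left' ((X.A.valuation_le_one_iff _).mpr
      ((X.sigma_mem_iff hσ _).mpr b.2))
  rcases eq_or_ne a 0 with rfl | ha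
  · rw [map_zero]
  -- the orbit of `a` is finite
  have hfin : (Set.range fun i : ℕ => (σ ^ i) a).Finite := by
    refine (((minpoly X.K a).map (algebraMap X.K Qbar)).roots.toFinset.finite_toSet).subset ?_
    rintro _ ⟨i, rfl⟩
    have hint : IsIntegral X.K a := IsIntegral.tower_top (R := ℚ) (isIntegral_Qbar a)
    rw [Finset.mem_coe, Multiset.mem_toFinset,
      mem_roots (Polynomial.map_ne_zero (minpoly.ne_zero hint)), IsRoot, eval_map, ← aeval_def,
      ← minpoly.algEquiv_eq (σ ^ i) a]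
    exact minpoly.aeval _ _
  have := hfin.to_subtype
  obtain ⟨i, j, hne, hij'⟩ := Finite.exists_ne_map_eq_of_infinite
    fun i : ℕ => (⟨(σ ^ i) a, i, rfl⟩ : Set.range fun i : ℕ => (σ ^ i) a)
  have hij : (σ ^ i) a = (σ ^ j) a := congrArg Subtype.val hij'
  obtain ⟨n, hn, hfix⟩ : ∃ n : ℕ, 0 < n ∧ (σ ^ n) a = a := by
    rcases lt_or_gt_of_ne hne with h | h
    · refine ⟨j - i, by omega, (σ ^ i).injective ?_⟩
      rw [← AlgEquiv.mul_apply, ← pow_add, Nat.add_sub_cancel' h.le]
      exact hij.symm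
    · refine ⟨i - j, by omega, (σ ^ j).injective ?_⟩
      rw [← AlgEquiv.mul_apply, ← pow_add, Nat.add_sub_cancel' h.le]
      exact hij
  have hpow : ∀ m : ℕ, (σ ^ (m + 1)) a = σ ((σ ^ m) a) := fun m => by
    rw [pow_succ', AlgEquiv.mul_apply]
  rcases le_total (X.A.valuation (σ a)) (X.A.valuation a) with h | h
  · refine le_antisymm h ?_
    have hdec : ∀ m : ℕ, X.A.valuation ((σ ^ (m + 1)) a) ≤ X.A.valuation (σ a) := by
      intro m
      induction m with
      | zero => rw [pow_one]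
      | succ m ih =>
        rw [hpow]
        exact (key _ _ (ih.trans h))
    have := hdec (n - 1)
    rwa [Nat.sub_add_cancel hn, hfix] at this
  · refine le_antisymm ?_ h
    have hinc : ∀ m : ℕ, X.A.valuation (σ a) ≤ X.A.valuation ((σ ^ (m + 1)) a) := by
      intro m
      induction m with
      | zero => rw [pow_one]
      | succ m ih =>
        rw [hpow]
        exact (key _ _ (h.trans ih))
    have := hinc (n - 1)
    rwa [Nat.sub_add_cancel hn, hfix] at this

/-- The field of coefficients `K (ζ)`. -/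
def L₁ : IntermediateField X.K Qbar := IntermediateField.adjoin X.K {X.ζ}

theorem ζ_mem : X.ζ ∈ X.L₁ := IntermediateField.subset_adjoin _ _ rfl

theorem natDegree_minpoly_lt {a : Qbar} (ha : a ∈ X.L₁) : (minpoly X.K a).natDegree ≤ q := by
  have hint : IsIntegral X.K X.ζ := IsIntegral.tower_top (R := ℚ) (isIntegral_Qbar _)
  have hdeg : (minpoly X.K X.ζ).natDegree ≤ q := by
    refine (natDegree_le_of_dvd (minpoly.dvd X.K X.ζ (p := Polynomial.X ^ q - 1)
      (by simp [X.hζ.pow_eq_one])) ?_).trans ?_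
    · exact (monic_X_pow_sub_C (1 : X.K) X.prime.ne_zero).ne_zero
    · exact le_of_eq (natDegree_X_pow_sub_C (r := (1 : X.K)))
  have : FiniteDimensional X.K X.L₁ := IntermediateField.adjoin.finiteDimensional hint
  have h1 : Module.finrank X.K X.L₁ ≤ q := by
    rw [L₁, IntermediateField.adjoin.finrank hint]; exact hdeg
  have h2 := minpoly.natDegree_le (A := X.K) (⟨a, ha⟩ : X.L₁)
  rw [← minpoly.algebraMap_eq (FaithfulSMul.algebraMap_injective X.L₁ Qbar)] at h2
  exact h2.trans h1

/-- Some element of `K` has the value of a positive power of `a`, the exponent at most the degree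
of `a`. -/
theorem exists_valuation_pow_eq (a : Qbar) :
    ∃ (N : X.K) (k : ℕ), 0 < k ∧ k ≤ (minpoly X.K a).natDegree ∧
      X.A.valuation (algebraMap X.K Qbar N) = X.A.valuation a ^ k := by
  classical
  have hint : IsIntegral X.K a := IsIntegral.tower_top (R := ℚ) (isIntegral_Qbar a)
  set P := minpoly X.K a with hP
  set S := (P.map (algebraMap X.K Qbar)).roots.toFinset.filter
    fun z => X.A.valuation z = X.A.valuation a with hS
  let Q : Qbar[X] := ∏ z ∈ S, (Polynomial.X - Polynomial.C z)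
  have hroot : ∀ (σ : Qbar ≃ₐ[X.K] Qbar), ∀ z, z ∈ (P.map (algebraMap X.K Qbar)).roots →
      σ z ∈ (P.map (algebraMap X.K Qbar)).roots := by
    intro σ z hz
    rw [mem_roots', IsRoot, eval_map] at hz ⊢
    refine ⟨hz.1, ?_⟩
    rw [← aeval_def, aeval_algEquiv, AlgHom.comp_apply, aeval_def, hz.2, map_zero]
  have hfix : ∀ σ ∈ X.fixedData.G, Q.map (σ : Qbar →+* Qbar) = Q := by
    intro σ hσ
    simp only [Q, Polynomial.map_prod, Polynomial.map_sub, map_X, map_C]
    refine Finset.prod_bij (fun z _ => σ z) (fun z hz => ?_) (fun _ _ _ _ h => σ.injective h)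
      (fun z hz => ⟨σ⁻¹ z, ?_, by rw [← AlgEquiv.mul_apply, mul_inv_cancel]; rfl⟩) fun z _ => rfl
    · rw [hS, Finset.mem_filter, Multiset.mem_toFinset] at hz ⊢
      exact ⟨hroot σ z hz.1, (X.valuation_sigma hσ z).trans hz.2⟩
    · rw [hS, Finset.mem_filter, Multiset.mem_toFinset] at hz ⊢
      exact ⟨hroot _ z hz.1, (X.valuation_sigma (inv_mem hσ) z).trans hz.2⟩
  have haS : a ∈ S := by
    rw [hS, Finset.mem_filter, Multiset.mem_toFinset, mem_roots', IsRoot, eval_map]
    exact ⟨⟨Polynomial.map_ne_zero (minpoly.ne_zero hint), minpoly.aeval X.K a⟩, rfl⟩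
  have hc : Q.coeff 0 ∈ Set.range (algebraMap X.K Qbar) := X.fixedData.fixed _ fun σ hσ => by
    have := congrArg (fun R => Polynomial.coeff R 0) (hfix σ hσ)
    simpa using this
  obtain ⟨N, hN⟩ := hc
  have hcard : S.card ≤ P.natDegree := by
    refine (Finset.card_filter_le _ _).trans ((Multiset.toFinset_card_le _).trans
      ((card_roots' _).trans ?_))
    rw [natDegree_map]
  have hpos : 0 < S.card := Finset.card_pos.mpr ⟨a, haS⟩
  have hval : X.A.valuation (algebraMap X.K Qbar N) = X.A.valuation a ^ S.card := by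
    rw [hN, coeff_zero_eq_eval_zero]
    simp only [Q, eval_prod, eval_sub, eval_X, eval_C, map_prod, zero_sub, Valuation.map_neg]
    rw [Finset.prod_congr rfl fun z hz => (Finset.mem_filter.mp hz).2, Finset.prod_const]
  exact ⟨N, S.card, hpos, hcard, hval⟩

/-- Values on `K (ζ)` are discrete. -/
theorem exists_pow_valuation {a : Qbar} (ha : a ∈ X.L₁) (h0 : a ≠ 0) :
    ∃ i j : ℕ, X.A.valuation a ^ q.factorial * X.A.valuation (q : Qbar) ^ i =
      X.A.valuation (q : Qbar) ^ j := by
  obtain ⟨N, k, hpos, hk, hval⟩ := X.exists_valuation_pow_eq a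
  have hcard : k ≤ q := hk.trans (X.natDegree_minpoly_lt ha)
  have hN0 : N ≠ 0 := fun h => by
    rw [h, map_zero, map_zero, eq_comm] at hval
    exact pow_ne_zero _ ((_root_.map_ne_zero _).mpr h0) hval
  obtain ⟨i, j, hij⟩ := X.exists_valuation_eq_pow N hN0
  obtain ⟨c, hc⟩ := Nat.dvd_factorial hpos hcard
  refine ⟨i * c, j * c, ?_⟩
  rw [hc, pow_mul, pow_mul, pow_mul, ← mul_pow, ← hval, hij]

/-- Series with integral coefficients. -/
def intSer : Subring Ser where
  carrier := {s | ∀ n, s.coeff n ∈ X.A}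
  mul_mem' := by
    intro a b ha hb n
    rw [HahnSeries.coeff_mul]
    exact sum_mem fun x _ => X.A.mul_mem _ _ (ha _) (hb _)
  one_mem' n := by
    rw [HahnSeries.coeff_one]
    split
    · exact X.A.one_mem
    · exact X.A.zero_mem
  add_mem' := fun ha hb n => by
    rw [HahnSeries.coeff_add]
    exact X.A.add_mem _ _ (ha n) (hb n)
  zero_mem' n := by simp
  neg_mem' := fun ha n => by
    rw [HahnSeries.coeff_neg]
    exact X.A.neg_mem _ (ha n)

/-- An integral series as a series over `A`. -/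
def toA (s : X.intSer) : LaurentSeries X.A where
  coeff n := ⟨(s : Ser).coeff n, s.2 n⟩
  isPWO_support' := (s : Ser).isPWO_support'.mono fun _ hn h0 => hn (Subtype.ext h0)

theorem coeffMap_toA (s : X.intSer) : coeffMap X.A.subtype (X.toA s) = s := by
  ext n
  simp [toA]

theorem coeffMap_A_injective : Function.Injective (coeffMap X.A.subtype) := by
  intro s t h
  ext n
  have := congrArg (fun z : Ser => z.coeff n) h
  simpa using this

/-- `toA` as a ring homomorphism. -/
def toAHom : X.intSer →+* LaurentSeries X.A where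
  toFun := X.toA
  map_one' := X.coeffMap_A_injective (by rw [coeffMap_toA, map_one]; rfl)
  map_mul' s t :=
      X.coeffMap_A_injective (by rw [coeffMap_toA, map_mul, coeffMap_toA, coeffMap_toA]; rfl)
  map_zero' := X.coeffMap_A_injective (by rw [coeffMap_toA, map_zero]; rfl)
  map_add' s t :=
      X.coeffMap_A_injective (by rw [coeffMap_toA, map_add, coeffMap_toA, coeffMap_toA]; rfl)

/-- Reduction of an integral series. -/
def redS : X.intSer →+* LaurentSeries X.k :=
  (coeffMap (IsLocalRing.residue X.A)).comp X.toAHom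

theorem coeff_redS (s : X.intSer) (n : ℤ) :
    (X.redS s).coeff n = IsLocalRing.residue X.A ⟨(s : Ser).coeff n, s.2 n⟩ := rfl

theorem redS_eq_zero_iff (s : X.intSer) : X.redS s = 0 ↔ X.RedZero s := by
  constructor
  · intro h n
    have h1 := congrArg (fun z : LaurentSeries X.k => z.coeff n) h
    simp only [coeff_redS, HahnSeries.coeff_zero, IsLocalRing.residue_eq_zero_iff] at h1
    exact (X.A.valuation_lt_one_iff _).mp h1
  · intro h
    ext n
    rw [coeff_redS, HahnSeries.coeff_zero, IsLocalRing.residue_eq_zero_iff]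
    exact (X.A.valuation_lt_one_iff _).mpr (h n)

/-- Series with coefficients in `K (ζ)`. -/
def serL₁ : Subring Ser where
  carrier := {s | ∀ n, s.coeff n ∈ X.L₁}
  mul_mem' := by
    intro a b ha hb n
    rw [HahnSeries.coeff_mul]
    exact sum_mem fun x _ => mul_mem (ha _) (hb _)
  one_mem' n := by
    rw [HahnSeries.coeff_one]
    split
    · exact one_mem _
    · exact zero_mem _
  add_mem' := fun ha hb n => by
    rw [HahnSeries.coeff_add]
    exact add_mem (ha n) (hb n)
  zero_mem' n := by simp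
  neg_mem' := fun ha n => by
    rw [HahnSeries.coeff_neg]
    exact neg_mem (ha n)

/-- A nonzero integral series over `K (ζ)` is a constant times one with nonzero reduction. -/
theorem exists_normalise (s : X.intSer) (hL : (s : Ser) ∈ X.serL₁) (h0 : (s : Ser) ≠ 0) :
    ∃ (c : Qbar) (s' : X.intSer), (c ∈ X.A ∧ c ∈ X.L₁) ∧ c ≠ 0 ∧
      (s : Ser) = (HahnSeries.C c : Ser) * (s' : Ser) ∧ X.redS s' ≠ 0 := by
  classical
  have hq : 0 < X.A.valuation (q : Qbar) := X.A.valuation.pos_iff.mpr X.q_ne_zero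
  have hex : ∀ n, (s : Ser).coeff n ≠ 0 → ∃ j : ℕ,
      X.A.valuation ((s : Ser).coeff n) ^ q.factorial = X.A.valuation (q : Qbar) ^ j := by
    intro n hn
    obtain ⟨i, j, hij⟩ := X.exists_pow_valuation (hL n) hn
    have hle : X.A.valuation (q : Qbar) ^ j ≤ X.A.valuation (q : Qbar) ^ i := by
      rw [← hij]
      exact mul_le_of_le_one_left' (pow_le_one₀ zero_le ((X.A.valuation_le_one_iff _).mpr (s.2 n)))
    have hij' : i ≤ j := by
      by_contra hlt
      exact (not_lt.mpr hle) (pow_lt_pow_right_of_lt_one₀ hq X.q_lt_one (not_le.mp hlt))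
    refine ⟨j - i, mul_right_cancel₀ (pow_ne_zero i hq.ne') ?_⟩
    rw [hij, ← pow_add, Nat.sub_add_cancel hij']
  have hne : ∃ n, (s : Ser).coeff n ≠ 0 := by
    by_contra! h
    exact h0 (HahnSeries.ext (funext h))
  have hP : ∃ j : ℕ, ∃ n, (s : Ser).coeff n ≠ 0 ∧
      X.A.valuation ((s : Ser).coeff n) ^ q.factorial = X.A.valuation (q : Qbar) ^ j := by
    obtain ⟨n, hn⟩ := hne
    obtain ⟨j, hj⟩ := hex n hn
    exact ⟨j, n, hn, hj⟩
  obtain ⟨n₀, hn₀, hj₀⟩ := Nat.find_spec hP
  set c := (s : Ser).coeff n₀ with hc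
  have hmax : ∀ n, X.A.valuation ((s : Ser).coeff n) ≤ X.A.valuation c := by
    intro n
    rcases eq_or_ne ((s : Ser).coeff n) 0 with h | h
    · rw [h, map_zero]; exact zero_le
    obtain ⟨j, hj⟩ := hex n h
    refine (pow_le_pow_iff_left₀ zero_le zero_le (Nat.factorial_ne_zero q)).mp ?_
    rw [hj, hj₀]
    exact pow_le_pow_of_le_one zero_le X.q_lt_one.le (Nat.find_le ⟨n, h, hj⟩)
  have hmem : (HahnSeries.C c⁻¹ * (s : Ser)) ∈ X.intSer := by
    intro n
    rw [HahnSeries.C_mul_eq_smul, HahnSeries.coeff_smul, smul_eq_mul, ← X.A.valuation_le_one_iff,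
      map_mul, map_inv₀]
    calc _ ≤ (X.A.valuation c)⁻¹ * X.A.valuation c :=
          mul_le_mul_of_nonneg_left (hmax n) zero_le
      _ = 1 := inv_mul_cancel₀ ((_root_.map_ne_zero _).mpr hn₀)
  refine ⟨c, ⟨_, hmem⟩, ⟨s.2 n₀, hL n₀⟩, hn₀, ?_, fun h => ?_⟩
  · rw [← mul_assoc, ← map_mul, mul_inv_cancel₀ hn₀, map_one, one_mul]
  · have h1 := (X.redS_eq_zero_iff _).mp h n₀
    simp only [HahnSeries.C_mul_eq_smul, HahnSeries.coeff_smul, smul_eq_mul] at h1
    rw [← hc, inv_mul_cancel₀ hn₀, map_one] at h1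
    exact lt_irrefl _ h1

/-- Quotients of integral series by series with nonzero reduction. -/
def gaussRing : Subring Ser where
  carrier := {z | ∃ a b : X.intSer, X.redS b ≠ 0 ∧ z * b = a}
  one_mem' := ⟨1, 1, by rw [map_one]; exact one_ne_zero, by simp⟩
  zero_mem' := ⟨0, 1, by rw [map_one]; exact one_ne_zero, by simp⟩
  mul_mem' := by
    rintro z w ⟨a, b, hb, h⟩ ⟨a', b', hb', h'⟩
    refine ⟨a * a', b * b', by rw [map_mul]; exact mul_ne_zero hb hb', ?_⟩
    push_cast
    linear_combination (w * b') * h + (a : Ser) * h'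
  add_mem' := by
    rintro z w ⟨a, b, hb, h⟩ ⟨a', b', hb', h'⟩
    refine ⟨a * b' + a' * b, b * b', by rw [map_mul]; exact mul_ne_zero hb hb', ?_⟩
    push_cast
    linear_combination (b' : Ser) * h + (b : Ser) * h'
  neg_mem' := by
    rintro z ⟨a, b, hb, h⟩
    refine ⟨-a, b, hb, ?_⟩
    push_cast
    linear_combination -h

theorem intSer_le_gaussRing {s : Ser} (hs : s ∈ X.intSer) : s ∈ X.gaussRing :=
  ⟨⟨s, hs⟩, 1, by rw [map_one]; exact one_ne_zero, by simp⟩

/-- The residue on `gaussRing`. -/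
def gaussResFun (z : X.gaussRing) : LaurentSeries X.k :=
  X.redS z.2.choose / X.redS z.2.choose_spec.choose

theorem gaussResFun_spec (z : X.gaussRing) (a b : X.intSer) (_hb : X.redS b ≠ 0)
    (h : (z : Ser) * b = a) : X.gaussResFun z * X.redS b = X.redS a := by
  obtain ⟨hb', h'⟩ := z.2.choose_spec.choose_spec
  have h1 : a * z.2.choose_spec.choose = z.2.choose * b := Subtype.ext (by
    push_cast
    linear_combination (b : Ser) * h' - (z.2.choose_spec.choose : Ser) * h)
  have h2 := congrArg X.redS h1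
  rw [map_mul, map_mul] at h2
  rw [gaussResFun, div_mul_eq_mul_div, div_eq_iff hb', h2]

/-- The residue map of the Gauss valuation. -/
def gaussRes : X.gaussRing →+* LaurentSeries X.k where
  toFun := X.gaussResFun
  map_one' := by
    simpa using X.gaussResFun_spec 1 1 1 (by rw [map_one]; exact one_ne_zero) (by simp)
  map_mul' z w := by
    obtain ⟨a, b, hb, h⟩ := z.2
    obtain ⟨a', b', hb', h'⟩ := w.2
    have hbb : X.redS (b * b') ≠ 0 := by rw [map_mul]; exact mul_ne_zero hb hb'
    have e := X.gaussResFun_spec (z * w) (a * a') (b * b') hbb (by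
      push_cast
      linear_combination ((w : Ser) * b') * h + (a : Ser) * h')
    refine mul_right_cancel₀ hbb ?_
    rw [e, map_mul, map_mul, ← X.gaussResFun_spec z a b hb h, ← X.gaussResFun_spec w a' b' hb' h']
    ring
  map_zero' := by
    simpa using X.gaussResFun_spec 0 0 1 (by rw [map_one]; exact one_ne_zero) (by simp)
  map_add' z w := by
    obtain ⟨a, b, hb, h⟩ := z.2
    obtain ⟨a', b', hb', h'⟩ := w.2
    have hbb : X.redS (b * b') ≠ 0 := by rw [map_mul]; exact mul_ne_zero hb hb'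
    have e := X.gaussResFun_spec (z + w) (a * b' + a' * b) (b * b') hbb (by
      push_cast
      linear_combination (b' : Ser) * h + (b : Ser) * h')
    refine mul_right_cancel₀ hbb ?_
    rw [e, map_add, map_mul, map_mul, map_mul, ← X.gaussResFun_spec z a b hb h,
      ← X.gaussResFun_spec w a' b' hb' h']
    ring

theorem gaussRes_spec (z : X.gaussRing) (a b : X.intSer) (hb : X.redS b ≠ 0)
    (h : (z : Ser) * b = a) : X.gaussRes z * X.redS b = X.redS a := X.gaussResFun_spec z a b hb h

theorem gaussRes_of_intSer (s : X.intSer) :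
    X.gaussRes ⟨s, X.intSer_le_gaussRing s.2⟩ = X.redS s := by
  simpa using X.gaussRes_spec ⟨s, X.intSer_le_gaussRing s.2⟩ s 1
      (by rw [map_one]; exact one_ne_zero)
    (by simp)

theorem inv_mem_of_gaussRes_ne_zero (z : X.gaussRing) (hz : X.gaussRes z ≠ 0) :
    (z : Ser)⁻¹ ∈ X.gaussRing := by
  obtain ⟨a, b, hb, h⟩ := z.2
  have ha : X.redS a ≠ 0 := by
    rw [← X.gaussRes_spec z a b hb h]; exact mul_ne_zero hz hb
  refine ⟨b, a, ha, ?_⟩
  have hz0 : (z : Ser) ≠ 0 := fun h0 => hz (by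
    rw [show z = 0 from Subtype.ext h0, map_zero])
  rw [← h, ← mul_assoc, inv_mul_cancel₀ hz0, one_mul]

/-- Ratios of integral series over `K (ζ)`. -/
def IsBounded (z : Ser) : Prop :=
  ∃ a b : X.intSer, (a : Ser) ∈ X.serL₁ ∧ (b : Ser) ∈ X.serL₁ ∧ (b : Ser) ≠ 0 ∧ z * b = a

theorem mem_or_inv_mem_gaussRing {z : Ser} (hz : X.IsBounded z) :
    z ∈ X.gaussRing ∨ z⁻¹ ∈ X.gaussRing := by
  obtain ⟨a, b, haL, hbL, hb0, h⟩ := hz
  rcases eq_or_ne (a : Ser) 0 with ha | ha
  · left
    rw [show z = 0 from (mul_eq_zero.mp (h.trans ha)).resolve_right hb0]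
    exact zero_mem _
  obtain ⟨c, a', -, hc0, hac, ha'⟩ := X.exists_normalise a haL ha
  obtain ⟨d, b', -, hd0, hbd, hb'⟩ := X.exists_normalise b hbL hb0
  have hd : (HahnSeries.C d : Ser) ≠ 0 := by simpa using hd0
  have hz : z * (b' : Ser) = (HahnSeries.C (c / d) : Ser) * (a' : Ser) := by
    refine mul_left_cancel₀ hd ?_
    rw [← mul_assoc, ← mul_assoc, mul_comm _ z, mul_assoc z, ← hbd, h, hac, ← map_mul]
    congr 2
    field_simp
  have hCmem : ∀ e ∈ X.A, (HahnSeries.C e : Ser) ∈ X.intSer := by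
    intro e he n
    rw [HahnSeries.C_apply, HahnSeries.coeff_single]
    split
    · exact he
    · exact X.A.zero_mem
  rcases X.A.mem_or_inv_mem (c / d) with he | he
  · left
    exact ⟨⟨_, hCmem _ he⟩ * a', b', hb', by rw [hz]; rfl⟩
  · right
    refine ⟨⟨_, hCmem _ he⟩ * b', a', ha', ?_⟩
    have hcd : c / d ≠ 0 := div_ne_zero hc0 hd0
    have hz0 : z ≠ 0 := by
      rintro rfl
      rw [zero_mul] at h
      exact ha h.symm
    refine mul_left_cancel₀ hz0 ?_
    push_cast
    rw [← mul_assoc, mul_inv_cancel₀ hz0, one_mul, mul_left_comm, hz, ← mul_assoc, ← map_mul,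
      inv_mul_cancel₀ hcd, map_one, one_mul]

end Ctx

end FLTAgent.CarayolSquare
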