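import Fermat.Agent.CarayolSquare.Geometry.Balanced

/-!
# Reductions of the substitutions along lines

The reductions of `sub` and of the discriminant families (`redS_discFam_some`), and the Hasse
invariant `hasse` as a function of level `2` or `3`, which defines supersingular points.
-/

set_option autoImplicit false

noncomputable section

open ModularCurve

namespace FLTAgent.CarayolSquare

local notation "Qbar" => AlgebraicClosure ℚ

/-- In characteristic `q` the `q`-th power is `t ↦ t ^ q` after Frobenius on coefficients. -/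
theorem pow_char_eq_qExpand {k : Type*} [Field k] (q : ℕ) [Fact q.Prime] [CharP k q]
    (s : LaurentSeries k) (hs : ∀ n, s.coeff n ^ q = s.coeff n) :
    s ^ q = @qExpand k _ q ⟨(Fact.out : q.Prime).ne_zero⟩ s := by
  have : NeZero q := ⟨(Fact.out : q.Prime).ne_zero⟩
  have : ExpChar k q := ExpChar.prime Fact.out
  have key : ∀ (P : PowerSeries k), P ^ q = PowerSeries.expand q (NeZero.ne q)
      (PowerSeries.map (frobenius k q) P) := fun P => by
    rw [← PowerSeries.map_expand]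
    exact (MvPowerSeries.map_frobenius_expand (p := q) (hp := NeZero.ne q) (f := P)).symm
  have hP : PowerSeries.map (frobenius k q) s.powerSeriesPart = s.powerSeriesPart := by
    ext n
    rw [PowerSeries.coeff_map, LaurentSeries.powerSeriesPart_coeff, frobenius_def, hs]
  conv_lhs => rw [← LaurentSeries.single_order_mul_powerSeriesPart s]
  conv_rhs => rw [← LaurentSeries.single_order_mul_powerSeriesPart s]
  rw [mul_pow, HahnSeries.single_pow, one_pow, nsmul_eq_mul, ← map_pow, key, hP, map_mul,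
    qExpand_single]
  congr 1
  ext n
  by_cases hn : (q : ℤ) ∣ n
  · obtain ⟨i, rfl⟩ := hn
    rw [qExpand_coeff_mul]
    rcases lt_or_ge i 0 with hi | hi
    · rw [ofPowerSeries_coeff_of_neg _ hi, ofPowerSeries_coeff_of_neg _
        (mul_neg_of_pos_of_neg (by exact_mod_cast (Fact.out : q.Prime).pos) hi)]
    · obtain ⟨j, rfl⟩ := Int.eq_ofNat_of_zero_le hi
      rw [show ((q : ℤ) * (j : ℤ)) = ((q * j : ℕ) : ℤ) by push_cast; rfl,
        LaurentSeries.coeff_coe_powerSeries, LaurentSeries.coeff_coe_powerSeries,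
        PowerSeries.coeff_expand_mul]
  · rw [qExpand_coeff_of_not_dvd _ _ hn]
    rcases lt_or_ge n 0 with hi | hi
    · rw [ofPowerSeries_coeff_of_neg _ hi]
    · obtain ⟨j, rfl⟩ := Int.eq_ofNat_of_zero_le hi
      rw [LaurentSeries.coeff_coe_powerSeries, PowerSeries.coeff_expand_of_not_dvd]
      exact fun h => hn (by exact_mod_cast h)

variable {q : ℕ}

namespace Ctx

variable (X : Ctx q)

/-- The coefficients of the reduction lie in `𝔽_q`. -/
def RatMod (s : Ser) : Prop := ∀ n, X.A.valuation (s.coeff n ^ q - s.coeff n) < 1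

theorem ratMod_of_int {s : Ser} (h : ∀ n, ∃ z : ℤ, (z : Qbar) = s.coeff n) : X.RatMod s := by
  intro n
  obtain ⟨z, hz⟩ := h n
  rw [← hz]
  have hdvd : (q : ℤ) ∣ z ^ q - z := by
    have : Fact q.Prime := ⟨X.prime⟩
    rw [← ZMod.intCast_zmod_eq_zero_iff_dvd]
    push_cast
    rw [ZMod.pow_card, sub_self]
  obtain ⟨w, hw⟩ := hdvd
  rw [show (z : Qbar) ^ q - z = ((q : ℤ) : Qbar) * (w : Qbar) by
      rw [← Int.cast_mul, ← hw]; push_cast; rfl,
    map_mul, Int.cast_natCast]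
  exact lt_of_le_of_lt (mul_le_of_le_one_right' ((X.A.valuation_le_one_iff _).mpr
    (intCast_mem X.A.toSubring w))) X.q_lt_one

variable [NeZero q] [Fact q.Prime]

omit [Fact (Nat.Prime q)] in
theorem up_mem_intSer {s : Ser} (hs : s ∈ X.intSer) : X.up s ∈ X.intSer := by
  intro n
  by_cases hn : (q : ℤ) ∣ n
  · obtain ⟨i, rfl⟩ := hn
    rw [show (X.up s).coeff ((q : ℤ) * i) = s.coeff i from qExpand_coeff_mul q s i]
    exact hs i
  · rw [show (X.up s).coeff n = 0 from qExpand_coeff_of_not_dvd q s hn]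
    exact X.A.zero_mem

omit [Fact (Nat.Prime q)] in
theorem redS_up {s : Ser} (hs : s ∈ X.intSer) :
    X.redS ⟨X.up s, X.up_mem_intSer hs⟩ = qExpand X.k q (X.redS ⟨s, hs⟩) := by
  ext n
  by_cases hn : (q : ℤ) ∣ n
  · obtain ⟨i, rfl⟩ := hn
    rw [qExpand_coeff_mul, coeff_redS, coeff_redS]
    exact congrArg (IsLocalRing.residue X.A) (Subtype.ext (qExpand_coeff_mul q s i))
  · rw [qExpand_coeff_of_not_dvd _ _ hn, coeff_redS]
    exact (congrArg (IsLocalRing.residue X.A)
      (Subtype.ext (qExpand_coeff_of_not_dvd q s hn) : _ = (0 : X.A))).trans (map_zero _)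

omit [NeZero q] [Fact (Nat.Prime q)] in
theorem sub_some_mem_intSer (b : ZMod q) {s : Ser} (hs : s ∈ X.intSer) :
    X.sub (some b) s ∈ X.intSer := by
  intro n
  show (Igusa.scale (X.zetaU b) s).coeff n ∈ X.A
  rw [Igusa.coeff_scale, Units.val_zpow_eq_zpow_val]
  exact X.A.mul_mem _ _ (X.zpow_zeta_mem _ n).1 (hs n)

omit [Fact (Nat.Prime q)] in
theorem valuation_zeta_sub_one : X.A.valuation (X.ζ - 1) < 1 := by
  rw [← Valuation.map_neg, neg_sub]
  refine lt_of_le_of_ne ((X.A.valuation_le_one_iff _).mpr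
    (X.A.toSubring.sub_mem X.A.one_mem X.ζ_mem_A)) fun h => ?_
  have := X.valuation_q_eq rfl X.hζ
  rw [h, one_pow] at this
  exact X.q_lt_one.ne this

omit [Fact (Nat.Prime q)] in
theorem residue_zpow_zeta (i : ℕ) (n : ℤ) :
    IsLocalRing.residue X.A ⟨(X.ζ ^ i) ^ n, (X.zpow_zeta_mem i n).1⟩ = 1 := by
  have h1 : IsLocalRing.residue X.A ⟨X.ζ, X.ζ_mem_A⟩ = 1 := by
    rw [← map_one (IsLocalRing.residue X.A), ← sub_eq_zero, ← map_sub,
      IsLocalRing.residue_eq_zero_iff, X.A.valuation_lt_one_iff]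
    exact X.valuation_zeta_sub_one
  obtain ⟨j, rfl | rfl⟩ := Int.eq_nat_or_neg n
  · rw [show (⟨(X.ζ ^ i) ^ (j : ℤ), _⟩ : X.A) = ⟨X.ζ, X.ζ_mem_A⟩ ^ (i * j) from
      Subtype.ext (show (X.ζ ^ i) ^ (j : ℤ) = X.ζ ^ (i * j) by rw [zpow_natCast, ← pow_mul]),
      map_pow, h1, one_pow]
  · have hne : ((X.ζ ^ i) ^ j : Qbar) ≠ 0 := pow_ne_zero _ (pow_ne_zero _ X.ζ_ne_zero)
    have e : (⟨(X.ζ ^ i) ^ (-(j : ℤ)), (X.zpow_zeta_mem i _).1⟩ : X.A) *
        ⟨X.ζ, X.ζ_mem_A⟩ ^ (i * j) = 1 := Subtype.ext (by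
      show (X.ζ ^ i) ^ (-(j : ℤ)) * X.ζ ^ (i * j) = 1
      rw [pow_mul, zpow_neg, zpow_natCast, inv_mul_cancel₀ hne])
    have := congrArg (IsLocalRing.residue X.A) e
    rwa [map_mul, map_pow, h1, one_pow, mul_one, map_one] at this

omit [Fact (Nat.Prime q)] in
theorem redS_sub_some (b : ZMod q) {s : Ser} (hs : s ∈ X.intSer) :
    X.redS ⟨X.sub (some b) s, X.sub_some_mem_intSer b hs⟩ = X.redS ⟨s, hs⟩ := by
  ext n
  rw [coeff_redS, coeff_redS]
  rw [show (⟨(X.sub (some b) s).coeff n, _⟩ : X.A) =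
      ⟨(X.ζ ^ b.val) ^ n, (X.zpow_zeta_mem _ n).1⟩ * ⟨s.coeff n, hs n⟩ from Subtype.ext (by
    show (Igusa.scale (X.zetaU b) s).coeff n = _
    rw [Igusa.coeff_scale, Units.val_zpow_eq_zpow_val]
    rfl), map_mul, X.residue_zpow_zeta, one_mul]

theorem redS_pow_q {s : Ser} (hs : s ∈ X.intSer) (hr : X.RatMod s) :
    X.redS ⟨s, hs⟩ ^ q = X.redS ⟨X.up s, X.up_mem_intSer hs⟩ := by
  have : CharP X.k q := (CharP.charP_iff_prime_eq_zero X.prime).mpr X.natCast_k
  rw [X.redS_up hs]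
  refine pow_char_eq_qExpand q _ fun n => ?_
  rw [coeff_redS, ← map_pow, ← sub_eq_zero, ← map_sub, IsLocalRing.residue_eq_zero_iff,
    X.A.valuation_lt_one_iff]
  exact hr n

omit [NeZero q] [Fact (Nat.Prime q)] in
theorem redS_eq_zero_of_q_mul {s : Ser} (hs : (q : Ser) * s ∈ X.intSer) (h : s ∈ X.intSer) :
    X.redS ⟨(q : Ser) * s, hs⟩ = 0 := by
  rw [show (⟨(q : Ser) * s, hs⟩ : X.intSer) = (q : X.intSer) * ⟨s, h⟩ from
    Subtype.ext (by push_cast; rfl), map_mul, map_natCast,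
    ← map_natCast (HahnSeries.C : X.k →+* LaurentSeries X.k), X.natCast_k, map_zero, zero_mul]

/-- `Δ (M₁ ·)` with coefficients in `ℚ̄`. -/
def discLevel (M₁ : ℕ) [NeZero M₁] : Ser := qExpand Qbar M₁ (Igusa.discSeries Qbar)

omit [NeZero q] [Fact (Nat.Prime q)] in
theorem discLevel_spec (M₁ : ℕ) [NeZero M₁] :
    discLevel M₁ ∈ X.intSer ∧ X.RatMod (discLevel M₁) ∧
      ∃ _ : qExpand Qbar M₁ (Igusa.discInvSeries Qbar) ∈ X.intSer,
        discLevel M₁ * qExpand Qbar M₁ (Igusa.discInvSeries Qbar) = 1 := by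
  refine ⟨(X.qExpand_mem_goodSer M₁ X.discSeries_mem_goodSer.1).1, X.ratMod_of_int fun n => ?_,
    (X.qExpand_mem_goodSer M₁ X.discSeries_mem_goodSer.2).1, ?_⟩
  · by_cases hn : (M₁ : ℤ) ∣ n
    · obtain ⟨i, rfl⟩ := hn
      rw [discLevel, qExpand_coeff_mul,
        ← (Igusa.coeffMap_discSeries (Int.castRingHom Qbar)).1]
      exact ⟨_, rfl⟩
    · exact ⟨0, by rw [discLevel, qExpand_coeff_of_not_dvd _ _ hn, Int.cast_zero]⟩
  · rw [discLevel, ← map_mul, Igusa.discSeries_mul_inv, map_one]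

omit [NeZero q] [Fact (Nat.Prime q)] in
theorem redS_discFam_none (M₁ : ℕ) [NeZero M₁] :
    X.redS ⟨discFam X M₁ none, (X.discFam_mem_goodSer M₁ none).1⟩ = 0 := by
  have h1 := X.qExpand_mem_goodSer M₁ X.discSeries_mem_goodSer.1
  have h2 := X.qExpand_mem_goodSer M₁ X.discSeries_mem_goodSer.2
  have hrest : (q : Ser) ^ 11 * (X.sub none (qExpand Qbar M₁ (Igusa.discSeries Qbar)) *
      X.up (qExpand Qbar M₁ (Igusa.discInvSeries Qbar))) ∈ X.intSer :=
    (mul_mem (pow_mem (natCast_mem X.goodSer q) 11)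
      (mul_mem (X.sub_mem_goodSer none h1) (X.up_mem_goodSer h2))).1
  have e : discFam X M₁ none = (q : Ser) * ((q : Ser) ^ 11 *
      (X.sub none (qExpand Qbar M₁ (Igusa.discSeries Qbar)) *
        X.up (qExpand Qbar M₁ (Igusa.discInvSeries Qbar)))) := by
    rw [discFam, pow_succ', mul_assoc]
  rw [show (⟨discFam X M₁ none, _⟩ : X.intSer) = ⟨_, e ▸ (X.discFam_mem_goodSer M₁ none).1⟩ from
    Subtype.ext e]
  exact X.redS_eq_zero_of_q_mul _ hrest

theorem redS_discFam_some (M₁ : ℕ) [NeZero M₁] (b : ZMod q) :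
    X.redS ⟨discFam X M₁ (some b), (X.discFam_mem_goodSer M₁ (some b)).1⟩ *
      X.redS ⟨discLevel M₁, (X.discLevel_spec M₁).1⟩ ^ q =
      X.redS ⟨discLevel M₁, (X.discLevel_spec M₁).1⟩ := by
  obtain ⟨hD, hr, hI, hDI⟩ := X.discLevel_spec M₁
  rw [X.redS_pow_q hD hr, show (⟨discFam X M₁ (some b), _⟩ : X.intSer) =
    ⟨X.sub (some b) (discLevel M₁), X.sub_some_mem_intSer b hD⟩ *
      ⟨X.up (qExpand Qbar M₁ (Igusa.discInvSeries Qbar)), X.up_mem_intSer hI⟩ from Subtype.ext rfl,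
    map_mul, X.redS_sub_some b hD, mul_assoc, ← map_mul,
    show (⟨X.up (qExpand Qbar M₁ (Igusa.discInvSeries Qbar)), X.up_mem_intSer hI⟩ *
      ⟨X.up (discLevel M₁), X.up_mem_intSer hD⟩ : X.intSer) = 1 from Subtype.ext (by
      show X.up _ * X.up _ = 1
      rw [← map_mul, mul_comm, hDI, map_one]), map_one, mul_one]

end Ctx

variable [NeZero q] [Fact q.Prime]

namespace Model

variable {X : Ctx q} {M₁ : ℕ} [NeZero M₁] (G : Model X M₁)

/-- The sum of the products of all but one of the translates of `d`. -/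
def hassePoly : MvPolynomial (Line q × GenH) X.O :=
  ∑ L : Line q, ∏ L' ∈ (Finset.univ : Finset (Line q)).erase L, MvPolynomial.X (L', GenH.disc)

omit [Fact (Nat.Prime q)] in
theorem rename_hassePoly (π : Equiv.Perm (Line q)) :
    MvPolynomial.rename (Prod.map π id) (hassePoly (X := X)) = hassePoly (X := X) := by
  classical
  simp only [hassePoly, map_sum, map_prod, MvPolynomial.rename_X, Prod.map_apply, id_eq]
  refine Fintype.sum_equiv π _ _ fun L => ?_
  refine Finset.prod_equiv π (fun L' => ?_) fun L' _ => rfl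
  simp

theorem exists_hasse : ∃ a : G.C, (a : Ser) ∈ G.hRing ∧
    X.RedZero ((a : Ser) * Ctx.discLevel M₁ ^ (q - 1) - 1) := by
  classical
  obtain ⟨c, hc, hup⟩ := G.symm_h (hassePoly (X := X)) rename_hassePoly
  have hcR : ((c : Ser)) ∈ G.hRing := by
    have := (Subalgebra.mem_map (f := G.C.val)
        (S := Algebra.adjoin X.O ({G.h, G.Dinv} : Set G.C))).mpr
      ⟨c, hc, rfl⟩
    rwa [AlgHom.map_adjoin, Set.image_pair] at this
  refine ⟨c, hcR, ?_⟩
  have hcI : (c : Ser) ∈ X.intSer := (X.goodSer_of_coeffInO (G.coeff_mem c c.2)).1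
  obtain ⟨hD, hr, hI, hDI⟩ := X.discLevel_spec M₁
  let d : Line q → X.intSer := fun L => ⟨discFam X M₁ L, (X.discFam_mem_goodSer M₁ L).1⟩
  have hsum : (⟨X.up (c : Ser), X.up_mem_intSer hcI⟩ : X.intSer) =
      ∑ L : Line q, ∏ L' ∈ (Finset.univ : Finset (Line q)).erase L, d L' := by
    refine Subtype.ext ?_
    show X.up (c : Ser) = _
    rw [← hup, hassePoly, map_sum]
    rw [show ((∑ L : Line q, ∏ L' ∈ (Finset.univ : Finset (Line q)).erase L, d L' : X.intSer) : Ser)
      = X.intSer.subtype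
          (∑ L : Line q, ∏ L' ∈ (Finset.univ : Finset (Line q)).erase L, d L') from rfl,
      map_sum]
    refine Finset.sum_congr rfl fun L _ => ?_
    rw [map_prod, map_prod]
    refine Finset.prod_congr rfl fun L' _ => ?_
    rw [MvPolynomial.aeval_X]
    rfl
  set D := X.redS ⟨Ctx.discLevel M₁, hD⟩ with hDdef
  have hD0 : D ≠ 0 := fun h => by
    have h1 := congrArg X.redS (show (⟨_, hD⟩ * ⟨_, hI⟩ : X.intSer) = 1 from Subtype.ext hDI)
    rw [map_mul, map_one, ← hDdef, h, zero_mul] at h1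
    exact zero_ne_one h1
  have hup' : X.redS ⟨X.up (c : Ser), X.up_mem_intSer hcI⟩ * D ^ (q * q) = D ^ q := by
    rw [hsum, map_sum, Finset.sum_mul, Finset.sum_eq_single (none : Line q)]
    · rw [map_prod, pow_mul, show (Finset.univ : Finset (Line q)).erase none =
          (Finset.univ : Finset (ZMod q)).map Function.Embedding.some by
          ext L; cases L <;> simp, Finset.prod_map]
      conv_lhs => arg 2; rw [show (D ^ q) ^ q = ∏ _b : ZMod q, D ^ q by
        rw [Finset.prod_const, Finset.card_univ, ZMod.card]]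
      rw [← Finset.prod_mul_distrib]
      rw [Finset.prod_congr rfl (g := fun _ => D) fun b _ => ?_, Finset.prod_const,
          Finset.card_univ,
        ZMod.card]
      exact X.redS_discFam_some M₁ b
    · intro L _ hL
      rw [map_prod, Finset.prod_eq_zero (Finset.mem_erase.mpr ⟨hL.symm, Finset.mem_univ none⟩)
        (X.redS_discFam_none M₁), zero_mul]
    · exact fun h => absurd (Finset.mem_univ _) h
  have hI' : (c : Ser) * Ctx.discLevel M₁ ^ (q - 1) - 1 ∈ X.intSer :=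
    sub_mem (mul_mem hcI (pow_mem hD _)) (one_mem _)
  refine (X.redS_eq_zero_iff ⟨_, hI'⟩).mp ((qExpand_injective (R := X.k) (N := q)) ?_)
  rw [map_zero, show (⟨_, hI'⟩ : X.intSer) = ⟨(c : Ser), hcI⟩ * ⟨_, hD⟩ ^ (q - 1) - 1 from rfl,
    map_sub, map_mul, map_pow, map_one, map_sub, map_mul, map_pow, map_one, ← X.redS_up hcI,
    ← X.redS_up hD, ← X.redS_pow_q hD hr, sub_eq_zero]
  refine mul_right_cancel₀ (pow_ne_zero q hD0) ?_
  rw [one_mul, mul_assoc, ← pow_succ, Nat.sub_add_cancel (NeZero.one_le : 1 ≤ q), ← pow_mul]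
  exact hup'

/-- The Hasse invariant of weight `0`: `Δ ^ (1 - q)` modulo `q`. -/
def hasse : G.C := G.exists_hasse.choose

theorem hasse_mem : (G.hasse : Ser) ∈ G.hRing := G.exists_hasse.choose_spec.1

theorem hasse_spec : X.RedZero ((G.hasse : Ser) * Ctx.discLevel M₁ ^ (q - 1) - 1) :=
  G.exists_hasse.choose_spec.2

end Model

end FLTAgent.CarayolSquare
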