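import Fermat.Agent.CarayolSquare.Chart
import Fermat.Agent.CarayolSquare.Residue
import Fermat.Agent.Igusa.Series
import Fermat.Agent.Igusa.ModularPolynomial
import Fermat.Prelude.Def_FLTPrelim_Ramification
import Mathlib.Algebra.MvPolynomial.Rename

/-!
# Modular input of the local geometry at `q`

All of the geometry of the split Cartan cover of the level `M₁` curve (`q ∤ M₁`) is phrased with
Laurent series over `ℚ̄`.  Series of level `M₁` use the parameter `s = exp (2πiτ/M₁)`, series of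
level `q M₁` the parameter `t = exp (2πiτ/(q M₁))`, so that `s = t ^ q`.

A *line* is an element of `Option (ZMod q)`.  For a function `c` of level `M₁` the translate of `c`
along a line `L` is `c ∘ R_L`, with `R_∞ = η · diag (q, 1)` and `R_b = (1, M₁ b; 0, q)`, all
congruent to `diag (1, q)` modulo `M₁`.
-/

set_option autoImplicit false

noncomputable section

open ModularCurve

namespace FLTAgent.CarayolSquare

local notation "Qbar" => AlgebraicClosure ℚ

/-- Laurent series over `ℚ̄`. -/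
abbrev Ser : Type := LaurentSeries (AlgebraicClosure ℚ)

/-- The ring of integers of `K` at the place `A`. -/
abbrev intK (A : ValuationSubring Qbar) (K : IntermediateField ℚ Qbar) : Subring K :=
  A.toSubring.comap (algebraMap K Qbar)

/-- Lines of `𝔽_q²`. -/
abbrev Line (q : ℕ) : Type := Option (ZMod q)

/-- The place at `q` with the field fixed by inertia and a primitive `q`-th root of unity. -/
structure Ctx (q : ℕ) where
  prime : q.Prime
  A : ValuationSubring Qbar
  lies : A.LiesOverPrime q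
  K : IntermediateField ℚ Qbar
  fixedData : FixedData (intK A K) K Qbar
  fixedData_A : fixedData.A = A
  fixedData_π : fixedData.π = (q : intK A K)
  dvr : IsDiscreteValuationRing (intK A K)
  res_surj : ∀ a ∈ A, ∃ c : intK A K, A.valuation (a - algebraMap K Qbar (c : K)) < 1
  roots : ∀ n : ℕ, 0 < n → ¬ q ∣ n → ∃ z : intK A K, IsPrimitiveRoot z n
  ζ : Qbar
  hζ : IsPrimitiveRoot ζ q

namespace Ctx

variable {q : ℕ} (X : Ctx q)

/-- The ring of integers of `K`. -/
abbrev O : Subring X.K := intK X.A X.K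

theorem neZero (X : Ctx q) : NeZero q := ⟨X.prime.ne_zero⟩

/-- Every coefficient of `s` lies in `O`. -/
def CoeffInO (s : Ser) : Prop := ∀ n, ∃ c : X.O, algebraMap X.K Qbar (c : X.K) = s.coeff n

/-- Every coefficient of `s` lies in the maximal ideal. -/
def RedZero (s : Ser) : Prop := ∀ n, X.A.valuation (s.coeff n) < 1

/-- `s` starts in degree `m` with a unit. -/
def UnitOrder (s : Ser) (m : ℤ) : Prop :=
  (∀ n < m, s.coeff n = 0) ∧ X.A.valuation (s.coeff m) = 1

/-- The root of unity of the context is nonzero. -/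
theorem ζ_ne_zero : X.ζ ≠ 0 := X.hζ.ne_zero X.prime.ne_zero

/-- `ζ ^ b` as a unit. -/
def zetaU (b : ZMod q) : Qbarˣ := Units.mk0 (X.ζ ^ b.val) (pow_ne_zero _ X.ζ_ne_zero)

/-- From the parameter `s` to the parameter `t`, with `s = t ^ q`. -/
def up : Ser →+* Ser := haveI := X.neZero; qExpand Qbar q

/-- Substitution of a line: `s ↦ t ^ (q ^ 2)` for `∞`, `s ↦ ζ ^ b t` for `b`. -/
def sub : Line q → Ser →+* Ser
  | none => X.up.comp X.up
  | some b => Igusa.scale (X.zetaU b)

end Ctx

/-- Nonnegative order. -/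
def NoPole (s : Ser) : Prop := ∀ n < 0, s.coeff n = 0

/-- `Σ cₙ sⁿ ↦ Σ n cₙ sⁿ`. -/
def thetaSer (s : Ser) : Ser where
  coeff n := (n : Qbar) * s.coeff n
  isPWO_support' := s.isPWO_support'.mono fun n hn h0 => hn (by simp [h0])

/-- Elements of `Frac C` integral over `O[u]`, for a ring of series. -/
def InChart {q : ℕ} (X : Ctx q) (C : Subalgebra X.O Ser) (u z : Ser) : Prop :=
  z ∈ IntermediateField.adjoin X.K (C : Set Ser) ∧ z ∈ intSet X.O ({u} : Set Ser)

/-- Generators of families of translates: base functions, translates, the unit `d`. -/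
inductive Gen (C : Type) : Type
  | base : C → Gen C
  | pull : C → Gen C
  | disc : Gen C

/-- The translates of `q ^ 12 Δ (q τ) / Δ (τ)`: its series along the lines. -/
def discFam {q : ℕ} (X : Ctx q) (M₁ : ℕ) [NeZero M₁] : Line q → Ser
  | none => (q : Ser) ^ 12 * (X.sub none (qExpand Qbar M₁ (Igusa.discSeries Qbar)) *
      X.up (qExpand Qbar M₁ (Igusa.discInvSeries Qbar)))
  | some b => X.sub (some b) (qExpand Qbar M₁ (Igusa.discSeries Qbar)) *
      X.up (qExpand Qbar M₁ (Igusa.discInvSeries Qbar))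

/-- The cusp read by a translate along a line. -/
def lineCusp {q : ℕ} {Cusp : Type} (twP twB : Cusp → Cusp) (δ : Cusp) : Line q → Cusp
  | none => twP δ
  | some _ => twB δ

/-- The series of a generator along a line at a cusp. -/
def genSer {q : ℕ} (X : Ctx q) (M₁ : ℕ) [NeZero M₁] {C : Type} {Cusp : Type}
    (cs : Cusp → C → Ser) (twP twB : Cusp → Cusp) (δ : Cusp) (L : Line q) : Gen C → Ser
  | .base a => X.up (cs δ a)
  | .pull a => X.sub L (cs (lineCusp twP twB δ L) a)
  | .disc => discFam X M₁ L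

/-- Generators of level `2` or `3`. -/
inductive GenH : Type
  | base : GenH
  | pull : GenH
  | disc : GenH

/-- The series of a generator of level `2` or `3` along a line. -/
def genHSer {q : ℕ} (X : Ctx q) (M₁ : ℕ) [NeZero M₁] (h : Ser) (L : Line q) : GenH → Ser
  | .base => X.up h
  | .pull => X.sub L h
  | .disc => discFam X M₁ L

/-- The level `M₁` modular input. -/
structure Model {q : ℕ} (X : Ctx q) (M₁ : ℕ) [NeZero M₁] where
  q_not_dvd : ¬ q ∣ M₁
  /-- expansions at `∞` of `K`-rational functions of level `M₁`, integral at all cusps -/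
  C : Subalgebra X.O Ser
  coeff_mem : ∀ c ∈ C, X.CoeffInO c
  saturate : ∀ c ∈ C, X.RedZero c → ∃ c' ∈ C, c = (q : Ser) * c'
  /-- expansions at all cusps -/
  Cusp : Type
  one : Cusp
  cs : Cusp → C →ₐ[X.O] Ser
  cs_one : ∀ c : C, cs one c = (c : Ser)
  cs_coeff : ∀ δ (c : C), X.CoeffInO (cs δ c)
  cs_injective : ∀ δ, Function.Injective (cs δ)
  /-- the cusps of the translates -/
  twP : Cusp → Cusp
  twB : Cusp → Cusp
  twB_one : twB one = one
  /-- the Hauptmodul of level `2` or `3` with its cusps -/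
  h : C
  roots : Finset X.O
  roots_zero : (0 : X.O) ∈ roots
  roots_sub : ∀ a ∈ roots, ∀ b ∈ roots, a ≠ b → IsUnit (a - b)
  Dinv : C
  Dinv_mul : Dinv * ∏ a ∈ roots, (h - algebraMap X.O C a) = 1
  twP_h : cs (twP one) h = (h : Ser)
  h_rat : ∀ n : ℤ, X.A.valuation ((h : Ser).coeff n ^ q - (h : Ser).coeff n) < 1
  h_order : ∃ e : ℕ, 0 < e ∧ ¬ q ∣ e ∧ X.UnitOrder (h : Ser) (-(e : ℤ))
  /-- `C` is finite over `O[h, 1/D]` and integrally closed -/
  finite : ∃ S : Finset Ser, ∀ c ∈ C, c ∈
    Submodule.span (Algebra.adjoin X.O ({(h : Ser), (Dinv : Ser)} : Set Ser)) (S : Set Ser)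
  normal : ∀ z ∈ IntermediateField.adjoin X.K (C : Set Ser),
    z ∈ intSet X.O ({(h : Ser), (Dinv : Ser)} : Set Ser) → z ∈ C
  /-- `C` is unramified over `O[h, 1/D]` modulo `q` -/
  unram : ∀ (c : X.O), (∀ a ∈ roots, IsUnit (c - a)) → ∀ z : C,
    (∀ φ : C →+* IsLocalRing.ResidueField X.A,
      φ (q : C) = 0 → φ (h - algebraMap X.O C c) = 0 → φ z = 0) →
    z ∈ Ideal.span {(q : C), h - algebraMap X.O C c}
  /-- symmetric functions of translates descend, compatibly with all cusps -/
  symm : ∀ P : MvPolynomial (Line q × Gen C) X.O,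
    (∀ π : Equiv.Perm (Line q), MvPolynomial.rename (Prod.map π id) P = P) →
    ∃ c : C, ∀ δ, MvPolynomial.aeval
      (fun v : Line q × Gen C => genSer X M₁ (fun δ a => cs δ a) twP twB δ v.1 v.2) P =
        X.up (cs δ c)
  /-- symmetric functions of translates of `h` and `d` only are functions of level `2` or `3` -/
  symm_h : ∀ P : MvPolynomial (Line q × GenH) X.O,
    (∀ π : Equiv.Perm (Line q), MvPolynomial.rename (Prod.map π id) P = P) →
    ∃ c ∈ Algebra.adjoin X.O ({h, Dinv} : Set C), MvPolynomial.aeval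
      (fun v : Line q × GenH => genHSer X M₁ (h : Ser) v.1 v.2) P = X.up (c : Ser)
  /-- relations between two translates hold for all pairs of lines and at all cusps -/
  transfer : ∀ (P : MvPolynomial (Bool × Gen C) X.O) (δ : Cusp) (L L' : Line q), L ≠ L' →
    (MvPolynomial.aeval (fun v : Bool × Gen C =>
        genSer X M₁ (fun δ a => cs δ a) twP twB δ (if v.1 then L else L') v.2) P = 0 ↔
      MvPolynomial.aeval (fun v : Bool × Gen C =>
        genSer X M₁ (fun δ a => cs δ a) twP twB one (if v.1 then none else some 0) v.2) P = 0)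
  /-- `(θ h) ^ 6 = R Δ` with `R` a unit -/
  theta : ∃ R ∈ Algebra.adjoin X.O ({h, Dinv} : Set C),
      ∃ R' ∈ Algebra.adjoin X.O ({h, Dinv} : Set C),
    R * R' = 1 ∧ thetaSer (h : Ser) ^ 6 = (R : Ser) * qExpand Qbar M₁ (Igusa.discSeries Qbar)
  /-- a parameter at one cusp without pole at another -/
  param : ∀ δ δ' : Cusp, ∃ τ : C, X.UnitOrder (cs δ τ) 1 ∧ NoPole (cs δ' τ)
  /-- the cusps over a point `u = 0`, `u ∈ {1/h} ∪ {h - a}` -/
  cusp_cover : ∀ u : Ser, (u = ((h : Ser))⁻¹ ∨
      ∃ a ∈ roots, u = (h : Ser) - algebraMap X.O Ser a) →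
    ∀ B : Subring Ser, (∀ z, z ∈ B ↔ InChart X C u z) →
    ∀ φ : B →+* IsLocalRing.ResidueField X.A,
      (∀ (c : X.O) (z : B), (z : Ser) = algebraMap X.O Ser c →
        φ z = IsLocalRing.residue X.A ⟨algebraMap X.K Qbar (c : X.K), c.2⟩) →
      (∀ z : B, (z : Ser) = u → φ z = 0) →
      ∃ (δ : Cusp) (csK : IntermediateField.adjoin X.K (C : Set Ser) →ₐ[X.K] Ser) (τ : B),
        (∀ c : C, csK ⟨(c : Ser), IntermediateField.subset_adjoin _ _ c.2⟩ = cs δ c) ∧
        (∀ (z : B) (hz : (z : Ser) ∈ IntermediateField.adjoin X.K (C : Set Ser)),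
          NoPole (csK ⟨z, hz⟩) ∧ ∃ a : X.A, (a : Qbar) = (csK ⟨z, hz⟩).coeff 0 ∧
            φ z = IsLocalRing.residue X.A a) ∧
        (∀ hτ : (τ : Ser) ∈ IntermediateField.adjoin X.K (C : Set Ser),
          X.UnitOrder (csK ⟨τ, hτ⟩) 1) ∧
        (∀ z : B, φ z = 0 → ∃ s : B, φ s ≠ 0 ∧ ∃ a b : B,
          (s : Ser) * z = (a : Ser) * (q : Ser) + (b : Ser) * τ) ∧
        ∀ z : C, NoPole (cs δ z) → ∃ s : B, φ s ≠ 0 ∧ (s : Ser) * z ∈ B
  /-- `j (d τ)` for `d ∣ M₁` -/
  jfun : ∀ (d : ℕ) [NeZero d], d ∣ M₁ → ∃ (hd : NeZero (M₁ * d)) (c : C),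
    (c : Ser) = @qExpand Qbar _ (M₁ * d) hd (jqModC Qbar) ∧ cs (twP one) c = (c : Ser)

end FLTAgent.CarayolSquare
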