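import Fermat.Agent.CarayolSquare.Geometry.Points

/-!
# Places dominating the Gauss valuations

A place at which `q` is not a unit and every `h - c` is a unit dominates the Gauss valuations: it
contains every function with vanishing orders at the three components (`mem_of_unit0`,
`valuation_of_unit0`).
-/

set_option autoImplicit false

noncomputable section

open Polynomial

namespace FLTAgent.CarayolSquare

variable {q : ℕ}

theorem Ctx.resK_eq_zero_iff (X : Ctx q) (c : X.O) : X.resK c = 0 ↔ ∃ d, c = (q : X.O) * d := by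
  have := X.dvr
  rw [← RingHom.mem_ker, IsLocalRing.ker_eq_maximalIdeal _ X.resK_surjective,
    X.irreducible_q.maximalIdeal_eq, Ideal.mem_span_singleton']
  exact ⟨fun ⟨d, hd⟩ => ⟨d, by rw [← hd, mul_comm]⟩, fun ⟨d, hd⟩ => ⟨d, by rw [hd, mul_comm]⟩⟩

theorem Ctx.isUnit_of_resK (X : Ctx q) {c : X.O} (hc : X.resK c ≠ 0) : IsUnit c := by
  have := X.dvr
  rw [← IsLocalRing.notMem_maximalIdeal, ← IsLocalRing.ker_eq_maximalIdeal _ X.resK_surjective]
  exact hc

variable [NeZero q] [Fact q.Prime]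

namespace Model

variable {X : Ctx q} {M₁ : ℕ} [NeZero M₁] (G : Model X M₁)


omit [NeZero q] [Fact (Nat.Prime q)] in
theorem redS_hSer_ne_const (c : X.k) :
    X.redS ⟨G.hSer, (X.goodSer_of_coeffInO (G.coeff_mem _ G.h.2)).1⟩ ≠ HahnSeries.C c := by
  intro h
  obtain ⟨e, he, -, -, hlead⟩ := G.h_order
  have h1 := congrArg (fun s : LaurentSeries X.k => s.coeff (-(e : ℤ))) h
  simp only [HahnSeries.C_apply, HahnSeries.coeff_single_of_ne (show -(e : ℤ) ≠ 0 by omega),
    Ctx.coeff_redS, IsLocalRing.residue_eq_zero_iff, X.A.valuation_lt_one_iff] at h1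
  exact h1.ne hlead

omit [NeZero q] [Fact (Nat.Prime q)] in
/-- The reduction of a polynomial in `h` with nonzero reduction is nonzero. -/
theorem not_redZero_aeval {p : X.O[X]} (hp : p.map X.resK ≠ 0) :
    ¬ X.RedZero ((aeval G.h p : G.C) : Ser) := by
  intro h0
  have hI : ∀ c : G.C, (c : Ser) ∈ X.intSer := fun c =>
    (X.goodSer_of_coeffInO (G.coeff_mem _ c.2)).1
  let ρ : G.C →+* LaurentSeries X.k := X.redS.comp (G.C.val.toRingHom.codRestrict X.intSer hI)
  have hρO : ∀ c : X.O, ρ (algebraMap X.O G.C c) = HahnSeries.C (X.resK c) := fun c => by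
    show X.redS ⟨algebraMap X.O Ser c, _⟩ = _
    ext n
    rw [Ctx.coeff_redS, HahnSeries.C_apply, HahnSeries.coeff_single]
    have hc : (algebraMap X.O Ser c).coeff n =
        if n = 0 then algebraMap X.K (AlgebraicClosure ℚ) (c : X.K) else 0 := by
      rw [X.algebraMap_eq_C, HahnSeries.C_apply, HahnSeries.coeff_single]
      split_ifs <;> rfl
    split_ifs with h
    · subst h
      rw [if_pos rfl] at hc
      exact congrArg (IsLocalRing.residue X.A) (Subtype.ext hc)
    · rw [if_neg h] at hc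
      exact (congrArg (IsLocalRing.residue X.A) (Subtype.ext hc : _ = (0 : X.A))).trans (map_zero _)
  have h1 : ρ (aeval G.h p) = 0 := (X.redS_eq_zero_iff ⟨_, hI _⟩).mpr h0
  have h2 : ρ (aeval G.h p) = eval (ρ G.h) ((p.map X.resK).map (HahnSeries.C : X.k →+* _)) := by
    rw [eval_map, eval₂_map, aeval_def, hom_eval₂]
    congr 1
    exact RingHom.ext hρO
  rw [h2, (IsAlgClosed.splits (p.map X.resK)).eq_prod_roots, Polynomial.map_mul, eval_mul,
    Polynomial.map_C, eval_C, Polynomial.map_multiset_prod, eval_multiset_prod, mul_eq_zero] at h1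
  rcases h1 with h1 | h1
  · exact hp (leadingCoeff_eq_zero.mp (HahnSeries.C_injective (h1.trans (map_zero _).symm)))
  · obtain ⟨r, hr, hr0⟩ := Multiset.mem_map.mp (Multiset.prod_eq_zero_iff.mp h1)
    obtain ⟨c, hc, rfl⟩ := Multiset.mem_map.mp hr
    obtain ⟨a, -, rfl⟩ := Multiset.mem_map.mp hc
    simp only [Polynomial.map_sub, map_X, Polynomial.map_C, eval_sub, eval_X, eval_C,
        sub_eq_zero] at hr0
    exact G.redS_hSer_ne_const a hr0

omit [NeZero q] [Fact (Nat.Prime q)] in
theorem redZero_iff_dvd (c : G.C) : X.RedZero (c : Ser) ↔ (q : G.C) ∣ c := by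
  constructor
  · intro h
    obtain ⟨c', hc', e⟩ := G.saturate c c.2 h
    exact ⟨⟨c', hc'⟩, Subtype.ext (by push_cast; exact e)⟩
  · rintro ⟨d, rfl⟩
    have hI : (d : Ser) ∈ X.intSer := (X.goodSer_of_coeffInO (G.coeff_mem _ d.2)).1
    have hqd : (q : Ser) * (d : Ser) ∈ X.intSer := mul_mem (natCast_mem _ _) hI
    have := (X.redS_eq_zero_iff ⟨_, hqd⟩).mp (X.redS_eq_zero_of_q_mul hqd hI)
    push_cast
    exact this

omit [NeZero q] [Fact (Nat.Prime q)] in
theorem redZero_mul {a b : G.C} (h : X.RedZero ((a * b : G.C) : Ser)) :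
    X.RedZero (a : Ser) ∨ X.RedZero (b : Ser) := by
  have hI : ∀ c : G.C, (c : Ser) ∈ X.intSer := fun c =>
    (X.goodSer_of_coeffInO (G.coeff_mem _ c.2)).1
  rw [← X.redS_eq_zero_iff ⟨_, hI a⟩, ← X.redS_eq_zero_iff ⟨_, hI b⟩, ← mul_eq_zero, ← map_mul]
  exact (X.redS_eq_zero_iff ⟨_, _⟩).mpr (by push_cast at h ⊢; exact h)

omit [NeZero q] [Fact (Nat.Prime q)] in
theorem not_redZero_one : ¬ X.RedZero ((1 : G.C) : Ser) := fun h => by
  have := h 0
  simp at this

omit [NeZero q] [Fact (Nat.Prime q)] in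
/-- A nonzero element of `C` is a power of `q` times one with nonzero reduction. -/
theorem exists_q_pow_mul {d : G.C} (hd : d ≠ 0) :
    ∃ (i : ℕ) (d' : G.C), d = (q : G.C) ^ i * d' ∧ ¬ X.RedZero (d' : Ser) := by
  classical
  obtain ⟨n, hn⟩ : ∃ n, (d : Ser).coeff n ≠ 0 := by
    by_contra h
    push Not at h
    exact hd (Subtype.ext (HahnSeries.ext (funext h)))
  obtain ⟨c, hc⟩ := G.coeff_mem _ d.2 n
  have hc0 : c ≠ 0 := fun h => hn (by rw [← hc, h]; simp)
  have := X.dvr
  obtain ⟨k, hk⟩ := IsDiscreteValuationRing.associated_pow_irreducible hc0 X.irreducible_q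
  have hbound : ∀ i, (q : G.C) ^ i ∣ d → i ≤ k := by
    rintro i ⟨e, he⟩
    obtain ⟨b, hb⟩ := G.coeff_mem _ e.2 n
    have h1 : c = (q : X.O) ^ i * b := by
      refine Subtype.ext ((algebraMap X.K (AlgebraicClosure ℚ)).injective ?_)
      show algebraMap X.K (AlgebraicClosure ℚ) (c : X.K) =
        algebraMap X.K (AlgebraicClosure ℚ) (((q : X.O) ^ i * b : X.O) : X.K)
      push_cast
      show algebraMap X.K (AlgebraicClosure ℚ) (c : X.K) =
        (q : AlgebraicClosure ℚ) ^ i * algebraMap X.K (AlgebraicClosure ℚ) (b : X.K)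
      rw [hb, hc, he]
      push_cast
      rw [← map_natCast (HahnSeries.C : AlgebraicClosure ℚ →+* Ser), ← map_pow,
        HahnSeries.C_mul_eq_smul, HahnSeries.coeff_smul, smul_eq_mul]
    have h2 : (q : X.O) ^ i ∣ (q : X.O) ^ k := (Dvd.intro b h1.symm).trans hk.dvd
    exact (pow_dvd_pow_iff X.prime_q.ne_zero X.prime_q.not_isUnit).mp h2
  let i := Nat.findGreatest (fun i => (q : G.C) ^ i ∣ d) k
  obtain ⟨d', hd'⟩ : (q : G.C) ^ i ∣ d :=
    Nat.findGreatest_spec (P := fun i => (q : G.C) ^ i ∣ d) (Nat.zero_le k) (by simp)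
  refine ⟨i, d', hd', fun h => ?_⟩
  have h1 : (q : G.C) ^ (i + 1) ∣ d := by
    rw [hd', pow_succ]; exact mul_dvd_mul_left _ ((G.redZero_iff_dvd d').mp h)
  have := Nat.le_findGreatest (P := fun i => (q : G.C) ^ i ∣ d) (hbound _ h1) h1
  exact Nat.not_succ_le_self i this

variable (W : ValuationSubring G.splitField) (hq : W.valuation (q : G.splitField) < 1)
  (hh : ∀ c : X.O, W.valuation (G.baseHom G.h - algebraMap X.O G.splitField c) = 1)

omit [NeZero q] [Fact (Nat.Prime q)] in
include hh in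
theorem h_mem_W : G.baseHom G.h ∈ W := by
  have := hh 0
  rw [map_zero, sub_zero] at this
  exact (W.valuation_le_one_iff _).mp this.le

omit [NeZero q] [Fact (Nat.Prime q)] in
include hh in
theorem algebraMap_mem_W (c : X.O) : algebraMap X.O G.splitField c ∈ W := by
  have h1 := G.h_mem_W W hh
  have h2 : G.baseHom G.h - algebraMap X.O G.splitField c ∈ W :=
      (W.valuation_le_one_iff _).mp (hh c).le
  have := sub_mem h1 h2
  rwa [sub_sub_cancel] at this

omit [NeZero q] [Fact (Nat.Prime q)] in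
include hq hh in
theorem valuation_aeval_eq_one {p : X.O[X]} (hp : p.map X.resK ≠ 0) :
    W.valuation (aeval (G.baseHom G.h) p) = 1 := by
  classical
  let : Module X.O G.splitField := Algebra.toModule
  set Φ := p.map X.resK with hΦ
  let W' : Subring G.splitField := W.toSubring
  have hmem : ∀ r : X.O[X], aeval (G.baseHom G.h) r ∈ W := by
    intro r
    rw [aeval_eq_sum_range]
    refine sum_mem fun i _ => ?_
    rw [Algebra.smul_def]
    exact mul_mem (G.algebraMap_mem_W W hh _) (pow_mem (G.h_mem_W W hh) i)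
  obtain ⟨l, hl⟩ := X.resK_surjective Φ.leadingCoeff
  choose lift hlift using X.resK_surjective
  set P : X.O[X] :=
      Polynomial.C l * (Φ.roots.map fun a => Polynomial.X - Polynomial.C (lift a)).prod with hP
  have hPmap : P.map X.resK = Φ := by
    rw [hP, Polynomial.map_mul, Polynomial.map_C, hl, Polynomial.map_multiset_prod,
        Multiset.map_map]
    conv_rhs => rw [(IsAlgClosed.splits Φ).eq_prod_roots]
    congr 2
    refine Multiset.map_congr rfl fun a _ => ?_
    simp [hlift]
  obtain ⟨Q, hQ⟩ : Polynomial.C (q : X.O) ∣ p - P := by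
    rw [C_dvd_iff_dvd_coeff]
    intro i
    obtain ⟨d, hd⟩ := (X.resK_eq_zero_iff ((p - P).coeff i)).mp (by
      rw [coeff_sub, map_sub, ← coeff_map, ← coeff_map, hPmap, sub_self])
    exact ⟨d, hd⟩
  have hlu : W.valuation (algebraMap X.O G.splitField l) = 1 := by
    obtain ⟨l', hl'⟩ := (X.isUnit_of_resK (c := l) (by
      rw [hl]; exact leadingCoeff_ne_zero.mpr hp)).exists_right_inv
    refine le_antisymm ((W.valuation_le_one_iff _).mpr (G.algebraMap_mem_W W hh l)) ?_
    have h := congrArg (fun c => W.valuation (algebraMap X.O G.splitField c)) hl'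
    simp only [map_mul, map_one] at h
    exact h ▸ mul_le_of_le_one_right'
        ((W.valuation_le_one_iff _).mpr (G.algebraMap_mem_W W hh l'))
  have hP1 : W.valuation (aeval (G.baseHom G.h) P) = 1 := by
    rw [hP, map_mul, aeval_C, map_mul, hlu, one_mul, map_multiset_prod, map_multiset_prod,
      Multiset.map_map, Multiset.map_map]
    refine Multiset.prod_eq_one fun v hv => ?_
    obtain ⟨a, -, rfl⟩ := Multiset.mem_map.mp hv
    show W.valuation (aeval (G.baseHom G.h) (Polynomial.X - Polynomial.C (lift a))) = 1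
    rw [map_sub, aeval_X, aeval_C]
    exact hh (lift a)
  have e : p = P + Polynomial.C (q : X.O) * Q := by rw [← hQ]; ring
  have hlt : W.valuation (aeval (G.baseHom G.h) (Polynomial.C (q : X.O) * Q)) <
      W.valuation (aeval (G.baseHom G.h) P) := by
    rw [hP1, map_mul, map_mul, aeval_C, map_natCast]
    exact lt_of_le_of_lt (mul_le_of_le_one_right' ((W.valuation_le_one_iff _).mpr (hmem Q))) hq
  rw [e, map_add (aeval (G.baseHom G.h)) P (Polynomial.C (q : X.O) * Q),
    W.valuation.map_add_eq_of_lt_left hlt, hP1]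

omit [NeZero q] [Fact (Nat.Prime q)] in
theorem coordH_map_ne_zero (N : ℕ) : (G.coordH.E ^ N).map X.resK ≠ 0 := by
  rw [Polynomial.map_pow]
  refine pow_ne_zero _ ?_
  show (∏ a ∈ G.roots, (Polynomial.X - Polynomial.C a)).map X.resK ≠ 0
  exact ((monic_prod_of_monic _ _ fun a _ => monic_X_sub_C a).map _).ne_zero

omit [NeZero q] [Fact (Nat.Prime q)] in
theorem aeval_baseHom (p : X.O[X]) : aeval (G.baseHom G.h) p = G.baseHom (aeval G.h p) :=
  aeval_algHom_apply G.baseHom G.h p

omit [NeZero q] [Fact (Nat.Prime q)] in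
include hq hh in
/-- Elements of `O[h, 1/D]` with nonzero reduction are units at `W`. -/
theorem valuation_hRing {a : G.C} (ha : (a : Ser) ∈ G.hRing) :
    G.baseHom a ∈ W ∧ (¬ X.RedZero (a : Ser) → W.valuation (G.baseHom a) = 1) := by
  obtain ⟨N, hN⟩ := G.coordH.clear _ ha
  rw [Algebra.adjoin_singleton_eq_range_aeval] at hN
  obtain ⟨p, hp⟩ := hN
  have e : (aeval G.h (G.coordH.E ^ N)) * a = aeval G.h p := Subtype.ext (by
    show G.C.val (aeval G.h (G.coordH.E ^ N)) * (a : Ser) = G.C.val (aeval G.h p)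
    rw [← aeval_algHom_apply, ← aeval_algHom_apply, map_pow]
    exact hp.symm)
  have e' := congrArg G.baseHom e
  rw [map_mul, ← G.aeval_baseHom, ← G.aeval_baseHom] at e'
  have hE := G.valuation_aeval_eq_one W hq hh (G.coordH_map_ne_zero N)
  have hv : W.valuation (G.baseHom a) = W.valuation (aeval (G.baseHom G.h) p) := by
    rw [← e', map_mul, hE, one_mul]
  refine ⟨(W.valuation_le_one_iff _).mp ?_, fun h0 => ?_⟩
  · rw [hv, W.valuation_le_one_iff, aeval_eq_sum_range]
    refine sum_mem fun i _ => ?_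
    rw [Algebra.smul_def]
    exact mul_mem (G.algebraMap_mem_W W hh _) (pow_mem (G.h_mem_W W hh) i)
  · rw [hv]
    refine G.valuation_aeval_eq_one W hq hh fun hp0 => ?_
    have hred : X.RedZero ((aeval G.h p : G.C) : Ser) := by
      rw [G.redZero_iff_dvd]
      obtain ⟨Q, hQ⟩ : Polynomial.C (q : X.O) ∣ p := by
        rw [C_dvd_iff_dvd_coeff]
        intro i
        obtain ⟨d, hd⟩ := (X.resK_eq_zero_iff (p.coeff i)).mp (by rw [← coeff_map, hp0, coeff_zero])
        exact ⟨d, hd⟩
      exact ⟨aeval G.h Q, by rw [hQ, map_mul, aeval_C, map_natCast]⟩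
    rw [← e] at hred
    exact (G.redZero_mul hred).elim (G.not_redZero_aeval (G.coordH_map_ne_zero N)) h0

omit [NeZero q] [Fact (Nat.Prime q)] in
include hq hh in
theorem baseHom_mem_W (c : G.C) : G.baseHom c ∈ W := by
  obtain ⟨P, hP, hPc⟩ := G.isIntegral_hRing c
  let inc : G.hRing →+* G.C := (Subalgebra.inclusion G.hRing_le_C).toRingHom
  let θ : G.hRing →+* W := (G.baseHom.toRingHom.comp inc).codRestrict W.toSubring fun a =>
    (G.valuation_hRing W hq hh (a := inc a) a.2).1
  have hz : IsIntegral W (G.baseHom c) := by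
    refine ⟨P.map θ, hP.map _, ?_⟩
    rw [eval₂_map]
    have h1 : eval₂ inc c P = 0 := Subtype.ext (by
      show G.C.val.toRingHom (eval₂ inc c P) = 0
      rw [hom_eval₂]
      exact hPc)
    show eval₂ (G.baseHom.toRingHom.comp inc) (G.baseHom.toRingHom c) P = 0
    rw [← hom_eval₂, h1, map_zero]
  obtain ⟨y, hy⟩ := IsIntegrallyClosed.isIntegral_iff.mp hz
  rw [← hy]
  exact y.2

omit [NeZero q] [Fact (Nat.Prime q)] in
include hq hh in
theorem valuation_baseHom_eq_one {d : G.C} (hd : ¬ X.RedZero (d : Ser)) :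
    W.valuation (G.baseHom d) = 1 := by
  classical
  let : Module X.O G.splitField := Algebra.toModule
  let inc : G.hRing →+* G.C := (Subalgebra.inclusion G.hRing_le_C).toRingHom
  obtain ⟨P, hP, hPd⟩ := G.isIntegral_hRing d
  have h0 : eval₂ inc d P = 0 := Subtype.ext (by
    show G.C.val.toRingHom (eval₂ inc d P) = 0
    rw [hom_eval₂]
    exact hPd)
  -- a monic relation modulo `q` of least degree
  have hex : ∃ n, ∃ Q : G.hRing[X], Q.Monic ∧ Q.natDegree = n ∧ (q : G.C) ∣ eval₂ inc d Q :=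
    ⟨_, P, hP, rfl, by rw [h0]; exact dvd_zero _⟩
  let : DecidablePred fun n => ∃ Q : G.hRing[X],
      Q.Monic ∧ Q.natDegree = n ∧ (q : G.C) ∣ eval₂ inc d Q := Classical.decPred _
  obtain ⟨Q, hQ, hQn, hQd⟩ := Nat.find_spec hex
  have hn : 0 < Q.natDegree := Nat.pos_of_ne_zero fun h => by
    rw [hQ.natDegree_eq_zero.mp h, eval₂_one] at hQd
    exact G.not_redZero_one ((G.redZero_iff_dvd 1).mpr hQd)
  obtain ⟨R, hR⟩ : Polynomial.X ∣ Q - Polynomial.C (Q.coeff 0) := X_dvd_iff.mpr (by simp)
  have hQe : Q = Polynomial.X * R + Polynomial.C (Q.coeff 0) := by rw [← hR]; ring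
  have hQev : eval₂ inc d Q = d * eval₂ inc d R + inc (Q.coeff 0) := by
    conv_lhs => rw [hQe]
    rw [eval₂_add, eval₂_mul, eval₂_X, eval₂_C]
  have ha : ¬ X.RedZero (inc (Q.coeff 0) : Ser) := by
    intro ha
    have h1 : (q : G.C) ∣ d * eval₂ inc d R := by
      have := dvd_sub hQd ((G.redZero_iff_dvd _).mp ha)
      rwa [hQev, add_sub_cancel_right] at this
    have h2 : (q : G.C) ∣ eval₂ inc d R :=
      (G.redZero_iff_dvd _).mp ((G.redZero_mul ((G.redZero_iff_dvd _).mpr h1)).resolve_left hd)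
    have hXR : (Polynomial.X * R).Monic := by
      rw [← hR]
      refine hQ.sub_of_left ?_
      exact (degree_C_le).trans_lt (by
        rw [degree_eq_natDegree hQ.ne_zero]; exact_mod_cast hn)
    have hRm : R.Monic := monic_X.of_mul_monic_left hXR
    have hdeg : R.natDegree < Nat.find hex := by
      rw [← hQn, hQe, natDegree_add_C, monic_X.natDegree_mul hRm, natDegree_X]
      omega
    exact Nat.find_min hex hdeg ⟨R, hRm, rfl, h2⟩
  obtain ⟨e, he⟩ := hQd
  rw [hQev] at he
  have h1 := congrArg G.baseHom he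
  rw [map_add, map_mul, map_mul, map_natCast] at h1
  refine le_antisymm ((W.valuation_le_one_iff _).mpr (G.baseHom_mem_W W hq hh d))
      (not_lt.mp fun hlt => ?_)
  have ha1 := (G.valuation_hRing W hq hh (a := inc (Q.coeff 0)) (Q.coeff 0).2).2 ha
  have e1 : G.baseHom (inc (Q.coeff 0)) =
      (q : G.splitField) * G.baseHom e - G.baseHom d * G.baseHom (eval₂ inc d R) := by
    rw [← h1]; ring
  have h2 : W.valuation (G.baseHom (inc (Q.coeff 0))) < 1 := by
    rw [e1]
    refine (W.valuation.map_sub _ _).trans_lt (max_lt ?_ ?_)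
    · rw [map_mul]
      exact lt_of_le_of_lt (mul_le_of_le_one_right'
        ((W.valuation_le_one_iff _).mpr (G.baseHom_mem_W W hq hh e))) hq
    · rw [map_mul]
      exact lt_of_le_of_lt (mul_le_of_le_one_right'
        ((W.valuation_le_one_iff _).mpr (G.baseHom_mem_W W hq hh _))) hlt
  rw [ha1] at h2
  exact lt_irrefl _ h2

include hq hh in
/-- **`W` dominates the Gauss valuations.** -/
theorem mem_of_unit0 {z : G.splitField} (hz : G.Unit0 z) : z ∈ W := by
  classical
  obtain ⟨a, d, hd, hcoef⟩ := G.exists_coeff z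
  set Q := ∏ P : Pair q, (Polynomial.X - Polynomial.C (G.emb G.one P z)) with hQ
  choose hm he using fun P : Pair q => G.emb_red P (hz.mem (kindOf P))
  have hQG : ∀ n, G.emb G.one (kindPair none) (G.baseHom (a n) / G.baseHom d) ∈ X.gaussRing := by
    intro n
    rw [hcoef]
    have : Q = (∏ P : Pair q, (Polynomial.X - Polynomial.C (⟨_, hm P⟩ : X.gaussRing))).map
        X.gaussRing.subtype := by
      simp [hQ, Polynomial.map_prod]
    show Q.coeff n ∈ X.gaussRing
    rw [this, coeff_map]
    exact Subtype.coe_prop _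
  have hq0 : (q : G.splitField) ≠ 0 := Nat.cast_ne_zero.mpr X.prime.ne_zero
  have hW : ∀ n, G.baseHom (a n) / G.baseHom d ∈ W := by
    intro n
    rcases eq_or_ne (a n) 0 with h0 | h0
    · rw [h0, map_zero, zero_div]; exact W.zero_mem
    obtain ⟨l, a', ha', ha1⟩ := G.exists_q_pow_mul h0
    obtain ⟨k, d', hd', hd1⟩ :=
        G.exists_q_pow_mul (show d ≠ 0 from fun h => hd (by rw [h, map_zero]))
    have hd0 : G.baseHom d' ≠ 0 := (G.unit0_baseHom hd1).ne_zero
    have hu : G.Unit0 (G.baseHom a' / G.baseHom d') := by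
      rw [div_eq_mul_inv]; exact (G.unit0_baseHom ha1).mul (G.unit0_baseHom hd1).inv
    have hβV : G.baseHom (a n) / G.baseHom d ∈ G.V none := hQG n
    rcases le_or_gt k l with hkl | hkl
    · obtain ⟨i, rfl⟩ := Nat.exists_eq_add_of_le hkl
      have e : G.baseHom (a n) / G.baseHom d = (q : G.splitField) ^ i *
          (G.baseHom a' / G.baseHom d') := by
        rw [ha', hd', map_mul, map_mul, map_pow, map_pow, map_natCast, pow_add]
        field_simp
      rw [e]
      refine mul_mem (pow_mem (natCast_mem _ _) i) ((W.valuation_le_one_iff _).mp ?_)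
      rw [map_div₀, G.valuation_baseHom_eq_one W hq hh hd1, div_one, W.valuation_le_one_iff]
      exact G.baseHom_mem_W W hq hh a'
    · exfalso
      obtain ⟨i, rfl⟩ := Nat.exists_eq_add_of_lt hkl
      have e : (q : G.splitField) ^ (i + 1) * (G.baseHom (a n) / G.baseHom d) =
          G.baseHom a' / G.baseHom d' := by
        rw [ha', hd', map_mul, map_mul, map_pow, map_pow, map_natCast, add_assoc, pow_add]
        field_simp
        ring
      refine hu.red_ne_zero none ?_
      rw [← e, G.red_mul (pow_mem (natCast_mem _ _) _) hβV, G.red_pow (natCast_mem _ _),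
        G.red_natCast_q, zero_pow (Nat.succ_ne_zero i), zero_mul]
  let θ : W →+* G.splitField := W.subtype
  have hQm : Q.Monic := monic_prod_of_monic _ _ fun _ _ => monic_X_sub_C _
  let Φ : G.splitField[X] := ∑ n ∈ Finset.range (Q.natDegree + 1),
      monomial n (G.baseHom (a n) / G.baseHom d)
  have hΦ : Φ.map (G.emb G.one (Pair.base q)).toRingHom = Q := by
    conv_rhs => rw [Q.as_sum_range' _ (Nat.lt_succ_self _)]
    simp only [Φ, Polynomial.map_sum, map_monomial, AlgHom.toRingHom_eq_coe, RingHom.coe_coe, hcoef]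
  have hΦm : Φ.Monic := monic_of_injective (G.emb G.one (Pair.base q)).toRingHom.injective
    (hΦ.symm ▸ hQm)
  have hroot : eval z Φ = 0 := (G.emb G.one (Pair.base q)).toRingHom.injective (by
    rw [map_zero, ← eval_map_apply, hΦ]
    simp only [hQ, eval_prod]
    exact Finset.prod_eq_zero (Finset.mem_univ (Pair.base q)) (by simp))
  obtain ⟨R, hR, -, hRm⟩ := lifts_and_degree_eq_and_monic (f := θ) ((lifts_iff_coeff_lifts Φ).mpr
    fun i => by
      refine ⟨⟨Φ.coeff i, ?_⟩, rfl⟩
      simp only [Φ, finsetSum_coeff, coeff_monomial]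
      refine sum_mem fun n _ => ?_
      split_ifs
      · exact hW n
      · exact W.zero_mem) hΦm
  obtain ⟨y, hy⟩ := IsIntegrallyClosed.isIntegral_iff.mp
    (⟨R, hRm, by
      show eval₂ θ z R = 0
      rw [← eval_map, hR]
      exact hroot⟩ : IsIntegral W z)
  rw [← hy]
  exact y.2

include hq hh in
theorem valuation_of_unit0 {z : G.splitField} (hz : G.Unit0 z) : W.valuation z = 1 := by
  refine le_antisymm ((W.valuation_le_one_iff _).mpr (G.mem_of_unit0 W hq hh hz)) ?_
  have h := (W.valuation_le_one_iff _).mpr (G.mem_of_unit0 W hq hh hz.inv)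
  rw [map_inv₀] at h
  exact (inv_le_one₀ (W.valuation.pos_iff.mpr hz.ne_zero)).mp h

end Model

end FLTAgent.CarayolSquare
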